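import Mathlib
import Fermat.Prelude.Def_AlgebraicCurve_DivisorClassGroup

/-!
# S18 / (KL) : abstract part, definitions (helper27)

`K` an algebraically closed field of characteristic `0`, `A` a valuation subring with residue field
`kk A`, `L = K(τ)` a rational function field, `E / L` a finite field extension.

* `evL A τ : A[X] → L`, `evE A τ E : A[X] → E` : evaluation at `τ`;
* `redP A : A[X] → (kk A)[X]` : reduction of polynomials; `S` is *primitive* iff `redP A S ≠ 0`;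
* `OG A τ` : the Gauss valuation ring of `L`;
* `C0 A τ E` : integral closure of `A[τ]` in `E`;
* `VV A τ E` : integral closure of `OG A τ` in `E` (= localisation of `C0` at the primitive polynomials);
* `Sm0`, `SmV` : membership in `𝔪 C0`, `𝔪 VV`.
-/

set_option autoImplicit false

noncomputable section

namespace Fermat.Agent.S18.KL

open Polynomial

variable {K : Type*} [Field K] (A : ValuationSubring K)

/-- the residue field of `A` -/
abbrev kk : Type _ := IsLocalRing.ResidueField A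

/-- reduction of polynomials -/
def redP : (↥A)[X] →+* (kk A)[X] := Polynomial.mapRingHom (IsLocalRing.residue A)

variable {L : Type*} [Field L] [Algebra K L] (τ : L)

/-- evaluation `A[X] → L`, `X ↦ τ` -/
def evL : (↥A)[X] →+* L := Polynomial.eval₂RingHom ((algebraMap K L).comp A.subtype) τ

/-- `L = K(τ)` -/
def IsGen (K : Type*) [Field K] {L : Type*} [Field L] [Algebra K L] (τ : L) : Prop :=
  ∀ x : L, ∃ P Q : K[X], Q ≠ 0 ∧ x * aeval τ Q = aeval τ P

/-- the Gauss valuation ring of `L = K(τ)` -/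
def OG : Subring L where
  carrier := {x | ∃ P S : (↥A)[X], redP A S ≠ 0 ∧ evL A τ S * x = evL A τ P}
  mul_mem' := by
    rintro a b ⟨P, S, hS, ha⟩ ⟨P', S', hS', hb⟩
    refine ⟨P * P', S * S', by rw [map_mul]; exact mul_ne_zero hS hS', ?_⟩
    rw [map_mul, map_mul, ← ha, ← hb]; ring
  one_mem' := ⟨1, 1, by simp, by simp⟩
  add_mem' := by
    rintro a b ⟨P, S, hS, ha⟩ ⟨P', S', hS', hb⟩
    refine ⟨P * S' + P' * S, S * S', by rw [map_mul]; exact mul_ne_zero hS hS', ?_⟩
    rw [map_mul, map_add, map_mul, map_mul, ← ha, ← hb]; ring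
  zero_mem' := ⟨0, 1, by simp, by simp⟩
  neg_mem' := by
    rintro a ⟨P, S, hS, ha⟩
    exact ⟨-P, S, hS, by rw [map_neg, ← ha]; ring⟩

theorem mem_OG {x : L} :
    x ∈ OG A τ ↔ ∃ P S : (↥A)[X], redP A S ≠ 0 ∧ evL A τ S * x = evL A τ P := Iff.rfl

/-- `x ∈ 𝔪 OG` -/
def SmG (x : L) : Prop :=
  ∃ a ∈ IsLocalRing.maximalIdeal A, ∃ y ∈ OG A τ, x = evL A τ (C a) * y

/-- coefficientwise inclusion `A[X] → K[X]` -/
def incP : (↥A)[X] →+* K[X] := Polynomial.mapRingHom A.subtype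

variable (E : Type*) [Field E] [Algebra L E]

/-- evaluation `A[X] → E` -/
def evE : (↥A)[X] →+* E := (algebraMap L E).comp (evL A τ)

theorem evE_apply (P : (↥A)[X]) : evE A τ E P = algebraMap L E (evL A τ P) := rfl

/-- evaluation `K[X] → E` -/
def evK (K : Type*) [Field K] {L : Type*} [Field L] [Algebra K L] (τ : L)
    (E : Type*) [Field E] [Algebra L E] : K[X] →+* E :=
  (algebraMap L E).comp (aeval τ : K[X] →ₐ[K] L).toRingHom

/-- integral closure of `A[τ]` in `E` -/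
def C0 : Subring E where
  carrier := {x | (evE A τ E).IsIntegralElem x}
  mul_mem' := fun ha hb => RingHom.IsIntegralElem.mul _ ha hb
  one_mem' := by
    have := (evE A τ E).isIntegralElem_map (x := 1)
    rwa [map_one] at this
  add_mem' := fun ha hb => RingHom.IsIntegralElem.add _ ha hb
  zero_mem' := by
    have := (evE A τ E).isIntegralElem_map (x := 0)
    rwa [map_zero] at this
  neg_mem' := fun ha => RingHom.IsIntegralElem.neg _ ha

theorem mem_C0 {x : E} : x ∈ C0 A τ E ↔ (evE A τ E).IsIntegralElem x := Iff.rfl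

theorem evE_mem_C0 (P : (↥A)[X]) : evE A τ E P ∈ C0 A τ E := (evE A τ E).isIntegralElem_map

/-- integral closure of `K[τ]` in `E` -/
def B0 (K : Type*) [Field K] {L : Type*} [Field L] [Algebra K L] (τ : L)
    (E : Type*) [Field E] [Algebra L E] : Subring E where
  carrier := {x | (evK K τ E).IsIntegralElem x}
  mul_mem' := fun ha hb => RingHom.IsIntegralElem.mul _ ha hb
  one_mem' := by
    have := (evK K τ E).isIntegralElem_map (x := 1)
    rwa [map_one] at this
  add_mem' := fun ha hb => RingHom.IsIntegralElem.add _ ha hb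
  zero_mem' := by
    have := (evK K τ E).isIntegralElem_map (x := 0)
    rwa [map_zero] at this
  neg_mem' := fun ha => RingHom.IsIntegralElem.neg _ ha

theorem mem_B0 {x : E} : x ∈ B0 K τ E ↔ (evK K τ E).IsIntegralElem x := Iff.rfl

/-- integral closure of the Gauss ring in `E` -/
def VV : Subring E where
  carrier := {x | ∃ S : (↥A)[X], redP A S ≠ 0 ∧ evE A τ E S * x ∈ C0 A τ E}
  mul_mem' := by
    rintro a b ⟨S, hS, ha⟩ ⟨S', hS', hb⟩
    refine ⟨S * S', by rw [map_mul]; exact mul_ne_zero hS hS', ?_⟩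
    have : evE A τ E (S * S') * (a * b) = (evE A τ E S * a) * (evE A τ E S' * b) := by
      rw [map_mul]; ring
    rw [this]; exact (C0 A τ E).mul_mem ha hb
  one_mem' := ⟨1, by simp, by simpa using (C0 A τ E).one_mem⟩
  add_mem' := by
    rintro a b ⟨S, hS, ha⟩ ⟨S', hS', hb⟩
    refine ⟨S * S', by rw [map_mul]; exact mul_ne_zero hS hS', ?_⟩
    have : evE A τ E (S * S') * (a + b) =
        evE A τ E S' * (evE A τ E S * a) + evE A τ E S * (evE A τ E S' * b) := by
      rw [map_mul]; ring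
    rw [this]
    exact (C0 A τ E).add_mem ((C0 A τ E).mul_mem (evE_mem_C0 A τ E _) ha)
      ((C0 A τ E).mul_mem (evE_mem_C0 A τ E _) hb)
  zero_mem' := ⟨1, by simp, by simpa using (C0 A τ E).zero_mem⟩
  neg_mem' := by
    rintro a ⟨S, hS, ha⟩
    exact ⟨S, hS, by rw [mul_neg]; exact (C0 A τ E).neg_mem ha⟩

theorem mem_VV {x : E} :
    x ∈ VV A τ E ↔ ∃ S : (↥A)[X], redP A S ≠ 0 ∧ evE A τ E S * x ∈ C0 A τ E := Iff.rfl

theorem C0_le_VV : C0 A τ E ≤ VV A τ E := fun x hx => ⟨1, by simp, by simpa using hx⟩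

/-- `x ∈ 𝔪 C0` -/
def Sm0 (x : E) : Prop :=
  ∃ a ∈ IsLocalRing.maximalIdeal A, ∃ y ∈ C0 A τ E, x = evE A τ E (C a) * y

/-- `x ∈ 𝔪 VV` -/
def SmV (x : E) : Prop :=
  ∃ a ∈ IsLocalRing.maximalIdeal A, ∃ y ∈ VV A τ E, x = evE A τ E (C a) * y

/-- integral closure of `A[τ, τ⁻¹]` in `E` -/
def C01 : Subring E where
  carrier := {x | ∃ m : ℕ, evE A τ E (X ^ m) * x ∈ C0 A τ E}
  mul_mem' := by
    rintro a b ⟨m, ha⟩ ⟨m', hb⟩
    refine ⟨m + m', ?_⟩
    have : evE A τ E (X ^ (m + m')) * (a * b) = (evE A τ E (X ^ m) * a) * (evE A τ E (X ^ m') * b) := by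
      rw [pow_add, map_mul]; ring
    rw [this]; exact (C0 A τ E).mul_mem ha hb
  one_mem' := ⟨0, by simpa using (C0 A τ E).one_mem⟩
  add_mem' := by
    rintro a b ⟨m, ha⟩ ⟨m', hb⟩
    refine ⟨m + m', ?_⟩
    have : evE A τ E (X ^ (m + m')) * (a + b) =
        evE A τ E (X ^ m') * (evE A τ E (X ^ m) * a) + evE A τ E (X ^ m) * (evE A τ E (X ^ m') * b) := by
      rw [pow_add, map_mul]; ring
    rw [this]
    exact (C0 A τ E).add_mem ((C0 A τ E).mul_mem (evE_mem_C0 A τ E _) ha)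
      ((C0 A τ E).mul_mem (evE_mem_C0 A τ E _) hb)
  zero_mem' := ⟨0, by simpa using (C0 A τ E).zero_mem⟩
  neg_mem' := by
    rintro a ⟨m, ha⟩
    exact ⟨m, by rw [mul_neg]; exact (C0 A τ E).neg_mem ha⟩

/-- `x ∈ 𝔪 C01` -/
def Sm01 (x : E) : Prop :=
  ∃ a ∈ IsLocalRing.maximalIdeal A, ∃ y ∈ C01 A τ E, x = evE A τ E (C a) * y

/-- **(R)** good generic reduction: a self-dual `OG`-lattice basis of `E / L`. -/
structure GoodRed (ι : Type*) [Fintype ι] where
  β : Module.Basis ι L E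
  mem : ∀ i, β i ∈ VV A τ E
  selfdual : ∀ x : E, (∀ i, Algebra.trace L E (x * β i) ∈ OG A τ) → ∀ i, β.repr x i ∈ OG A τ

/-- the output of the structure theorem (S1) -/
structure GoodBasis (n : ℕ) where
  w : Module.Basis (Fin n) L E
  mem : ∀ i, w i ∈ C0 A τ E
  d1 : (↥A)[X]
  red_d1 : redP A d1 = 1
  span : ∀ x ∈ C0 A τ E, ∀ i, ∃ c : (↥A)[X], evL A τ d1 * w.repr x i = evL A τ c
  indep : ∀ c : Fin n → (↥A)[X], Sm0 A τ E (∑ i, evE A τ E (c i) * w i) → ∀ i, redP A (c i) = 0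
  dual : ∀ x : E, (∀ i, Algebra.trace L E (x * w i) ∈ OG A τ) → x ∈ VV A τ E

/-- **(Br)** in trace-dual form: the codifferent of `B0` is contained in `θ⁻¹ rad(θ B0)`. -/
def DiffHyp (θ : (↥A)[X]) : Prop :=
  ∀ x : E, (∀ z ∈ B0 K τ E, ∃ g : K[X], Algebra.trace L E (x * z) = aeval τ g) →
    ∃ e : ℕ, 0 < e ∧ ∃ z' ∈ B0 K τ E, (evE A τ E θ * x) ^ e = evE A τ E θ * z'

/-- `C0` is a finitely generated `A[τ]`-module -/
def FgC0 : Prop :=
  ∃ G : Finset E, (∀ g ∈ G, g ∈ C0 A τ E) ∧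
    ∀ x ∈ C0 A τ E, ∃ c : E → (↥A)[X], x = ∑ g ∈ G, evE A τ E (c g) * g

/-- **(Br)** geometric form: `E / K(τ)` is unramified over every `c ≠ 0, c0` of the affine line. -/
def Br (K : Type*) [Field K] {L : Type*} [Field L] [Algebra K L] (τ : L)
    (E : Type*) [Field E] [Algebra L E] [Algebra K E] (c0 : K) : Prop :=
  ∀ (P : AlgebraicCurve.Place K E) (c : K), c ≠ 0 → c ≠ c0 →
    0 < P.ord (algebraMap L E τ - algebraMap K E c) →
      P.ord (algebraMap L E τ - algebraMap K E c) = 1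

/-- the value group of `A` is archimedean (rank one) -/
def Arch : Prop :=
  ∀ b ∈ IsLocalRing.maximalIdeal A, ∀ c : A, c ≠ 0 → ∃ n : ℕ, c ∣ b ^ n

end Fermat.Agent.S18.KL
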