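import Fermat.Agent.S18.Z.Sat

/-!
# S18 / (KL) abstract part : auxiliary lemmas for P3b, P3c (helper21)
-/

set_option autoImplicit false

noncomputable section

namespace Fermat.Agent.S18.KL

open Polynomial Matrix

namespace BasisAux

section Generic

variable {L E : Type*} [Field L] [Field E] [Algebra L E] {n : ℕ}

theorem trace_mul_basis (w : Module.Basis (Fin n) L E) (x : E) (j : Fin n) :
    Algebra.trace L E (x * w j) = ∑ k, Algebra.traceMatrix L w j k * w.repr x k := by
  conv_lhs => rw [← w.sum_repr x]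
  rw [Finset.sum_mul, map_sum]
  refine Finset.sum_congr rfl fun k _ => ?_
  rw [smul_mul_assoc, map_smul, smul_eq_mul, Algebra.traceMatrix_apply, Algebra.traceForm_apply,
    mul_comm (w k) (w j), mul_comm]

/-- Cramer's rule for the trace form -/
theorem det_mul_repr (w : Module.Basis (Fin n) L E) (x : E) (i : Fin n) :
    (Algebra.traceMatrix L w).det * w.repr x i =
      ∑ j, (Algebra.traceMatrix L w).adjugate i j * Algebra.trace L E (x * w j) := by
  set G := Algebra.traceMatrix L w with hG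
  have h : (fun j => Algebra.trace L E (x * w j)) = G *ᵥ (fun k => w.repr x k) := by
    funext j
    rw [trace_mul_basis]
    rfl
  have h2 : G.adjugate *ᵥ (G *ᵥ (fun k => w.repr x k)) = G.det • (fun k => w.repr x k) := by
    rw [Matrix.mulVec_mulVec, Matrix.adjugate_mul, Matrix.smul_mulVec, Matrix.one_mulVec]
  have h3 := congrFun h2 i
  rw [← h] at h3
  rw [Pi.smul_apply, smul_eq_mul] at h3
  rw [← h3]
  rfl

end Generic

variable {K : Type*} [Field K] {A : ValuationSubring K}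
variable {L : Type*} [Field L] [Algebra K L] {τ : L}
variable {E : Type*} [Field E] [Algebra L E]

theorem evE_mul_eq_smul (P : (↥A)[X]) (x : E) : evE A τ E P * x = evL A τ P • x := by
  rw [evE_apply, Algebra.smul_def]

theorem repr_sum_evE {n : ℕ} (w : Module.Basis (Fin n) L E) (c : Fin n → (↥A)[X]) (j : Fin n) :
    w.repr (∑ i, evE A τ E (c i) * w i) j = evL A τ (c j) := by
  simp_rw [evE_mul_eq_smul]
  rw [Module.Basis.repr_sum_self]

theorem sm0_zero : Sm0 A τ E 0 :=
  ⟨0, Submodule.zero_mem _, 0, (C0 A τ E).zero_mem, by simp⟩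

theorem sm0_sum {ι : Type*} (S : Finset ι) (f : ι → E) (h : ∀ i ∈ S, Sm0 A τ E (f i)) :
    Sm0 A τ E (∑ i ∈ S, f i) := by
  classical
  induction S using Finset.induction_on with
  | empty => simpa using sm0_zero
  | insert i S hi ih =>
    rw [Finset.sum_insert hi]
    exact Sm0.add A (h i (Finset.mem_insert_self i S))
      (ih fun j hj => h j (Finset.mem_insert_of_mem hj))

variable [FiniteDimensional L E]

/-- the Gram matrix of a family in `C0` has entries in `A[τ]` -/
theorem exists_gram (hτ : Transcendental K τ) (hgen : IsGen K τ) {n : ℕ} (v : Fin n → E)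
    (hv : ∀ i, v i ∈ C0 A τ E) :
    ∃ G0 : Matrix (Fin n) (Fin n) (↥A)[X], Algebra.traceMatrix L v = (evL A τ).mapMatrix G0 := by
  choose G0 hG0 using fun i j => trace_mem_of_C0 A hτ hgen ((C0 A τ E).mul_mem (hv i) (hv j))
  refine ⟨Matrix.of G0, ?_⟩
  ext i j
  rw [Algebra.traceMatrix_apply, Algebra.traceForm_apply, hG0]
  rfl

theorem exists_det (hτ : Transcendental K τ) (hgen : IsGen K τ) {n : ℕ} (v : Fin n → E)
    (hv : ∀ i, v i ∈ C0 A τ E) :
    ∃ d : (↥A)[X], evL A τ d = (Algebra.traceMatrix L v).det := by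
  obtain ⟨G0, hG0⟩ := exists_gram hτ hgen v hv
  exact ⟨G0.det, by rw [hG0, RingHom.map_det]⟩

theorem exists_cramer (hτ : Transcendental K τ) (hgen : IsGen K τ) {n : ℕ}
    (w : Module.Basis (Fin n) L E) (hw : ∀ i, w i ∈ C0 A τ E) {x : E} (hx : x ∈ C0 A τ E)
    (i : Fin n) :
    ∃ c : (↥A)[X], (Algebra.traceMatrix L w).det * w.repr x i = evL A τ c := by
  obtain ⟨G0, hG0⟩ := exists_gram hτ hgen w hw
  choose t ht using fun j => trace_mem_of_C0 A hτ hgen ((C0 A τ E).mul_mem hx (hw j))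
  refine ⟨∑ j, G0.adjugate i j * t j, ?_⟩
  rw [det_mul_repr, map_sum]
  refine Finset.sum_congr rfl fun j _ => ?_
  rw [ht, hG0, ← RingHom.map_adjugate, map_mul]
  rfl

theorem det_mul_repr_mem_OG (hτ : Transcendental K τ) (hgen : IsGen K τ) {n : ℕ}
    (w : Module.Basis (Fin n) L E) (hw : ∀ i, w i ∈ C0 A τ E) (x : E)
    (hx : ∀ i, Algebra.trace L E (x * w i) ∈ OG A τ) (i : Fin n) :
    (Algebra.traceMatrix L w).det * w.repr x i ∈ OG A τ := by
  obtain ⟨G0, hG0⟩ := exists_gram hτ hgen w hw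
  rw [det_mul_repr]
  refine Subring.sum_mem _ fun j _ => Subring.mul_mem _ ?_ (hx j)
  rw [hG0, ← RingHom.map_adjugate]
  exact evL_mem_OG A _

variable (A τ E) in
/-- a family in `C0` whose Gram determinant is a primitive polynomial -/
def IsPre {n : ℕ} (v : Fin n → E) (d : (↥A)[X]) : Prop :=
  (∀ i, v i ∈ C0 A τ E) ∧ evL A τ d = (Algebra.traceMatrix L v).det ∧ redP A d ≠ 0

omit [FiniteDimensional L E] in
theorem IsPre.linearIndependent (hτ : Transcendental K τ) {n : ℕ} {v : Fin n → E}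
    {d : (↥A)[X]} (h : IsPre A τ E v d) : LinearIndependent L v := by
  by_contra hli
  have h0 := Algebra.discr_zero_of_not_linearIndependent L hli
  rw [Algebra.discr_def] at h0
  exact evL_ne_zero A hτ h.2.2 (h.2.1.trans h0)

theorem IsPre.exists_basis (hτ : Transcendental K τ) {n : ℕ} (hn : Module.finrank L E = n)
    {v : Fin n → E} {d : (↥A)[X]} (h : IsPre A τ E v d) :
    ∃ w : Module.Basis (Fin n) L E, ⇑w = v := by
  have : Nonempty (Fin n) := ⟨⟨0, by rw [← hn]; exact Module.finrank_pos⟩⟩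
  exact ⟨basisOfLinearIndependentOfCardEqFinrank (h.linearIndependent hτ) (by simp [hn]),
    coe_basisOfLinearIndependentOfCardEqFinrank _ _⟩

theorem IsPre.indep (hτ : Transcendental K τ) (hgen : IsGen K τ) {n : ℕ}
    (w : Module.Basis (Fin n) L E) {d : (↥A)[X]} (h : IsPre A τ E w d) (c : Fin n → (↥A)[X])
    (hc : Sm0 A τ E (∑ i, evE A τ E (c i) * w i)) (i : Fin n) : redP A (c i) = 0 := by
  obtain ⟨a, ha, y, hy, e⟩ := hc
  obtain ⟨Q, hQ⟩ := exists_cramer hτ hgen w h.1 hy i
  have e1 : w.repr (∑ i, evE A τ E (c i) * w i) i = w.repr (evE A τ E (C a) * y) i := by rw [e]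
  rw [repr_sum_evE, evE_mul_eq_smul, map_smul, Finsupp.smul_apply, smul_eq_mul] at e1
  have e2 : d * c i = C a * Q := by
    apply evL_injective A hτ
    rw [map_mul, map_mul, ← hQ, e1, h.2.1]
    ring
  have e3 : redP A (d * c i) = 0 := by
    rw [e2]
    exact (redP_eq_zero_iff A _).mpr ⟨a, ha, Q, rfl⟩
  rw [map_mul] at e3
  exact (mul_eq_zero.mp e3).resolve_left h.2.2


omit [FiniteDimensional L E] in
theorem evE_mul_sub_sum {n : ℕ} (w : Module.Basis (Fin n) L E) (d : (↥A)[X]) (x : E)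
    (g P : Fin n → (↥A)[X]) (hg : ∀ i, evL A τ d * w.repr x i = evL A τ (g i)) :
    evE A τ E d * (x - ∑ i, evE A τ E (P i) * w i) = ∑ i, evE A τ E (g i - d * P i) * w i := by
  conv_lhs => rw [← w.sum_repr x]
  rw [← Finset.sum_sub_distrib, Finset.mul_sum]
  refine Finset.sum_congr rfl fun i _ => ?_
  rw [map_sub, map_mul, evE_apply, evE_apply, evE_apply, ← hg i, Algebra.smul_def, map_mul]
  ring

theorem IsPre.gen_or_smaller (hτ : Transcendental K τ) (hgen : IsGen K τ) {n : ℕ}
    (w : Module.Basis (Fin n) L E) {d : (↥A)[X]} (h : IsPre A τ E w d) {x : E}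
    (hx : x ∈ C0 A τ E) :
    (∃ c : Fin n → (↥A)[X], Sm0 A τ E (x - ∑ i, evE A τ E (c i) * w i)) ∨
      ∃ (v' : Fin n → E) (d' : (↥A)[X]), IsPre A τ E v' d' ∧
        (redP A d').natDegree < (redP A d).natDegree := by
  classical
  choose g hg using fun i => exists_cramer hτ hgen w h.1 hx i
  simp_rw [← h.2.1] at hg
  by_cases hdiv : ∀ i, redP A d ∣ redP A (g i)
  · left
    choose Pt hPt using hdiv
    choose P hP using fun i => redP_surjective A (Pt i)
    refine ⟨P, ?_⟩
    have hmem : x - ∑ i, evE A τ E (P i) * w i ∈ C0 A τ E :=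
      (C0 A τ E).sub_mem hx (Subring.sum_mem _ fun i _ =>
        (C0 A τ E).mul_mem (evE_mem_C0 A τ E _) (h.1 i))
    refine Sm0_of_SmV A hτ hgen hmem (SmV_of_evE_mul A hτ h.2.2 ?_)
    rw [evE_mul_sub_sum w d x g P hg]
    refine Sm0.SmV A (sm0_sum _ _ fun i _ => ?_)
    rw [mul_comm]
    refine Sm0.mul_left A (Sm0_evE_of_redP_eq_zero A ?_) (h.1 i)
    rw [map_sub, map_mul, hP, hPt, sub_self]
  · right
    push Not at hdiv
    obtain ⟨i0, hi0⟩ := hdiv
    obtain ⟨Q, hQ⟩ := redP_surjective A (redP A (g i0) / redP A d)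
    set x' := x - evE A τ E Q * w i0 with hx'
    set g' := g i0 - d * Q with hg'
    have hx'mem : x' ∈ C0 A τ E :=
      (C0 A τ E).sub_mem hx ((C0 A τ E).mul_mem (evE_mem_C0 A τ E _) (h.1 i0))
    have hred : redP A g' = redP A (g i0) % redP A d := by
      rw [hg', map_sub, map_mul, hQ, EuclideanDomain.mod_eq_sub_mul_div]
    have hR0 : redP A g' ≠ 0 := by
      rw [hred]
      intro h0
      exact hi0 ((EuclideanDomain.mod_eq_zero).mp h0)
    have hRdeg : (redP A g').natDegree < (redP A d).natDegree := by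
      apply Polynomial.natDegree_lt_natDegree hR0
      rw [hred]
      exact Polynomial.degree_mod_lt _ h.2.2
    have hr' : evL A τ d * w.repr x' i0 = evL A τ g' := by
      rw [hx', map_sub, Finsupp.sub_apply, evE_mul_eq_smul, map_smul, Finsupp.smul_apply,
        Module.Basis.repr_self, Finsupp.single_eq_same, smul_eq_mul, mul_one, mul_sub, hg, hg',
        map_sub, map_mul]
    set P : Matrix (Fin n) (Fin n) L := (1 : Matrix (Fin n) (Fin n) L).updateCol i0
      (fun k => w.repr x' k) with hP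
    have hPdet : P.det = w.repr x' i0 := by
      rw [hP, ← Matrix.cramer_apply, Matrix.cramer_one]
      rfl
    set v' : Fin n → E := (⇑w) ᵥ* P.map (algebraMap L E) with hv'
    have hv'mem : ∀ j, v' j ∈ C0 A τ E := by
      intro j
      have e : v' j = ∑ i, w i * algebraMap L E (P i j) := rfl
      by_cases hj : j = i0
      · have : v' j = x' := by
          rw [e, ← w.sum_repr x']
          refine Finset.sum_congr rfl fun i _ => ?_
          rw [hP, hj, Matrix.updateCol_self, Algebra.smul_def, mul_comm]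
        rw [this]
        exact hx'mem
      · have : v' j = w j := by
          rw [e, Finset.sum_eq_single j]
          · rw [hP, Matrix.updateCol_ne hj, Matrix.one_apply_eq, map_one, mul_one]
          · intro i _ hij
            rw [hP, Matrix.updateCol_ne hj, Matrix.one_apply_ne hij, map_zero, mul_zero]
          · intro hj'
            exact absurd (Finset.mem_univ j) hj'
        rw [this]
        exact h.1 j
    obtain ⟨d', hd'⟩ := exists_det hτ hgen v' hv'mem
    have hdisc : (Algebra.traceMatrix L v').det = P.det ^ 2 * (Algebra.traceMatrix L w).det :=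
      Algebra.discr_of_matrix_vecMul (⇑w) P
    have e : d * d' = g' ^ 2 := by
      apply evL_injective A hτ
      rw [map_mul, map_pow, hd', hdisc, hPdet, ← h.2.1, ← hr']
      ring
    have e2 : redP A d * redP A d' = redP A g' ^ 2 := by
      rw [← map_mul, e, map_pow]
    have hd'0 : redP A d' ≠ 0 := by
      intro h0
      rw [h0, mul_zero] at e2
      exact pow_ne_zero 2 hR0 e2.symm
    refine ⟨v', d', ⟨hv'mem, hd', hd'0⟩, ?_⟩
    have e3 := congrArg Polynomial.natDegree e2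
    rw [Polynomial.natDegree_mul h.2.2 hd'0, Polynomial.natDegree_pow] at e3
    omega

omit [FiniteDimensional L E] in
theorem exists_min_pre {n : ℕ} (h0 : ∃ (v : Fin n → E) (d : (↥A)[X]), IsPre A τ E v d) :
    ∃ (v : Fin n → E) (d : (↥A)[X]), IsPre A τ E v d ∧
      ∀ (v' : Fin n → E) (d' : (↥A)[X]), IsPre A τ E v' d' →
        (redP A d).natDegree ≤ (redP A d').natDegree := by
  classical
  have hex : ∃ m : ℕ, ∃ (v : Fin n → E) (d : (↥A)[X]), IsPre A τ E v d ∧
      (redP A d).natDegree = m := by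
    obtain ⟨v, d, h⟩ := h0
    exact ⟨_, v, d, h, rfl⟩
  obtain ⟨v, d, h, hm⟩ := Nat.find_spec hex
  refine ⟨v, d, h, fun v' d' h' => ?_⟩
  rw [hm]
  exact Nat.find_min' hex ⟨v', d', h', rfl⟩

/-- **P3b**, in terms of `IsPre`. -/
theorem exists_weak (hτ : Transcendental K τ) (hgen : IsGen K τ) {n : ℕ}
    (hn : Module.finrank L E = n)
    (h0 : ∃ (v : Fin n → E) (d : (↥A)[X]), IsPre A τ E v d) :
    ∃ (w : Module.Basis (Fin n) L E) (d : (↥A)[X]), IsPre A τ E w d ∧
      ∀ x ∈ C0 A τ E, ∃ c : Fin n → (↥A)[X], Sm0 A τ E (x - ∑ i, evE A τ E (c i) * w i) := by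
  obtain ⟨v, d, h, hmin⟩ := exists_min_pre h0
  obtain ⟨w, rfl⟩ := h.exists_basis hτ hn
  refine ⟨w, d, h, fun x hx => ?_⟩
  rcases h.gen_or_smaller hτ hgen w hx with h1 | ⟨v', d', h', hlt⟩
  · exact h1
  · exact absurd (hmin v' d' h') (by omega)


/-- the initial pre-basis -/
theorem exists_pre_of_basis (hτ : Transcendental K τ) (hgen : IsGen K τ) {ι : Type*} [Fintype ι]
    [DecidableEq ι] (β : Module.Basis ι L E) (hβ : ∀ i, β i ∈ VV A τ E)
    (hdet0 : (Algebra.traceMatrix L β).det ≠ 0)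
    (hdet : ((Algebra.traceMatrix L β).det)⁻¹ ∈ OG A τ) :
    ∃ (v : Fin (Fintype.card ι) → E) (d : (↥A)[X]), IsPre A τ E v d := by
  choose S hS hSβ using hβ
  set T := ∏ i, S i with hT
  have hTred : redP A T ≠ 0 := by
    rw [hT, map_prod]
    exact Finset.prod_ne_zero_iff.mpr fun i _ => hS i
  have hTβ : ∀ i, evE A τ E T * β i ∈ C0 A τ E := by
    intro i
    rw [hT, ← Finset.mul_prod_erase Finset.univ S (Finset.mem_univ i), map_mul, mul_comm (evE A τ E (S i)),
      mul_assoc]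
    exact (C0 A τ E).mul_mem (evE_mem_C0 A τ E _) (hSβ i)
  set e := Fintype.equivFin ι with he
  set v : Fin (Fintype.card ι) → E := fun k => evE A τ E T * β (e.symm k) with hv
  obtain ⟨d, hd⟩ := exists_det hτ hgen v (fun k => hTβ _)
  refine ⟨v, d, fun k => hTβ _, hd, ?_⟩
  have hmat : Algebra.traceMatrix L v = (evL A τ T ^ 2) • Algebra.traceMatrix L (β ∘ e.symm) := by
    ext i j
    rw [Matrix.smul_apply, Algebra.traceMatrix_apply, Algebra.traceForm_apply,
      Algebra.traceMatrix_apply, Algebra.traceForm_apply, ← map_smul]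
    congr 1
    simp only [hv, Function.comp_apply]
    rw [evE_apply, Algebra.smul_def, map_pow]
    ring
  have hdet' : (Algebra.traceMatrix L v).det =
      (evL A τ T ^ 2) ^ (Fintype.card ι) * (Algebra.traceMatrix L β).det := by
    rw [hmat, Matrix.det_smul, Fintype.card_fin, ← Algebra.discr_def, Algebra.discr_reindex,
      Algebra.discr_def]
  intro hred
  have h1 : SmG A τ (evL A τ d) := (SmG_evL_iff A hτ d).mpr hred
  have hT0 : evL A τ T ≠ 0 := evL_ne_zero A hτ hTred
  have hy : ((evL A τ T)⁻¹ ^ 2) ^ (Fintype.card ι) * ((Algebra.traceMatrix L β).det)⁻¹ ∈ OG A τ :=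
    (OG A τ).mul_mem ((OG A τ).pow_mem ((OG A τ).pow_mem (inv_evL_mem_OG A hτ hTred) _) _) hdet
  have h2 := SmG.mul_left A h1 hy
  have h3 : ((evL A τ T)⁻¹ ^ 2) ^ (Fintype.card ι) * ((Algebra.traceMatrix L β).det)⁻¹ *
      evL A τ d = 1 := by
    rw [hd, hdet', inv_pow, inv_pow]
    field_simp
  rw [h3] at h2
  exact not_SmG_one A hτ h2

theorem redP_monic_ne_zero {d0 : (↥A)[X]} (hd0 : d0.Monic) : redP A d0 ≠ 0 :=
  (hd0.map (IsLocalRing.residue A)).ne_zero

omit [FiniteDimensional L E] in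
theorem evE_ne_zero (hτ : Transcendental K τ) {S : (↥A)[X]} (hS : S ≠ 0) :
    evE A τ E S ≠ 0 := by
  rw [evE_apply]
  intro h0
  rw [map_eq_zero] at h0
  exact hS (evL_injective A hτ (by rw [h0, map_zero]))

omit [FiniteDimensional L E] in
theorem inv_evE_C_mem_B0 {α : A} (hα : α ≠ 0) : (evE A τ E (C α))⁻¹ ∈ B0 K τ E := by
  have hα' : (α : K) ≠ 0 := fun h => hα (Subtype.ext h)
  have e1 : evE A τ E (C α) = evK K τ E (C (α : K)) := by
    rw [evE_eq_evK]
    congr 1
    simp [incP]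
  have e2 : evK K τ E (C (α : K)⁻¹) * evE A τ E (C α) = 1 := by
    rw [e1, ← map_mul, ← C_mul, inv_mul_cancel₀ hα', C_1, map_one]
  rw [← eq_inv_of_mul_eq_one_left e2]
  exact evK_mem_B0 _

/-- **(S1)** -/
theorem IsPre.span_of_factor (hτ : Transcendental K τ) (hgen : IsGen K τ) {n : ℕ}
    (w : Module.Basis (Fin n) L E) {d : (↥A)[X]} (h : IsPre A τ E w d)
    (hgenC : ∀ x ∈ C0 A τ E, ∃ c : Fin n → (↥A)[X],
      Sm0 A τ E (x - ∑ i, evE A τ E (c i) * w i))
    {a : A} {d0 d1 : (↥A)[X]} (ha : IsUnit a) (hd : d = C a * d0 * d1) (hd0 : d0.Monic)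
    {x : E} (hx : x ∈ C0 A τ E) (i : Fin n) :
    ∃ c : (↥A)[X], evL A τ d1 * w.repr x i = evL A τ c := by
  classical
  obtain ⟨u, rfl⟩ := ha
  choose g hg using fun i => exists_cramer hτ hgen w h.1 hx i
  simp_rw [← h.2.1] at hg
  have hd' : C ((u⁻¹ : (↥A)ˣ) : ↥A) * d = d0 * d1 := by
    rw [hd, ← mul_assoc, ← mul_assoc, ← C_mul, Units.inv_mul, C_1, one_mul]
  set g' : Fin n → (↥A)[X] := fun i => C ((u⁻¹ : (↥A)ˣ) : ↥A) * g i with hg'
  have hg2 : ∀ i, evL A τ d0 * w.repr (evE A τ E d1 * x) i = evL A τ (g' i) := by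
    intro i
    rw [evE_mul_eq_smul, map_smul, Finsupp.smul_apply, smul_eq_mul, ← mul_assoc, ← map_mul, ← hd',
      hg', map_mul, map_mul, mul_assoc, hg]
  set q : Fin n → (↥A)[X] := fun i => g' i /ₘ d0 with hq
  set ρ : Fin n → (↥A)[X] := fun i => g' i %ₘ d0 with hρ
  have hρq : ∀ i, g' i - d0 * q i = ρ i := fun i => by
    rw [sub_eq_iff_eq_add]
    exact (Polynomial.modByMonic_add_div (g' i) d0).symm
  set x3 := evE A τ E d1 * x - ∑ i, evE A τ E (q i) * w i with hx3
  have hx3mem : x3 ∈ C0 A τ E :=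
    (C0 A τ E).sub_mem ((C0 A τ E).mul_mem (evE_mem_C0 A τ E _) hx)
      (Subring.sum_mem _ fun i _ => (C0 A τ E).mul_mem (evE_mem_C0 A τ E _) (h.1 i))
  have key : evE A τ E d0 * x3 = ∑ i, evE A τ E (ρ i) * w i := by
    rw [hx3, evE_mul_sub_sum w d0 _ g' q hg2]
    simp_rw [hρq]
  have hd00 : evE A τ E d0 ≠ 0 := evE_ne_zero hτ hd0.ne_zero
  by_cases hall : ∀ i, ρ i = 0
  · have hx30 : x3 = 0 := by
      have : evE A τ E d0 * x3 = 0 := by
        rw [key]
        exact Finset.sum_eq_zero fun i _ => by rw [hall i, map_zero, zero_mul]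
      exact (mul_eq_zero.mp this).resolve_left hd00
    refine ⟨q i, ?_⟩
    have e1 : w.repr x3 i = 0 := by rw [hx30, map_zero]; rfl
    rw [hx3, map_sub, Finsupp.sub_apply, repr_sum_evE, evE_mul_eq_smul, map_smul,
      Finsupp.smul_apply, smul_eq_mul, sub_eq_zero] at e1
    exact e1
  · exfalso
    push Not at hall
    obtain ⟨α, hα, ρ', ⟨i1, hi1⟩, hρ'⟩ := exists_content_family A ρ hall
    have hα0 : evE A τ E (C α) ≠ 0 := evE_ne_zero hτ (by simpa using hα)
    set x4 := (evE A τ E (C α))⁻¹ * x3 with hx4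
    have key4 : evE A τ E d0 * x4 = ∑ i, evE A τ E (ρ' i) * w i := by
      apply mul_left_cancel₀ hα0
      rw [Finset.mul_sum]
      have : evE A τ E (C α) * (evE A τ E d0 * x4) = evE A τ E d0 * x3 := by
        rw [hx4]
        field_simp
      rw [this, key]
      refine Finset.sum_congr rfl fun i _ => ?_
      rw [hρ' i, map_mul, mul_assoc]
    have hx4VV : x4 ∈ VV A τ E := by
      refine ⟨d0, redP_monic_ne_zero hd0, ?_⟩
      rw [key4]
      exact Subring.sum_mem _ fun i _ => (C0 A τ E).mul_mem (evE_mem_C0 A τ E _) (h.1 i)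
    have hx4B0 : x4 ∈ B0 K τ E :=
      (B0 K τ E).mul_mem (inv_evE_C_mem_B0 hα) (C0_le_B0 A hx3mem)
    have hx4mem : x4 ∈ C0 A τ E := mem_C0_of_mem_B0_VV A hτ hgen hx4B0 hx4VV
    obtain ⟨P, hP⟩ := hgenC x4 hx4mem
    have hg4 : ∀ i, evL A τ d0 * w.repr x4 i = evL A τ (ρ' i) := by
      intro i
      have e1 : w.repr (evE A τ E d0 * x4) i = w.repr (∑ i, evE A τ E (ρ' i) * w i) i := by
        rw [key4]
      rwa [repr_sum_evE, evE_mul_eq_smul, map_smul, Finsupp.smul_apply, smul_eq_mul] at e1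
    have h5 := Sm0.mul_left A hP (evE_mem_C0 A τ E d0)
    rw [evE_mul_sub_sum w d0 x4 ρ' P hg4] at h5
    have h6 := h.indep hτ hgen w _ h5 i1
    rw [map_sub, map_mul, sub_eq_zero] at h6
    have h7 : (redP A d0).degree ≤ (redP A (ρ' i1)).degree :=
      Polynomial.degree_le_of_dvd ⟨_, h6⟩ hi1
    have h8 : (redP A (ρ' i1)).degree ≤ (ρ' i1).degree := Polynomial.degree_map_le
    have h9 : (ρ' i1).degree = (ρ i1).degree := by
      rw [hρ' i1, Polynomial.degree_C_mul hα]
    have h10 : (ρ i1).degree < d0.degree := Polynomial.degree_modByMonic_lt _ hd0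
    have h11 : (redP A d0).degree = d0.degree := hd0.degree_map (IsLocalRing.residue A)
    rw [h11] at h7
    rw [h9] at h8
    exact absurd (lt_of_le_of_lt (h7.trans h8) h10) (lt_irrefl _)

/-- the trace dual of the lattice spanned by a pre-basis lies in `VV` -/
theorem IsPre.dual (hτ : Transcendental K τ) (hgen : IsGen K τ) {n : ℕ}
    (w : Module.Basis (Fin n) L E) {d : (↥A)[X]} (h : IsPre A τ E w d) (x : E)
    (hx : ∀ i, Algebra.trace L E (x * w i) ∈ OG A τ) : x ∈ VV A τ E := by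
  rw [← w.sum_repr x]
  refine Subring.sum_mem _ fun i _ => ?_
  rw [Algebra.smul_def]
  refine (VV A τ E).mul_mem (algebraMap_mem_VV A hτ ?_) (C0_le_VV A τ E (h.1 i))
  have h1 := det_mul_repr_mem_OG hτ hgen w h.1 x hx i
  rw [← h.2.1] at h1
  have h2 := (OG A τ).mul_mem (inv_evL_mem_OG A hτ h.2.2) h1
  rwa [← mul_assoc, inv_mul_cancel₀ (evL_ne_zero A hτ h.2.2), one_mul] at h2

end BasisAux

end Fermat.Agent.S18.KL
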