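import Fermat.Agent.S18.Z.Sat
import Fermat.Agent.S18.Z.BasisAux

/-!
# S18 / (KL) abstract part, piece P3 : the structure theorem (S1)
(keys `S18/KL-P3a`, `S18/KL-P3b`, `S18/KL-P3c`)

From `GoodRed` (a self dual `OG`-basis of `VV`) we produce a `GoodBasis`: an `L`-basis `w` of `E` inside `C0`, which is
an `(kk A)[X]`-basis of `C0 / 𝔪 C0`, and `d1 ≡ 1 mod 𝔪` with `d1 C0 ⊂ ∑ A[τ] w_i`.

## P3a
`G = (Tr β_i β_j)` has entries in `OG` (`trace_mem_of_VV`); the dual basis has `OG`-coordinates by `selfdual`, so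
`G⁻¹` has entries in `OG`, so `det G` is a unit of `OG`.

## P3b  (existence of a `WeakBasis`)
Let `𝒲` = bases `w ⊂ C0` whose Gram determinant is `evL d`, `d` primitive.  Non empty: `w_i = S β_i`.
Take `w ∈ 𝒲` with `natDegree (redP d)` minimal.
* `indep` (no minimality): `∑ c_i w_i = a y` gives `G c ∈ a A[τ]ⁿ`, multiply by `adj G`: `d c_i ∈ a A[τ]`, reduce.
* `gen`: `x = ∑ c_i w_i ∈ C0`, `d c_i = g_i ∈ A[τ]` (Cramer).  If `redP d ∣ redP g_i` for all `i`, lift the quotients
  `P_i`; `x - ∑ P_i w_i = a ∑ (h_i / d) w_i ∈ 𝔪 VV ∩ C0 = 𝔪 C0` (`Sm0_of_SmV`).  Otherwise, for a bad `i0`, divide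
  `redP g_i0 = redP d * Q~ + R~`, `R~ ≠ 0`, `deg R~ < deg (redP d)`, replace `w_i0` by `x' = x - Q w_i0`: new Gram
  determinant `d' = g'^2 / d`, `g' = g_i0 - d Q`, so `redP d' * redP d = R~^2`: smaller degree.  Contradiction.
  (`Algebra.discr_of_matrix_vecMul`, `Module.Basis.is_basis_iff_det`.)

## P3c  (`WeakBasis → GoodBasis`)
`d = unit * d0 * d1` (`exists_factor`).  `x ∈ C0`, `d c_i = g_i`.  Divide `unit⁻¹ g_i = q_i d0 + r_i` (`d0` monic).
`x3 = d1 x - ∑ q_i w_i = ∑ (r_i/d0) w_i ∈ C0`.  If some `r_i ≠ 0`: `r_i = a r_i'` with some `r_i'` primitive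
(`exists_content_family`); `x3/a ∈ B0 ∩ VV = C0`; by `gen` `x3/a = ∑ P_i w_i + 𝔪 C0`; multiply by `d0`:
`∑ (r_i' - P_i d0) w_i ∈ 𝔪 C0`; by `indep` `redP r_i' = redP P_i * redP d0`; degrees: `redP r_i' = 0` for all `i`.
Contradiction.  `dual`: `x = ∑ Tr(x w_j) w_j^*`, `w_j^* = ∑ (adj G / d)_{ji} w_i`.
-/

set_option autoImplicit false

noncomputable section

namespace Fermat.Agent.S18.KL

open Polynomial

variable {K : Type*} [Field K] [CharZero K] {A : ValuationSubring K}
variable {L : Type*} [Field L] [Algebra K L] {τ : L}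
variable {E : Type*} [Field E] [Algebra L E] [FiniteDimensional L E]

/-! ### P3a -/

theorem det_mem_subring {R : Type*} [CommRing R] (O : Subring R) {ι : Type*} [Fintype ι]
    [DecidableEq ι] (M : Matrix ι ι R) (h : ∀ i j, M i j ∈ O) : M.det ∈ O := by
  let M' : Matrix ι ι O := fun i j => ⟨M i j, h i j⟩
  have : M = O.subtype.mapMatrix M' := by ext; rfl
  rw [this, ← RingHom.map_det]
  exact (M'.det).2

theorem adjugate_mem_subring {R : Type*} [CommRing R] (O : Subring R) {ι : Type*} [Fintype ι]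
    [DecidableEq ι] (M : Matrix ι ι R) (h : ∀ i j, M i j ∈ O) (i j : ι) : M.adjugate i j ∈ O := by
  let M' : Matrix ι ι O := fun i j => ⟨M i j, h i j⟩
  have : M = O.subtype.mapMatrix M' := by ext; rfl
  rw [this, ← RingHom.map_adjugate]
  exact (M'.adjugate i j).2

theorem traceMatrix_mem_OG (hτ : Transcendental K τ) (hgen : IsGen K τ) {ι : Type*}
    (β : ι → E) (hβ : ∀ i, β i ∈ VV A τ E) (i j : ι) : Algebra.traceMatrix L β i j ∈ OG A τ := by
  rw [Algebra.traceMatrix_apply, Algebra.traceForm_apply]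
  exact trace_mem_of_VV A hτ hgen ((VV A τ E).mul_mem (hβ i) (hβ j))

/-- coordinates from traces: `det G • c = adj G *ᵥ t` -/
theorem det_mul_repr {ι : Type*} [Fintype ι] [DecidableEq ι] (β : Module.Basis ι L E) (x : E)
    (i : ι) : (Algebra.traceMatrix L β).det * β.repr x i =
      ∑ j, (Algebra.traceMatrix L β).adjugate i j * Algebra.trace L E (x * β j) := by
  set G := Algebra.traceMatrix L β with hG
  have ht : (fun j => Algebra.trace L E (x * β j)) = G.mulVec (fun k => β.repr x k) := by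
    funext j
    conv_lhs => rw [← β.sum_repr x]
    rw [Finset.sum_mul, map_sum, Matrix.mulVec, dotProduct]
    refine Finset.sum_congr rfl fun k _ => ?_
    rw [smul_mul_assoc, map_smul, smul_eq_mul, hG, Algebra.traceMatrix_apply,
      Algebra.traceForm_apply, mul_comm (β j), mul_comm]
  have h2 : G.adjugate.mulVec (G.mulVec (fun k => β.repr x k)) = G.det • (fun k => β.repr x k) := by
    rw [Matrix.mulVec_mulVec, Matrix.adjugate_mul, Matrix.smul_mulVec, Matrix.one_mulVec]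
  have h3 := congrFun h2 i
  rw [← ht] at h3
  rw [Pi.smul_apply, smul_eq_mul] at h3
  rw [← h3]
  rfl

theorem GoodRed.repr_mem (hτ : Transcendental K τ) (hgen : IsGen K τ) {ι : Type*} [Fintype ι]
    (g : GoodRed A τ E ι) {x : E} (hx : x ∈ VV A τ E) (i : ι) : g.β.repr x i ∈ OG A τ :=
  g.selfdual x (fun j => trace_mem_of_VV A hτ hgen ((VV A τ E).mul_mem hx (g.mem j))) i

theorem GoodRed.repr_SmG (hτ : Transcendental K τ) (hgen : IsGen K τ) {ι : Type*} [Fintype ι]
    (g : GoodRed A τ E ι) {x : E} (hx : SmV A τ E x) (i : ι) : SmG A τ (g.β.repr x i) := by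
  obtain ⟨a, ha, y, hy, rfl⟩ := hx
  refine ⟨a, ha, g.β.repr y i, g.repr_mem hτ hgen hy i, ?_⟩
  rw [evE_apply, ← Algebra.smul_def, map_smul, Finsupp.smul_apply, smul_eq_mul]

theorem GoodRed.mem_VV_of_repr (hτ : Transcendental K τ) {ι : Type*} [Fintype ι]
    (g : GoodRed A τ E ι) {x : E} (hx : ∀ i, g.β.repr x i ∈ OG A τ) : x ∈ VV A τ E := by
  rw [← g.β.sum_repr x]
  refine Subring.sum_mem _ fun i _ => ?_
  rw [Algebra.smul_def]
  exact (VV A τ E).mul_mem (algebraMap_mem_VV A hτ (hx i)) (g.mem i)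

theorem GoodRed.inv_det_mem (hτ : Transcendental K τ) (hgen : IsGen K τ) {ι : Type*} [Fintype ι]
    [DecidableEq ι] (g : GoodRed A τ E ι) : ((Algebra.traceMatrix L g.β).det)⁻¹ ∈ OG A τ := by
  have : CharZero L := charZero_of_injective_algebraMap (algebraMap K L).injective
  set G := Algebra.traceMatrix L g.β with hG
  have hdet : G.det ≠ 0 := by
    have := Algebra.discr_not_zero_of_basis L g.β
    rwa [Algebra.discr_def] at this
  have hGsymm : ∀ i j, G i j = G j i := by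
    intro i j
    rw [hG, Algebra.traceMatrix_apply, Algebra.traceMatrix_apply, Algebra.traceForm_apply,
      Algebra.traceForm_apply, mul_comm]
  -- the columns of `G⁻¹`
  let x : ι → E := fun j => ∑ k, G⁻¹ k j • g.β k
  have hx : ∀ j i, Algebra.trace L E (x j * g.β i) = if i = j then 1 else 0 := by
    intro j i
    simp only [x]
    rw [Finset.sum_mul, map_sum]
    have : ∀ k, Algebra.trace L E (G⁻¹ k j • g.β k * g.β i) = G i k * G⁻¹ k j := by
      intro k
      rw [smul_mul_assoc, map_smul, smul_eq_mul, hGsymm i k, hG, Algebra.traceMatrix_apply,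
        Algebra.traceForm_apply, mul_comm]
    simp_rw [this]
    rw [← Matrix.mul_apply, Matrix.mul_nonsing_inv _ (Ne.isUnit hdet), Matrix.one_apply]
  have hmem : ∀ k j, G⁻¹ k j ∈ OG A τ := by
    intro k j
    have h1 := g.selfdual (x j) (fun i => by
      rw [hx j i]; split_ifs
      · exact (OG A τ).one_mem
      · exact (OG A τ).zero_mem) k
    have h2 : g.β.repr (x j) k = G⁻¹ k j := by
      simp only [x]
      rw [g.β.repr_sum_self]
    rwa [h2] at h1
  have := det_mem_subring (OG A τ) G⁻¹ hmem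
  rwa [Matrix.det_nonsing_inv, Ring.inverse_eq_inv'] at this

/-- criterion used on the modular side -/
theorem GoodRed.ofDet (hτ : Transcendental K τ) (hgen : IsGen K τ) {ι : Type*} [Fintype ι]
    [DecidableEq ι] (β : Module.Basis ι L E) (hβ : ∀ i, β i ∈ VV A τ E)
    (hdet : ((Algebra.traceMatrix L β).det)⁻¹ ∈ OG A τ) :
    ∃ g : GoodRed A τ E ι, g.β = β := by
  have : CharZero L := charZero_of_injective_algebraMap (algebraMap K L).injective
  have hdet0 : (Algebra.traceMatrix L β).det ≠ 0 := by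
    have := Algebra.discr_not_zero_of_basis L β
    rwa [Algebra.discr_def] at this
  refine ⟨⟨β, hβ, fun x hx i => ?_⟩, rfl⟩
  have h1 := det_mul_repr β x i
  have h2 : β.repr x i = ((Algebra.traceMatrix L β).det)⁻¹ *
      ∑ j, (Algebra.traceMatrix L β).adjugate i j * Algebra.trace L E (x * β j) := by
    rw [← h1, ← mul_assoc, inv_mul_cancel₀ hdet0, one_mul]
  rw [h2]
  refine (OG A τ).mul_mem hdet (Subring.sum_mem _ fun j _ => (OG A τ).mul_mem ?_ (hx j))
  exact adjugate_mem_subring _ _ (traceMatrix_mem_OG hτ hgen β hβ) i j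

/-! ### P3b -/

variable (A τ E) in
/-- a basis of `C0` modulo `𝔪` -/
structure WeakBasis (n : ℕ) where
  w : Module.Basis (Fin n) L E
  mem : ∀ i, w i ∈ C0 A τ E
  gen : ∀ x ∈ C0 A τ E, ∃ c : Fin n → (↥A)[X], Sm0 A τ E (x - ∑ i, evE A τ E (c i) * w i)
  indep : ∀ c : Fin n → (↥A)[X], Sm0 A τ E (∑ i, evE A τ E (c i) * w i) → ∀ i, redP A (c i) = 0
  d : (↥A)[X]
  hd : evL A τ d = (Algebra.traceMatrix L w).det
  red_d : redP A d ≠ 0

theorem exists_weakBasis (hτ : Transcendental K τ) (hgen : IsGen K τ) {ι : Type*} [Fintype ι]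
    (g : GoodRed A τ E ι) : Nonempty (WeakBasis A τ E (Fintype.card ι)) := by
  classical
  have : CharZero L := charZero_of_injective_algebraMap (algebraMap K L).injective
  have hdet0 : (Algebra.traceMatrix L g.β).det ≠ 0 := by
    have := Algebra.discr_not_zero_of_basis L g.β
    rwa [Algebra.discr_def] at this
  obtain ⟨w, d, h, hgenC⟩ := BasisAux.exists_weak hτ hgen (Module.finrank_eq_card_basis g.β)
    (BasisAux.exists_pre_of_basis hτ hgen g.β g.mem hdet0 (g.inv_det_mem hτ hgen))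
  exact ⟨⟨w, h.1, hgenC, h.indep hτ hgen w, d, h.2.1, h.2.2⟩⟩

/-! ### P3c -/

theorem WeakBasis.dual (hτ : Transcendental K τ) (hgen : IsGen K τ) {n : ℕ}
    (b : WeakBasis A τ E n) (x : E) (hx : ∀ i, Algebra.trace L E (x * b.w i) ∈ OG A τ) :
    x ∈ VV A τ E :=
  BasisAux.IsPre.dual hτ hgen b.w ⟨b.mem, b.hd, b.red_d⟩ x hx

/-- Cramer -/
theorem WeakBasis.cramer (hτ : Transcendental K τ) (hgen : IsGen K τ) {n : ℕ}
    (b : WeakBasis A τ E n) {x : E} (hx : x ∈ C0 A τ E) (i : Fin n) :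
    ∃ c : (↥A)[X], evL A τ b.d * b.w.repr x i = evL A τ c := by
  rw [b.hd]
  exact BasisAux.exists_cramer hτ hgen b.w b.mem hx i

theorem WeakBasis.exists_goodBasis [IsAlgClosed K] (hτ : Transcendental K τ) (hgen : IsGen K τ)
    {n : ℕ} (b : WeakBasis A τ E n) : ∃ g : GoodBasis A τ E n, g.w = b.w := by
  obtain ⟨a, d0, d1, ha, hd, hd0, hd1⟩ := exists_factor A b.d b.red_d
  exact ⟨⟨b.w, b.mem, d1, hd1, fun x hx i =>
    BasisAux.IsPre.span_of_factor hτ hgen b.w ⟨b.mem, b.hd, b.red_d⟩ b.gen ha hd hd0 hx i,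
    b.indep, b.dual hτ hgen⟩, rfl⟩

theorem exists_goodBasis [IsAlgClosed K] (hτ : Transcendental K τ) (hgen : IsGen K τ)
    {ι : Type*} [Fintype ι] (g : GoodRed A τ E ι) :
    Nonempty (GoodBasis A τ E (Fintype.card ι)) := by
  obtain ⟨b⟩ := exists_weakBasis hτ hgen g
  obtain ⟨g', -⟩ := b.exists_goodBasis hτ hgen
  exact ⟨g'⟩

end Fermat.Agent.S18.KL
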