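import Fermat.Agent.S24.Embed
import Fermat.Agent.S24.Places

/-!
# Restriction of a place to a subfield (helper27)
-/

set_option autoImplicit false

open AlgebraicCurve IntermediateField WithZero

namespace Fermat.Agent.S18.KL

open Fermat.Agent.S24

variable {K F E : Type*} [Field K] [IsAlgClosed K] [CharZero K] [Field F] [Field E] [Algebra K F]
  [Algebra K E] [Algebra F E] [IsScalarTower K F E]

theorem adicValuation_le_one_iff (Q : Place K E) (x : E) :
    Q.adicValuation x ≤ 1 ↔ x ∈ Q.toValuationSubring := by
  rw [mem_iff_ord_nonneg]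
  by_cases hx : x = 0
  · subst hx; simp
  · have h0 := Q.adicValuation_ne_zero hx
    rw [Place.ord, neg_nonneg, ← WithZero.log_one, WithZero.log_le_log h0 one_ne_zero]

/-- every place of `E` restricts to a place of `F`, with a ramification index -/
theorem exists_place_below_mul [Algebra.IsAlgebraic F E] (y : F) (hy : Transcendental K y)
    (hfin : FiniteDimensional K⟮y⟯ F) (Q : Place K E) :
    ∃ (P : Place K F) (e : ℤ), 0 < e ∧ ∀ x : F, Q.ord (algebraMap F E x) = e * P.ord x := by
  set u : Valuation F ℤᵐ⁰ := Q.adicValuation.comap (algebraMap F E) with hu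
  have hmem : ∀ x : F, x ∈ u.valuationSubring ↔ algebraMap F E x ∈ Q.toValuationSubring := by
    intro x
    rw [Valuation.mem_valuationSubring_iff, hu, Valuation.comap_apply, adicValuation_le_one_iff]
  have hO : u.valuationSubring ≠ ⊤ := by
    intro htop
    apply Q.ne_top'
    refine SetLike.ext fun z => ⟨fun _ => ValuationSubring.mem_top z, fun _ => ?_⟩
    have hz : IsIntegral F z := (Algebra.IsAlgebraic.isAlgebraic z).isIntegral
    refine mem_valuationSubring_of_isIntegral (A := F) Q.toValuationSubring ?_ hz
    intro a
    rw [← hmem, htop]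
    exact ValuationSubring.mem_top a
  have hK : ∀ a : K, algebraMap K F a ∈ u.valuationSubring := by
    intro a
    rw [hmem, ← IsScalarTower.algebraMap_apply]
    exact Q.algebraMap_mem' a
  obtain ⟨P, hP⟩ : ∃ v : Place K F, v.toValuationSubring = u.valuationSubring := by
    rcases u.valuationSubring.mem_or_inv_mem y with h | h
    · exact exists_place_of_valuationSubring y hy hfin _ hO hK h
    · exact exists_place_of_valuationSubring y⁻¹ (transcendental_inv y hy)
        (finiteDimensional_adjoin_inv y hfin) _ hO hK h
  obtain ⟨ϖ, hϖ⟩ := IsDiscreteValuationRing.exists_irreducible P.toValuationSubring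
  refine ⟨P, -log (u (ϖ : F)), by have := log_val_irreducible_neg P u hP hϖ; omega, fun x => ?_⟩
  by_cases hx : x = 0
  · subst hx; simp
  · have := log_val_eq P u hP hϖ hx
    rw [hu, Valuation.comap_apply] at this
    rw [Place.ord, this, hu, Valuation.comap_apply]
    ring

end Fermat.Agent.S18.KL
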