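import Fermat.Agent.S18.Z.Gauss

/-!
# S18 / (KL) abstract part, piece P2a : proofs (helper28)
-/

set_option autoImplicit false
set_option linter.unusedVariables false

noncomputable section

namespace Fermat.Agent.S18.KL.SatA

open Polynomial

/-- general scaling lemma for integral elements -/
theorem isIntegralElem_scale {R R' E : Type*} [CommRing R] [CommRing R'] [CommRing E]
    (h : R →+* R') (g : R' →+* E) {x : E} {p : R'[X]} (hp : p.Monic) (hpx : eval₂ g x p = 0)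
    (s : R) (hs : ∀ i, ∃ r, h s * p.coeff i = h r) : (g.comp h).IsIntegralElem (g (h s) * x) := by
  have hl : scaleRoots p (h s) ∈ lifts h := by
    rw [lifts_iff_coeff_lifts]
    intro i
    rw [coeff_scaleRoots]
    rcases Nat.eq_zero_or_pos (p.natDegree - i) with h0 | h0
    · rw [h0, pow_zero, mul_one]
      rcases Nat.lt_or_ge p.natDegree i with h1 | h1
      · rw [coeff_eq_zero_of_natDegree_lt h1]; exact ⟨0, map_zero _⟩
      · have : i = p.natDegree := by omega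
        rw [this, hp.coeff_natDegree]; exact ⟨1, map_one _⟩
    · obtain ⟨k, hk⟩ : ∃ k, p.natDegree - i = k + 1 := ⟨p.natDegree - i - 1, by omega⟩
      obtain ⟨r, hr⟩ := hs i
      refine ⟨r * s ^ k, ?_⟩
      rw [hk, map_mul, map_pow, ← hr]; ring
  obtain ⟨q, hq, -, hqm⟩ := lifts_and_natDegree_eq_and_monic hl ((monic_scaleRoots_iff _).2 hp)
  refine ⟨q, hqm, ?_⟩
  rw [← eval₂_map, hq]
  exact scaleRoots_eval₂_eq_zero g hpx

variable {K : Type*} [Field K] (A : ValuationSubring K)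
variable {L : Type*} [Field L] [Algebra K L] {τ : L}
variable {E : Type*} [Field E] [Algebra L E]

/-! ### part (a): formal facts -/

theorem evE_eq_evK (P : (↥A)[X]) : evE A τ E P = evK K τ E (incP A P) := by
  simp only [evE, evK, RingHom.comp_apply]
  rw [evL_eq_aeval]; rfl

theorem evK_comp_incP : (evK K τ E).comp (incP A) = evE A τ E := by
  exact RingHom.ext fun P => (evE_eq_evK A P).symm

theorem evK_mem_B0 (g : K[X]) : evK K τ E g ∈ B0 K τ E := (evK K τ E).isIntegralElem_map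

theorem C0_le_B0 : C0 A τ E ≤ B0 K τ E := by
  intro x hx
  have hx' : ((evK K τ E).comp (incP A)).IsIntegralElem x := by
    rw [evK_comp_incP]; exact hx
  exact RingHom.IsIntegralElem.of_comp hx'

/-- `B0 = K · C0` -/
theorem exists_smul_mem_C0 {x : E} (hx : x ∈ B0 K τ E) :
    ∃ a : A, a ≠ 0 ∧ evE A τ E (C a) * x ∈ C0 A τ E := by
  obtain ⟨p, hp, hpx⟩ := hx
  obtain ⟨a, ha, P', -, hP'⟩ := exists_scale_family A (fun i : Fin (p.natDegree + 1) => p.coeff i)
    ⟨Fin.last _, by simp [hp.coeff_natDegree]⟩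
  obtain ⟨d, hd0, hda⟩ : ∃ d : A, d ≠ 0 ∧ (d : K) * a ∈ A := by
    rcases A.mem_or_inv_mem a with h | h
    · exact ⟨1, one_ne_zero, by simpa using h⟩
    · refine ⟨⟨a⁻¹, h⟩, ?_, ?_⟩
      · intro h0
        have : a⁻¹ = 0 := congrArg Subtype.val h0
        exact ha (inv_eq_zero.1 this)
      · simp [inv_mul_cancel₀ ha, A.one_mem]
  refine ⟨d, hd0, ?_⟩
  have key := isIntegralElem_scale (incP A) (evK K τ E) hp hpx (C d) ?_
  · rw [evK_comp_incP, ← evE_eq_evK] at key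
    exact key
  · intro i
    rcases Nat.lt_or_ge i (p.natDegree + 1) with hi | hi
    · refine ⟨C ⟨(d : K) * a, hda⟩ * P' ⟨i, hi⟩, ?_⟩
      have := hP' ⟨i, hi⟩
      simp only at this
      rw [this, map_mul, ← mul_assoc]
      congr 1
      simp [incP]
    · rw [coeff_eq_zero_of_natDegree_lt (by omega)]
      exact ⟨0, by simp⟩

/-- the corestriction of `evL` to the Gauss ring -/
def evOG (A : ValuationSubring K) (τ : L) : (↥A)[X] →+* OG A τ :=
  (evL A τ).codRestrict (OG A τ) (fun P => evL_mem_OG A P)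

theorem comp_evOG :
    ((algebraMap L E).comp (OG A τ).subtype).comp (evOG A τ) = evE A τ E := by
  exact RingHom.ext fun P => rfl

theorem isIntegralElem_of_mem_VV (hτ : Transcendental K τ) {x : E} (hx : x ∈ VV A τ E) :
    ((algebraMap L E).comp (OG A τ).subtype).IsIntegralElem x := by
  obtain ⟨S, hS, hx⟩ := hx
  have h1 : ((algebraMap L E).comp (OG A τ).subtype).IsIntegralElem (evE A τ E S * x) := by
    have hx' : (((algebraMap L E).comp (OG A τ).subtype).comp (evOG A τ)).IsIntegralElem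
        (evE A τ E S * x) := by
      rw [comp_evOG]; exact hx
    exact RingHom.IsIntegralElem.of_comp hx'
  have h2 : ((algebraMap L E).comp (OG A τ).subtype).IsIntegralElem
      (algebraMap L E (evL A τ S)⁻¹) :=
    ((algebraMap L E).comp (OG A τ).subtype).isIntegralElem_map
      (x := ⟨(evL A τ S)⁻¹, inv_evL_mem_OG A hτ hS⟩)
  have h3 := RingHom.IsIntegralElem.mul _ h2 h1
  have h4 : algebraMap L E (evL A τ S)⁻¹ * (evE A τ E S * x) = x := by
    rw [evE_apply, ← mul_assoc, ← map_mul, inv_mul_cancel₀ (evL_ne_zero A hτ hS), map_one, one_mul]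
  rwa [h4] at h3

theorem mem_VV_of_isIntegralElem (hτ : Transcendental K τ) {x : E}
    (hx : ((algebraMap L E).comp (OG A τ).subtype).IsIntegralElem x) : x ∈ VV A τ E := by
  obtain ⟨p, hp, hpx⟩ := hx
  have hc : ∀ i, ∃ P S : (↥A)[X], redP A S ≠ 0 ∧ evL A τ S * (p.coeff i : L) = evL A τ P :=
    fun i => (p.coeff i).2
  choose P S hS hPS using hc
  refine ⟨∏ i ∈ p.support, S i, ?_, ?_⟩
  · rw [map_prod]; exact Finset.prod_ne_zero_iff.2 fun i _ => hS i
  have key := isIntegralElem_scale (evOG A τ) ((algebraMap L E).comp (OG A τ).subtype) hp hpx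
    (∏ i ∈ p.support, S i) ?_
  · rw [comp_evOG] at key
    exact key
  · intro i
    by_cases hi : i ∈ p.support
    · obtain ⟨T, hT⟩ := Finset.dvd_prod_of_mem S hi
      refine ⟨T * P i, ?_⟩
      apply Subtype.ext
      rw [hT]
      change evL A τ (S i * T) * (p.coeff i : L) = evL A τ (T * P i)
      rw [map_mul, map_mul, ← hPS i]; ring
    · rw [notMem_support_iff.1 hi]
      exact ⟨0, by simp⟩

theorem algebraMap_mem_VV (hτ : Transcendental K τ) {x : L} (hx : x ∈ OG A τ) :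
    algebraMap L E x ∈ VV A τ E := by
  obtain ⟨P, S, hS, h⟩ := hx
  refine ⟨S, hS, ?_⟩
  rw [evE_apply, ← map_mul, h, ← evE_apply]
  exact evE_mem_C0 A τ E P

theorem isIntegralElem_of_pow {R S : Type*} [CommRing R] [CommRing S] (f : R →+* S) {x : S} {n : ℕ}
    (hn : 0 < n) (hx : f.IsIntegralElem (x ^ n)) : f.IsIntegralElem x := by
  let _ := f.toAlgebra
  exact IsIntegral.of_pow (R := R) hn hx

theorem mem_VV_of_pow_mem (hτ : Transcendental K τ) {x : E} {n : ℕ} (hn : 0 < n)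
    (hx : x ^ n ∈ VV A τ E) : x ∈ VV A τ E :=
  mem_VV_of_isIntegralElem A hτ (isIntegralElem_of_pow _ hn (isIntegralElem_of_mem_VV A hτ hx))

theorem mem_B0_of_pow_mem {x : E} {n : ℕ} (hn : 0 < n) (hx : x ^ n ∈ B0 K τ E) :
    x ∈ B0 K τ E := isIntegralElem_of_pow _ hn hx

theorem Sm0.mem_C0 {x : E} (hx : Sm0 A τ E x) : x ∈ C0 A τ E := by
  obtain ⟨a, -, y, hy, rfl⟩ := hx
  exact (C0 A τ E).mul_mem (evE_mem_C0 A τ E _) hy

theorem Sm0.add {x y : E} (hx : Sm0 A τ E x) (hy : Sm0 A τ E y) : Sm0 A τ E (x + y) := by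
  obtain ⟨a, ha, u, hu, rfl⟩ := hx
  obtain ⟨b, hb, v, hv, rfl⟩ := hy
  rcases ValuationRing.dvd_total a b with ⟨c, rfl⟩ | ⟨c, rfl⟩
  · refine ⟨a, ha, u + evE A τ E (C c) * v,
      (C0 A τ E).add_mem hu ((C0 A τ E).mul_mem (evE_mem_C0 A τ E _) hv), ?_⟩
    rw [C_mul, map_mul]; ring
  · refine ⟨b, hb, evE A τ E (C c) * u + v,
      (C0 A τ E).add_mem ((C0 A τ E).mul_mem (evE_mem_C0 A τ E _) hu) hv, ?_⟩
    rw [C_mul, map_mul]; ring

theorem Sm0.neg {x : E} (hx : Sm0 A τ E x) : Sm0 A τ E (-x) := by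
  obtain ⟨a, ha, u, hu, rfl⟩ := hx
  exact ⟨a, ha, -u, (C0 A τ E).neg_mem hu, by ring⟩

theorem Sm0.sub {x y : E} (hx : Sm0 A τ E x) (hy : Sm0 A τ E y) : Sm0 A τ E (x - y) := by
  rw [sub_eq_add_neg]; exact Sm0.add A hx (Sm0.neg A hy)

theorem Sm0.mul_left {x y : E} (hx : Sm0 A τ E x) (hy : y ∈ C0 A τ E) : Sm0 A τ E (y * x) := by
  obtain ⟨a, ha, u, hu, rfl⟩ := hx
  exact ⟨a, ha, y * u, (C0 A τ E).mul_mem hy hu, by ring⟩

theorem Sm0.SmV {x : E} (hx : Sm0 A τ E x) : SmV A τ E x := by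
  obtain ⟨a, ha, u, hu, rfl⟩ := hx
  exact ⟨a, ha, u, C0_le_VV A τ E hu, rfl⟩

theorem SmV.mem_VV {x : E} (hx : SmV A τ E x) : x ∈ VV A τ E := by
  obtain ⟨a, -, y, hy, rfl⟩ := hx
  exact (VV A τ E).mul_mem (C0_le_VV A τ E (evE_mem_C0 A τ E _)) hy

theorem SmV.add {x y : E} (hx : SmV A τ E x) (hy : SmV A τ E y) : SmV A τ E (x + y) := by
  have hC : ∀ c : A, evE A τ E (C c) ∈ VV A τ E := fun c => C0_le_VV A τ E (evE_mem_C0 A τ E _)
  obtain ⟨a, ha, u, hu, rfl⟩ := hx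
  obtain ⟨b, hb, v, hv, rfl⟩ := hy
  rcases ValuationRing.dvd_total a b with ⟨c, rfl⟩ | ⟨c, rfl⟩
  · refine ⟨a, ha, u + evE A τ E (C c) * v,
      (VV A τ E).add_mem hu ((VV A τ E).mul_mem (hC _) hv), ?_⟩
    rw [C_mul, map_mul]; ring
  · refine ⟨b, hb, evE A τ E (C c) * u + v,
      (VV A τ E).add_mem ((VV A τ E).mul_mem (hC _) hu) hv, ?_⟩
    rw [C_mul, map_mul]; ring

theorem SmV.neg {x : E} (hx : SmV A τ E x) : SmV A τ E (-x) := by
  obtain ⟨a, ha, u, hu, rfl⟩ := hx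
  exact ⟨a, ha, -u, (VV A τ E).neg_mem hu, by ring⟩

theorem SmV.sub {x y : E} (hx : SmV A τ E x) (hy : SmV A τ E y) : SmV A τ E (x - y) := by
  rw [sub_eq_add_neg]; exact SmV.add A hx (SmV.neg A hy)

theorem SmV.mul_left {x y : E} (hx : SmV A τ E x) (hy : y ∈ VV A τ E) : SmV A τ E (y * x) := by
  obtain ⟨a, ha, u, hu, rfl⟩ := hx
  exact ⟨a, ha, y * u, (VV A τ E).mul_mem hy hu, by ring⟩

theorem Sm0_evE_of_redP_eq_zero {P : (↥A)[X]} (hP : redP A P = 0) : Sm0 A τ E (evE A τ E P) := by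
  obtain ⟨a, ha, P', rfl⟩ := (redP_eq_zero_iff A P).1 hP
  exact ⟨a, ha, evE A τ E P', evE_mem_C0 A τ E _, by rw [map_mul]⟩

theorem evE_ne_zero (hτ : Transcendental K τ) {S : (↥A)[X]} (hS : redP A S ≠ 0) :
    evE A τ E S ≠ 0 := by
  rw [evE_apply]
  exact (_root_.map_ne_zero _).2 (evL_ne_zero A hτ hS)

/-- cancel a primitive factor -/
theorem SmV_of_evE_mul (hτ : Transcendental K τ) {S : (↥A)[X]} (hS : redP A S ≠ 0) {x : E}
    (hx : SmV A τ E (evE A τ E S * x)) : SmV A τ E x := by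
  obtain ⟨a, ha, y, ⟨S', hS', hy⟩, h⟩ := hx
  have hS0 := evE_ne_zero (E := E) A hτ hS
  refine ⟨a, ha, (evE A τ E S)⁻¹ * y, ⟨S * S', ?_, ?_⟩, ?_⟩
  · rw [map_mul]; exact mul_ne_zero hS hS'
  · have : evE A τ E (S * S') * ((evE A τ E S)⁻¹ * y) = evE A τ E S' * y := by
      rw [map_mul]; field_simp
    rw [this]; exact hy
  · have : x = (evE A τ E S)⁻¹ * (evE A τ E S * x) := by field_simp
    rw [this, h]; ring

end Fermat.Agent.S18.KL.SatA
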