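import Fermat.Agent.S18.Z.Defs
import Fermat.Agent.S18.KLTrace
import Fermat.Agent.S18.KLFin

/-!
# S18 / (KL) abstract part : bridge between `Z/Defs.lean` and `KLGauss`/`KLSat`/`KLTrace`/`KLFin`
(helper18)

`K[X]` acts on `L` and `E` by evaluation at `τ`.
-/

set_option autoImplicit false

noncomputable section

namespace Fermat.Agent.S18.KL.Bridge

open Polynomial Fermat.Agent.S18.KLGauss

variable {K : Type*} [Field K] (A : ValuationSubring K)
variable {L : Type*} [Field L] [Algebra K L] (τ : L)
variable (E : Type*) [Field E] [Algebra L E]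

/-- `K[X] → L`, `X ↦ τ` -/
@[reducible] def algL (K : Type*) [Field K] {L : Type*} [Field L] [Algebra K L] (τ : L) :
    Algebra K[X] L := ((aeval τ : K[X] →ₐ[K] L).toRingHom).toAlgebra

/-- `K[X] → E`, `X ↦ τ` -/
@[reducible] def algE (K : Type*) [Field K] {L : Type*} [Field L] [Algebra K L] (τ : L)
    (E : Type*) [Field E] [Algebra L E] : Algebra K[X] E := (evK K τ E).toAlgebra

theorem isScalarTower :
    letI := algL K τ
    letI := algE K τ E
    IsScalarTower K[X] L E :=
  letI := algL K τ
  letI := algE K τ E
  .of_algebraMap_eq' rfl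

variable {τ}

theorem faithfulSMul_L (hτ : Transcendental K τ) :
    letI := algL K τ
    FaithfulSMul K[X] L :=
  letI := algL K τ
  (faithfulSMul_iff_algebraMap_injective _ _).mpr (transcendental_iff_injective.mp hτ)

theorem faithfulSMul_E (hτ : Transcendental K τ) :
    letI := algE K τ E
    FaithfulSMul K[X] E :=
  letI := algE K τ E
  (faithfulSMul_iff_algebraMap_injective _ _).mpr
    ((algebraMap L E).injective.comp (transcendental_iff_injective.mp hτ))

theorem isFractionRing_L (hτ : Transcendental K τ) (hgen : IsGen K τ) :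
    letI := algL K τ
    IsFractionRing K[X] L := by
  letI := algL K τ
  haveI := faithfulSMul_L hτ
  refine IsFractionRing.of_field K[X] L fun z => ?_
  obtain ⟨P, Q, hQ, h⟩ := hgen z
  have hQ' : aeval τ Q ≠ 0 := fun h0 => hQ ((transcendental_iff.mp hτ) Q h0)
  exact ⟨P, Q, (eq_div_iff hQ').mpr h⟩

variable (τ)

theorem phi_eq :
    letI := algE K τ E
    phi (↥A) K E = evE A τ E := by
  letI := algE K τ E
  apply Polynomial.ringHom_ext
  · intro a
    simp [phi, evE, evL, evK, RingHom.algebraMap_toAlgebra]
  · simp [phi, evE, evL, evK, RingHom.algebraMap_toAlgebra]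

theorem psi_eq :
    letI := algL K τ
    psi (↥A) K L = evL A τ := by
  letI := algL K τ
  apply Polynomial.ringHom_ext
  · intro a
    simp [psi, evL, RingHom.algebraMap_toAlgebra]
  · simp [psi, evL, RingHom.algebraMap_toAlgebra]

end Fermat.Agent.S18.KL.Bridge
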