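import Fermat.Agent.S18.Z.Gauss
import Fermat.Agent.S18.Z.Bridge

/-!
# S18 / (KL) abstract part, piece P2b : proofs (helper18)
-/

set_option autoImplicit false

noncomputable section

namespace Fermat.Agent.S18.KL.SatB

open Polynomial Fermat.Agent.S18.KLGauss Fermat.Agent.S18.KL.Bridge

variable {K : Type*} [Field K] (A : ValuationSubring K)
variable {L : Type*} [Field L] [Algebra K L] {τ : L}
variable {E : Type*} [Field E] [Algebra L E]

theorem mem_C0_of_mem_B0_VV (hτ : Transcendental K τ) {x : E}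
    (h1 : x ∈ B0 K τ E) (h2 : x ∈ VV A τ E) : x ∈ C0 A τ E := by
  let _ := algE K τ E
  have := faithfulSMul_E E hτ
  obtain ⟨S, hS, hSx⟩ := h2
  have hy : IsIntegral K[X] x := h1
  have := isIntegralElem_of_primitive_mul (A := ↥A) (K := K) (E := E) hy (s := S) hS
    (by rw [phi_eq]; exact hSx)
  rw [phi_eq] at this
  exact this

theorem C0_le_B0 : C0 A τ E ≤ B0 K τ E := by
  intro x hx
  let _ := algE K τ E
  have hx' : (phi (↥A) K E).IsIntegralElem x := by rw [phi_eq]; exact hx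
  exact isIntegral_of_phi hx'

theorem evE_C (a : A) : evE A τ E (C a) = algebraMap L E (algebraMap K L (a : K)) := by
  simp [evE, evL]

theorem const_mem_B0 (a : K) : algebraMap L E (algebraMap K L a) ∈ B0 K τ E := by
  have h := (evK K τ E).isIntegralElem_map (x := C a)
  have e : evK K τ E (C a) = algebraMap L E (algebraMap K L a) := by simp [evK]
  rw [e] at h
  exact h

theorem Sm0_of_SmV (hτ : Transcendental K τ) {x : E}
    (h1 : x ∈ C0 A τ E) (h2 : SmV A τ E x) : Sm0 A τ E x := by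
  obtain ⟨a, ha, y, hy, rfl⟩ := h2
  by_cases ha0 : a = 0
  · exact ⟨a, ha, 0, (C0 A τ E).zero_mem, by rw [ha0]; simp⟩
  refine ⟨a, ha, y, mem_C0_of_mem_B0_VV A hτ ?_ hy, rfl⟩
  have haK : (a : K) ≠ 0 := by exact_mod_cast ha0
  have h3 : y = algebraMap L E (algebraMap K L (a : K)⁻¹) * (evE A τ E (C a) * y) := by
    rw [evE_C, ← mul_assoc, ← map_mul, ← map_mul, inv_mul_cancel₀ haK, map_one, map_one, one_mul]
  rw [h3]
  exact (B0 K τ E).mul_mem (const_mem_B0 _) (C0_le_B0 A h1)

variable [FiniteDimensional L E]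

theorem trace_mem_of_C0 (hτ : Transcendental K τ) (hgen : IsGen K τ) {x : E}
    (hx : x ∈ C0 A τ E) : ∃ P : (↥A)[X], Algebra.trace L E x = evL A τ P := by
  let _ := algL K τ
  let _ := algE K τ E
  have := isScalarTower (K := K) τ E
  have := isFractionRing_L hτ hgen
  have hx' : (phi (↥A) K E).IsIntegralElem x := by rw [phi_eq]; exact hx
  obtain ⟨a, ha⟩ := exists_trace_eq L hx'
  rw [psi_eq] at ha
  exact ⟨a, ha.symm⟩

omit [FiniteDimensional L E] in
theorem trace_evE_mul (P : (↥A)[X]) (x : E) :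
    Algebra.trace L E (evE A τ E P * x) = evL A τ P * Algebra.trace L E x := by
  rw [evE_apply, ← Algebra.smul_def, map_smul, smul_eq_mul]

theorem trace_mem_of_VV (hτ : Transcendental K τ) (hgen : IsGen K τ) {x : E}
    (hx : x ∈ VV A τ E) : Algebra.trace L E x ∈ OG A τ := by
  obtain ⟨S, hS, hSx⟩ := hx
  obtain ⟨P, hP⟩ := trace_mem_of_C0 A hτ hgen hSx
  exact ⟨P, S, hS, by rw [← hP, trace_evE_mul]⟩

theorem trace_mem_of_B0 (hτ : Transcendental K τ) (hgen : IsGen K τ) {x : E}
    (hx : x ∈ B0 K τ E) : ∃ g : K[X], Algebra.trace L E x = aeval τ g := by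
  let _ := algL K τ
  let _ := algE K τ E
  have := isScalarTower (K := K) τ E
  have := isFractionRing_L hτ hgen
  have hx' : IsIntegral K[X] x := hx
  have h := Algebra.isIntegral_trace (L := L) hx'
  obtain ⟨g, hg⟩ := IsIntegrallyClosed.isIntegral_iff.mp h
  exact ⟨g, hg.symm⟩

theorem trace_SmG_of_SmV (hτ : Transcendental K τ) (hgen : IsGen K τ) {x : E}
    (hx : SmV A τ E x) : SmG A τ (Algebra.trace L E x) := by
  obtain ⟨a, ha, y, hy, rfl⟩ := hx
  exact ⟨a, ha, _, trace_mem_of_VV A hτ hgen hy, trace_evE_mul A _ _⟩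

omit [FiniteDimensional L E] in
theorem mem_OG_of_algebraMap_mem_VV (hτ : Transcendental K τ) (hgen : IsGen K τ) {x : L}
    (hx : algebraMap L E x ∈ VV A τ E) : x ∈ OG A τ := by
  obtain ⟨S, hS, p, hp, hpx⟩ := hx
  have h1 : (evL A τ).IsIntegralElem (evL A τ S * x) := by
    refine ⟨p, hp, (algebraMap L E).injective ?_⟩
    rw [map_zero, ← hpx, evE_apply, ← map_mul, evE, ← Polynomial.hom_eval₂]
  obtain ⟨P, hP⟩ := isIntegralElem_evL A hτ hgen h1
  exact ⟨P, S, hS, hP⟩

omit [FiniteDimensional L E] in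
theorem not_SmV_one (hτ : Transcendental K τ) (hgen : IsGen K τ) : ¬ SmV A τ E (1 : E) := by
  rintro ⟨a, ha, y, hy, h⟩
  have ha0 : (a : K) ≠ 0 := by
    intro h0
    have : a = 0 := by exact_mod_cast h0
    rw [this] at h
    simp at h
  have hy' : y = algebraMap L E (algebraMap K L (a : K)⁻¹) := by
    rw [evE_C] at h
    have h2 : algebraMap L E (algebraMap K L (a : K)) ≠ 0 := by
      simpa using ha0
    apply mul_left_cancel₀ h2
    rw [← h, ← map_mul, ← map_mul, mul_inv_cancel₀ ha0, map_one, map_one]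
  rw [hy'] at hy
  have h3 := mem_OG_of_algebraMap_mem_VV A hτ hgen hy
  rw [algebraMap_mem_OG_iff A hτ] at h3
  apply (IsLocalRing.mem_maximalIdeal a).mp ha
  refine isUnit_iff_exists_inv.mpr ⟨⟨_, h3⟩, ?_⟩
  ext
  simpa using mul_inv_cancel₀ ha0

end Fermat.Agent.S18.KL.SatB
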