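import Fermat.Agent.S18.Z.SatA
import Fermat.Agent.S18.Z.SatB

/-!
# S18 / (KL) abstract part, piece P2c : proofs (helper28)
-/

set_option autoImplicit false
set_option linter.unusedVariables false

noncomputable section

namespace Fermat.Agent.S18.KL.SatC

open Polynomial Fermat.Agent.S18.KLGauss Fermat.Agent.S18.KL.Bridge

variable {K : Type*} [Field K] (A : ValuationSubring K)
variable {L : Type*} [Field L] [Algebra K L] {τ : L}
variable {E : Type*} [Field E] [Algebra L E]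

theorem ne_zero_of_transcendental (hτ : Transcendental K τ) : τ ≠ 0 := by
  rintro rfl
  exact hτ (isAlgebraic_zero)

theorem VV_inv (hτ : Transcendental K τ) : VV A τ⁻¹ E = VV A τ E := by
  have hτ' := transcendental_inv' hτ
  ext x
  constructor
  · intro hx
    have h := SatA.isIntegralElem_of_mem_VV A hτ' hx
    rw [OG_inv A hτ] at h
    exact SatA.mem_VV_of_isIntegralElem A hτ h
  · intro hx
    have h := SatA.isIntegralElem_of_mem_VV A hτ hx
    rw [← OG_inv A hτ] at h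
    exact SatA.mem_VV_of_isIntegralElem A hτ' h

theorem SmV_inv (hτ : Transcendental K τ) (x : E) : SmV A τ⁻¹ E x ↔ SmV A τ E x := by
  unfold SmV
  rw [VV_inv A hτ]
  simp only [SatB.evE_C]

theorem C0_le_C01 : C0 A τ E ≤ C01 A τ E := fun x hx => ⟨0, by simpa using hx⟩

theorem evL_reflect (hτ0 : τ ≠ 0) (N : ℕ) (f : (↥A)[X]) (hf : f.natDegree ≤ N) :
    evL A τ (X ^ N) * evL A τ⁻¹ f = evL A τ (reflect N f) := by
  have hi : τ⁻¹ ≠ 0 := inv_ne_zero hτ0
  let _ : Invertible τ⁻¹ := invertibleOfNonzero hi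
  have h := eval₂_reflect_mul_pow ((algebraMap K L).comp A.subtype) τ⁻¹ N f hf
  rw [invOf_eq_inv, inv_inv] at h
  have h1 : evL A τ (X ^ N) = τ ^ N := by simp [evL]
  have h2 : evL A τ⁻¹ f = eval₂ ((algebraMap K L).comp A.subtype) τ⁻¹ f := rfl
  have h3 : evL A τ (reflect N f) = eval₂ ((algebraMap K L).comp A.subtype) τ (reflect N f) := rfl
  rw [h1, h2, h3, ← h, inv_pow]
  field_simp

/-- multiply an integral equation over `A[τ⁻¹]` by a power of `τ` -/
theorem C0_inv_le_C01 (hτ : Transcendental K τ) : C0 A τ⁻¹ E ≤ C01 A τ E := by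
  have hτ0 := ne_zero_of_transcendental hτ
  rintro x ⟨p, hp, hpx⟩
  set N := p.support.sup (fun i => (p.coeff i).natDegree) with hN
  refine ⟨N, ?_⟩
  have hpx' : eval₂ (algebraMap L E) x (p.map (evL A τ⁻¹)) = 0 := by
    rw [eval₂_map]; exact hpx
  have key := SatA.isIntegralElem_scale (evL A τ) (algebraMap L E) (hp.map _) hpx' (X ^ N) ?_
  · exact key
  · intro i
    rw [coeff_map]
    by_cases hi : i ∈ p.support
    · exact ⟨_, evL_reflect A hτ0 N _ (Finset.le_sup (f := fun i => (p.coeff i).natDegree) hi)⟩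
    · rw [notMem_support_iff.1 hi]
      exact ⟨0, by simp⟩

theorem evE_X_pow (m : ℕ) : evE A τ E (X ^ m) = algebraMap L E τ ^ m := by
  simp [evE, evL]

theorem exists_pow_inv_mul_mem (hτ : Transcendental K τ) {x : E} (hx : x ∈ C01 A τ E) :
    ∃ m : ℕ, evE A τ⁻¹ E (X ^ m) * x ∈ C0 A τ⁻¹ E := by
  have hτ0 := ne_zero_of_transcendental hτ
  obtain ⟨m, hm⟩ := hx
  have h := C0_inv_le_C01 (E := E) A (transcendental_inv' hτ)
  rw [inv_inv] at h
  obtain ⟨k, hk⟩ := h hm
  refine ⟨k, ?_⟩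
  have h2 := (C0 A τ⁻¹ E).mul_mem (evE_mem_C0 A τ⁻¹ E (X ^ m)) hk
  have hE : algebraMap L E τ ≠ 0 := (_root_.map_ne_zero _).2 hτ0
  have h3 : evE A τ⁻¹ E (X ^ m) * (evE A τ⁻¹ E (X ^ k) * (evE A τ E (X ^ m) * x)) =
      evE A τ⁻¹ E (X ^ k) * x := by
    simp only [evE_X_pow, map_inv₀, inv_pow]
    field_simp
  rwa [h3] at h2

theorem C01_le_VV (hτ : Transcendental K τ) : C01 A τ E ≤ VV A τ E := by
  rintro x ⟨m, hm⟩
  exact ⟨X ^ m, by simp [redP], hm⟩

theorem Sm01_of_SmV (hτ : Transcendental K τ) {x : E}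
    (h1 : x ∈ C01 A τ E) (h2 : SmV A τ E x) : Sm01 A τ E x := by
  have hτ0 := ne_zero_of_transcendental hτ
  have hE : algebraMap L E τ ≠ 0 := (_root_.map_ne_zero _).2 hτ0
  obtain ⟨m, hm⟩ := h1
  have h3 : SmV A τ E (evE A τ E (X ^ m) * x) :=
    SatA.SmV.mul_left A h2 (C0_le_VV A τ E (evE_mem_C0 A τ E _))
  obtain ⟨a, ha, y, hy, h⟩ := SatB.Sm0_of_SmV A hτ hm h3
  refine ⟨a, ha, (evE A τ E (X ^ m))⁻¹ * y, ⟨m, ?_⟩, ?_⟩
  · have : evE A τ E (X ^ m) * ((evE A τ E (X ^ m))⁻¹ * y) = y := by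
      rw [evE_X_pow]; field_simp
    rw [this]; exact hy
  · have : x = (evE A τ E (X ^ m))⁻¹ * (evE A τ E (X ^ m) * x) := by
      rw [evE_X_pow]; field_simp
    rw [this, h]; ring

/-- coefficients of the minimal polynomial over `L` of an element of `C0` lie in `A[τ]` -/
theorem coeff_minpoly_mem (hτ : Transcendental K τ) (hgen : IsGen K τ) {x : E}
    (hx : x ∈ C0 A τ E) (i : ℕ) : ∃ P : (↥A)[X], (minpoly L x).coeff i = evL A τ P := by
  let _ := algL K τ
  let _ := algE K τ E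
  have := isScalarTower (K := K) τ E
  have := isFractionRing_L hτ hgen
  have := faithfulSMul_E E hτ
  have hx' : (phi (↥A) K E).IsIntegralElem x := by rw [phi_eq]; exact hx
  have h1 := minpoly.isIntegrallyClosed_eq_field_fractions' L (isIntegral_of_phi hx')
  obtain ⟨P, hP⟩ := (mem_lifts _).mp (minpoly_coeff_mem_lifts hx' i)
  refine ⟨P, ?_⟩
  rw [h1, coeff_map, ← hP, evL_eq_aeval]
  rfl

/-- `A[τ] ∩ A[τ⁻¹] = A` -/
theorem const_of_evL_eq (hτ : Transcendental K τ) {P Q : (↥A)[X]}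
    (h : evL A τ P = evL A τ⁻¹ Q) : ∃ a : A, P = C a := by
  have hτ0 := ne_zero_of_transcendental hτ
  have h1 := evL_reflect A hτ0 Q.natDegree Q le_rfl
  rw [← h, ← map_mul] at h1
  have h2 := evL_injective A hτ h1
  by_cases hP : P = 0
  · exact ⟨0, by simp [hP]⟩
  have h3 : (X ^ Q.natDegree * P).natDegree = Q.natDegree + P.natDegree := by
    rw [natDegree_mul (pow_ne_zero _ X_ne_zero) hP, natDegree_X_pow]
  have h4 : (reflect Q.natDegree Q).natDegree ≤ Q.natDegree := by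
    rw [natDegree_le_iff_coeff_eq_zero]
    intro n hn
    rw [coeff_reflect, revAt_eq_self_of_lt hn]
    exact coeff_eq_zero_of_natDegree_lt hn
  rw [← h2, h3] at h4
  exact ⟨P.coeff 0, eq_C_of_natDegree_eq_zero (by omega)⟩

theorem C0_inter_C0_inv [IsAlgClosed K] (hτ : Transcendental K τ) (hgen : IsGen K τ) {x : E}
    (h0 : x ∈ C0 A τ E) (h1 : x ∈ C0 A τ⁻¹ E) : ∃ a : A, x = evE A τ E (C a) := by
  have hτ' := transcendental_inv' hτ
  have hgen' := isGen_inv hτ hgen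
  have hint : IsIntegral L x := by
    obtain ⟨p, hp, hpx⟩ := h0
    exact ⟨p.map (evL A τ), hp.map _, by rw [eval₂_map]; exact hpx⟩
  set f : ↥A →+* L := (algebraMap K L).comp A.subtype with hf
  have hl : minpoly L x ∈ lifts f := by
    rw [lifts_iff_coeff_lifts]
    intro i
    obtain ⟨P, hP⟩ := coeff_minpoly_mem A hτ hgen h0 i
    obtain ⟨Q, hQ⟩ := coeff_minpoly_mem A hτ' hgen' h1 i
    obtain ⟨a, rfl⟩ := const_of_evL_eq A hτ (hP.symm.trans hQ)
    refine ⟨a, ?_⟩
    rw [hP]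
    simp [evL, hf]
  obtain ⟨q, hq, -, hqm⟩ := lifts_and_natDegree_eq_and_monic hl (minpoly.monic hint)
  let _ : Algebra K E := ((algebraMap L E).comp (algebraMap K L)).toAlgebra
  have hqx : eval₂ ((algebraMap K E).comp A.subtype) x q = 0 := by
    have := minpoly.aeval L x
    rw [← hq, aeval_def, eval₂_map] at this
    exact this
  have hxK : IsIntegral K x := ⟨q.map A.subtype, hqm.map _, by rw [eval₂_map]; exact hqx⟩
  have hdeg := IsAlgClosed.degree_eq_one_of_irreducible K (minpoly.irreducible hxK)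
  obtain ⟨ρ, hρ⟩ := minpoly.mem_range_of_degree_eq_one K x hdeg
  have hρi : IsIntegral (↥A) ρ := by
    refine ⟨q, hqm, (algebraMap K E).injective ?_⟩
    rw [map_zero, Polynomial.hom_eval₂, hρ]
    exact hqx
  obtain ⟨a, ha⟩ := IsIntegrallyClosed.isIntegral_iff.mp hρi
  refine ⟨a, ?_⟩
  rw [SatB.evE_C, ← hρ, ← ha]
  rfl

end Fermat.Agent.S18.KL.SatC
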