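import Fermat.Agent.S18.Z.Gauss
import Fermat.Agent.S18.Z.SatA
import Fermat.Agent.S18.Z.SatB
import Fermat.Agent.S18.Z.SatC

/-!
# S18 / (KL) abstract part, piece P2 : saturation, traces, the two charts  (key `S18/KL-P2`)

`E / L` finite.  `C0 ⊂ B0`, `C0 ⊂ VV`, and the basic fact **`B0 ∩ VV = C0`**
(the minimal polynomial over `L` of `x ∈ B0 ∩ VV` has coefficients in `K[τ] ∩ OG = A[τ]`;
use `minpoly.isIntegrallyClosed...`-type arguments or: the coefficients of the minimal polynomial are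
polynomials in the conjugates, hence integral; `isIntegralElem_aeval`, `isIntegral_OG`, `OG_inter_poly`).
Everything else follows formally.
-/

set_option autoImplicit false

noncomputable section

namespace Fermat.Agent.S18.KL

open Polynomial

variable {K : Type*} [Field K] (A : ValuationSubring K)
variable {L : Type*} [Field L] [Algebra K L] {τ : L}
variable {E : Type*} [Field E] [Algebra L E]

/-! ### part (a): formal facts -/

theorem C0_le_B0 : C0 A τ E ≤ B0 K τ E :=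
  SatA.C0_le_B0 A

theorem evK_mem_B0 (g : K[X]) : evK K τ E g ∈ B0 K τ E :=
  SatA.evK_mem_B0 g

theorem evE_eq_evK (P : (↥A)[X]) : evE A τ E P = evK K τ E (incP A P) :=
  SatA.evE_eq_evK A P

/-- `B0 = K · C0` -/
theorem exists_smul_mem_C0 {x : E} (hx : x ∈ B0 K τ E) :
    ∃ a : A, a ≠ 0 ∧ evE A τ E (C a) * x ∈ C0 A τ E :=
  SatA.exists_smul_mem_C0 A hx

theorem isIntegralElem_of_mem_VV (hτ : Transcendental K τ) {x : E} (hx : x ∈ VV A τ E) :
    ((algebraMap L E).comp (OG A τ).subtype).IsIntegralElem x :=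
  SatA.isIntegralElem_of_mem_VV A hτ hx

theorem mem_VV_of_isIntegralElem (hτ : Transcendental K τ) {x : E}
    (hx : ((algebraMap L E).comp (OG A τ).subtype).IsIntegralElem x) : x ∈ VV A τ E :=
  SatA.mem_VV_of_isIntegralElem A hτ hx

theorem algebraMap_mem_VV (hτ : Transcendental K τ) {x : L} (hx : x ∈ OG A τ) :
    algebraMap L E x ∈ VV A τ E :=
  SatA.algebraMap_mem_VV A hτ hx

theorem mem_VV_of_pow_mem (hτ : Transcendental K τ) {x : E} {n : ℕ} (hn : 0 < n)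
    (hx : x ^ n ∈ VV A τ E) : x ∈ VV A τ E :=
  SatA.mem_VV_of_pow_mem A hτ hn hx

theorem mem_B0_of_pow_mem {x : E} {n : ℕ} (hn : 0 < n) (hx : x ^ n ∈ B0 K τ E) :
    x ∈ B0 K τ E :=
  SatA.mem_B0_of_pow_mem hn hx

theorem Sm0.mem_C0 {x : E} (hx : Sm0 A τ E x) : x ∈ C0 A τ E :=
  SatA.Sm0.mem_C0 A hx

theorem Sm0.add {x y : E} (hx : Sm0 A τ E x) (hy : Sm0 A τ E y) : Sm0 A τ E (x + y) :=
  SatA.Sm0.add A hx hy

theorem Sm0.neg {x : E} (hx : Sm0 A τ E x) : Sm0 A τ E (-x) :=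
  SatA.Sm0.neg A hx

theorem Sm0.sub {x y : E} (hx : Sm0 A τ E x) (hy : Sm0 A τ E y) : Sm0 A τ E (x - y) :=
  SatA.Sm0.sub A hx hy

theorem Sm0.mul_left {x y : E} (hx : Sm0 A τ E x) (hy : y ∈ C0 A τ E) : Sm0 A τ E (y * x) :=
  SatA.Sm0.mul_left A hx hy

theorem Sm0.SmV {x : E} (hx : Sm0 A τ E x) : SmV A τ E x :=
  SatA.Sm0.SmV A hx

theorem SmV.mem_VV {x : E} (hx : SmV A τ E x) : x ∈ VV A τ E :=
  SatA.SmV.mem_VV A hx

theorem SmV.add {x y : E} (hx : SmV A τ E x) (hy : SmV A τ E y) : SmV A τ E (x + y) :=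
  SatA.SmV.add A hx hy

theorem SmV.neg {x : E} (hx : SmV A τ E x) : SmV A τ E (-x) :=
  SatA.SmV.neg A hx

theorem SmV.sub {x y : E} (hx : SmV A τ E x) (hy : SmV A τ E y) : SmV A τ E (x - y) :=
  SatA.SmV.sub A hx hy

theorem SmV.mul_left {x y : E} (hx : SmV A τ E x) (hy : y ∈ VV A τ E) : SmV A τ E (y * x) :=
  SatA.SmV.mul_left A hx hy

theorem Sm0_evE_of_redP_eq_zero {P : (↥A)[X]} (hP : redP A P = 0) : Sm0 A τ E (evE A τ E P) :=
  SatA.Sm0_evE_of_redP_eq_zero A hP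

/-- cancel a primitive factor -/
theorem SmV_of_evE_mul (hτ : Transcendental K τ) {S : (↥A)[X]} (hS : redP A S ≠ 0) {x : E}
    (hx : SmV A τ E (evE A τ E S * x)) : SmV A τ E x :=
  SatA.SmV_of_evE_mul A hτ hS hx

/-! ### part (b): needs `[FiniteDimensional L E]` and integral closedness -/

variable [FiniteDimensional L E]

/-- **`B0 ∩ VV = C0`** -/
theorem mem_C0_of_mem_B0_VV (hτ : Transcendental K τ) (hgen : IsGen K τ) {x : E}
    (h1 : x ∈ B0 K τ E) (h2 : x ∈ VV A τ E) : x ∈ C0 A τ E :=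
  SatB.mem_C0_of_mem_B0_VV A hτ h1 h2

/-- **saturation** `C0 ∩ 𝔪 VV = 𝔪 C0` -/
theorem Sm0_of_SmV (hτ : Transcendental K τ) (hgen : IsGen K τ) {x : E}
    (h1 : x ∈ C0 A τ E) (h2 : SmV A τ E x) : Sm0 A τ E x :=
  SatB.Sm0_of_SmV A hτ h1 h2

theorem trace_mem_of_C0 (hτ : Transcendental K τ) (hgen : IsGen K τ) {x : E}
    (hx : x ∈ C0 A τ E) : ∃ P : (↥A)[X], Algebra.trace L E x = evL A τ P :=
  SatB.trace_mem_of_C0 A hτ hgen hx

theorem trace_mem_of_VV (hτ : Transcendental K τ) (hgen : IsGen K τ) {x : E}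
    (hx : x ∈ VV A τ E) : Algebra.trace L E x ∈ OG A τ :=
  SatB.trace_mem_of_VV A hτ hgen hx

theorem trace_mem_of_B0 (hτ : Transcendental K τ) (hgen : IsGen K τ) {x : E}
    (hx : x ∈ B0 K τ E) : ∃ g : K[X], Algebra.trace L E x = aeval τ g :=
  SatB.trace_mem_of_B0 hτ hgen hx

theorem trace_SmG_of_SmV (hτ : Transcendental K τ) (hgen : IsGen K τ) {x : E}
    (hx : SmV A τ E x) : SmG A τ (Algebra.trace L E x) :=
  SatB.trace_SmG_of_SmV A hτ hgen hx

/-- `VV ∩ L = OG` -/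
theorem mem_OG_of_algebraMap_mem_VV (hτ : Transcendental K τ) (hgen : IsGen K τ) {x : L}
    (hx : algebraMap L E x ∈ VV A τ E) : x ∈ OG A τ :=
  SatB.mem_OG_of_algebraMap_mem_VV A hτ hgen hx

theorem not_SmV_one (hτ : Transcendental K τ) (hgen : IsGen K τ) : ¬ SmV A τ E (1 : E) :=
  SatB.not_SmV_one A hτ hgen

/-! ### part (c): the two charts `τ`, `τ⁻¹` -/

theorem VV_inv (hτ : Transcendental K τ) : VV A τ⁻¹ E = VV A τ E :=
  SatC.VV_inv A hτ

theorem SmV_inv (hτ : Transcendental K τ) (x : E) : SmV A τ⁻¹ E x ↔ SmV A τ E x :=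
  SatC.SmV_inv A hτ x

theorem C0_le_C01 : C0 A τ E ≤ C01 A τ E :=
  SatC.C0_le_C01 A

/-- multiply an integral equation over `A[τ⁻¹]` by a power of `τ` -/
theorem C0_inv_le_C01 (hτ : Transcendental K τ) : C0 A τ⁻¹ E ≤ C01 A τ E :=
  SatC.C0_inv_le_C01 A hτ

theorem exists_pow_inv_mul_mem (hτ : Transcendental K τ) {x : E} (hx : x ∈ C01 A τ E) :
    ∃ m : ℕ, evE A τ⁻¹ E (X ^ m) * x ∈ C0 A τ⁻¹ E :=
  SatC.exists_pow_inv_mul_mem A hτ hx

theorem C01_le_VV (hτ : Transcendental K τ) : C01 A τ E ≤ VV A τ E :=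
  SatC.C01_le_VV A hτ

theorem Sm01_of_SmV (hτ : Transcendental K τ) (hgen : IsGen K τ) {x : E}
    (h1 : x ∈ C01 A τ E) (h2 : SmV A τ E x) : Sm01 A τ E x :=
  SatC.Sm01_of_SmV A hτ h1 h2

/-- `C0 ∩ C1 = A` : the minimal polynomial has coefficients in `A[τ] ∩ A[τ⁻¹] = A`, so `x` is algebraic
over the algebraically closed `K`, hence in `K`, and integral over `A`. -/
theorem C0_inter_C0_inv [IsAlgClosed K] (hτ : Transcendental K τ) (hgen : IsGen K τ) {x : E}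
    (h0 : x ∈ C0 A τ E) (h1 : x ∈ C0 A τ⁻¹ E) : ∃ a : A, x = evE A τ E (C a) :=
  SatC.C0_inter_C0_inv A hτ hgen h0 h1

end Fermat.Agent.S18.KL
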