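import Fermat.Agent.S18.Z.Basis

/-!
# S18 / (KL) abstract part, piece P7a : the reduction `Cbar = C0 / 𝔪 C0`  (key `S18/KL-P7a`)

`Cbar` is a `(kk A)[X]`-algebra; a `GoodBasis` gives a basis of it and the trace commutes with reduction.

* `exists_bar`: independence = `GoodBasis.indep`; spanning: `d1 x = ∑ c_i w_i` (`GoodBasis.span`), `redP d1 = 1`.
* `trace_bar`: `d1 x w_i = ∑_j c_ij w_j` with `c_ij ∈ A[X]` (`span` for `x w_i`), so `evL d1 * Tr x = ∑ evL c_ii`, i.e.
  `d1 * P = ∑ c_ii` in `A[X]` (`evL_injective`); in `Cbar`: `mk x * b_i = ∑_j redP c_ij • b_j`;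
  `Algebra.trace_eq_matrix_trace`.
-/

set_option autoImplicit false

noncomputable section

namespace Fermat.Agent.S18.KL

open Polynomial

variable {K : Type*} [Field K] (A : ValuationSubring K)
variable {L : Type*} [Field L] [Algebra K L] (τ : L)
variable (E : Type*) [Field E] [Algebra L E]

/-- the ideal `𝔪 C0` -/
def mC0 : Ideal (C0 A τ E) where
  carrier := {x | Sm0 A τ E (x : E)}
  add_mem' := fun ha hb => Sm0.add A ha hb
  zero_mem' := ⟨0, zero_mem _, 0, zero_mem _, by simp⟩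
  smul_mem' := fun c _ hx => Sm0.mul_left A hx c.2

theorem mem_mC0 {x : C0 A τ E} : x ∈ mC0 A τ E ↔ Sm0 A τ E (x : E) := Iff.rfl

/-- `C0 / 𝔪 C0` -/
abbrev Cbar : Type _ := (C0 A τ E) ⧸ mC0 A τ E

/-- `A[X] → C0` -/
def toC0 : (↥A)[X] →+* C0 A τ E := (evE A τ E).codRestrict (C0 A τ E) (evE_mem_C0 A τ E)

@[simp] theorem coe_toC0 (P : (↥A)[X]) : ((toC0 A τ E P : C0 A τ E) : E) = evE A τ E P := rfl

/-- `(kk A)[X] → Cbar` -/
def barHom : (kk A)[X] →+* Cbar A τ E :=
  (redP A).liftOfSurjective (redP_surjective A)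
    ⟨(Ideal.Quotient.mk (mC0 A τ E)).comp (toC0 A τ E), fun P hP => by
      rw [RingHom.mem_ker] at hP ⊢
      rw [RingHom.comp_apply, Ideal.Quotient.eq_zero_iff_mem, mem_mC0]
      exact Sm0_evE_of_redP_eq_zero A hP⟩

instance : Algebra (kk A)[X] (Cbar A τ E) := (barHom A τ E).toAlgebra

theorem algebraMap_redP (P : (↥A)[X]) :
    algebraMap (kk A)[X] (Cbar A τ E) (redP A P) = Ideal.Quotient.mk (mC0 A τ E) (toC0 A τ E P) :=
  (redP A).liftOfRightInverse_comp_apply _ _ _ P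

theorem mk_eq_zero_iff (x : C0 A τ E) :
    Ideal.Quotient.mk (mC0 A τ E) x = 0 ↔ Sm0 A τ E (x : E) := by
  rw [Ideal.Quotient.eq_zero_iff_mem, mem_mC0]

variable {A τ E}
variable [CharZero K] [FiniteDimensional L E]

omit [CharZero K] [FiniteDimensional L E] in
theorem GoodBasis.mk_eq_sum {n : ℕ} (g : GoodBasis A τ E n) (y : C0 A τ E) (c : Fin n → (↥A)[X])
    (hc : ∀ i, evL A τ g.d1 * g.w.repr (y : E) i = evL A τ (c i)) :
    Ideal.Quotient.mk (mC0 A τ E) y =
      ∑ i, redP A (c i) • Ideal.Quotient.mk (mC0 A τ E) ⟨g.w i, g.mem i⟩ := by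
  have h1 : toC0 A τ E g.d1 * y = ∑ i, toC0 A τ E (c i) * ⟨g.w i, g.mem i⟩ := by
    apply Subtype.ext
    rw [Subring.coe_mul, coe_toC0, AddSubmonoidClass.coe_finsetSum]
    simp only [Subring.coe_mul, coe_toC0]
    conv_lhs => rw [← g.w.sum_repr (y : E), Finset.mul_sum]
    refine Finset.sum_congr rfl fun i _ => ?_
    rw [evE_apply, evE_apply, ← hc i, map_mul, Algebra.smul_def, mul_assoc]
  have h2 := congrArg (Ideal.Quotient.mk (mC0 A τ E)) h1
  rw [map_mul, ← algebraMap_redP, g.red_d1, map_one, one_mul, map_sum] at h2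
  rw [h2]
  refine Finset.sum_congr rfl fun i _ => ?_
  rw [map_mul, ← algebraMap_redP, Algebra.smul_def]

omit [CharZero K] [FiniteDimensional L E] in
theorem GoodBasis.exists_bar (hτ : Transcendental K τ) (hgen : IsGen K τ) {n : ℕ}
    (g : GoodBasis A τ E n) :
    ∃ b : Module.Basis (Fin n) (kk A)[X] (Cbar A τ E),
      ∀ i, b i = Ideal.Quotient.mk (mC0 A τ E) ⟨g.w i, g.mem i⟩ := by
  have hli : LinearIndependent (kk A)[X]
      (fun i : Fin n => Ideal.Quotient.mk (mC0 A τ E) ⟨g.w i, g.mem i⟩) := by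
    rw [Fintype.linearIndependent_iff]
    intro c hc
    choose c' hc' using fun i => redP_surjective A (c i)
    have h1 : Ideal.Quotient.mk (mC0 A τ E) (∑ i, toC0 A τ E (c' i) * ⟨g.w i, g.mem i⟩) = 0 := by
      rw [map_sum, ← hc]
      refine Finset.sum_congr rfl fun i _ => ?_
      rw [map_mul, ← algebraMap_redP, Algebra.smul_def, hc']
    rw [mk_eq_zero_iff, AddSubmonoidClass.coe_finsetSum] at h1
    simp only [Subring.coe_mul, coe_toC0] at h1
    intro i
    rw [← hc' i]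
    exact g.indep c' h1 i
  have hsp : ⊤ ≤ Submodule.span (kk A)[X]
      (Set.range fun i : Fin n => Ideal.Quotient.mk (mC0 A τ E) ⟨g.w i, g.mem i⟩) := by
    intro X _
    obtain ⟨x, rfl⟩ := Ideal.Quotient.mk_surjective X
    choose c hc using fun i => g.span x x.2 i
    rw [g.mk_eq_sum x c hc]
    exact Submodule.sum_mem _ fun i _ =>
      Submodule.smul_mem _ _ (Submodule.subset_span ⟨i, rfl⟩)
  exact ⟨Module.Basis.mk hli hsp, fun i => Module.Basis.mk_apply hli hsp i⟩

omit [CharZero K] in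
theorem GoodBasis.trace_bar (hτ : Transcendental K τ) (hgen : IsGen K τ) {n : ℕ}
    (g : GoodBasis A τ E n) (x : C0 A τ E) (P : (↥A)[X])
    (hP : Algebra.trace L E (x : E) = evL A τ P) :
    Algebra.trace (kk A)[X] (Cbar A τ E) (Ideal.Quotient.mk (mC0 A τ E) x) = redP A P := by
  obtain ⟨b, hb⟩ := g.exists_bar hτ hgen
  choose c hc using fun j i => g.span ((x : E) * g.w j) ((C0 A τ E).mul_mem x.2 (g.mem j)) i
  have h1 : ∀ j i, b.repr (Ideal.Quotient.mk (mC0 A τ E) x * b j) i = redP A (c j i) := by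
    intro j i
    have h2 := g.mk_eq_sum (x * ⟨g.w j, g.mem j⟩) (c j) (hc j)
    rw [hb j, ← map_mul, h2]
    simp only [← hb]
    rw [b.repr_sum_self]
  rw [Algebra.trace_eq_matrix_trace b, Matrix.trace]
  simp only [Matrix.diag_apply, Algebra.leftMulMatrix_eq_repr_mul, h1]
  have h3 : g.d1 * P = ∑ i, c i i := by
    apply evL_injective A hτ
    rw [map_mul, ← hP, Algebra.trace_eq_matrix_trace g.w, Matrix.trace, Finset.mul_sum, map_sum]
    refine Finset.sum_congr rfl fun i _ => ?_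
    rw [Matrix.diag_apply, Algebra.leftMulMatrix_eq_repr_mul, hc i i]
  have h4 := congrArg (redP A) h3
  rw [map_mul, g.red_d1, one_mul, map_sum] at h4
  exact h4.symm

end Fermat.Agent.S18.KL
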