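import Fermat.Agent.S18.Z.Sat
import Fermat.Agent.S18.KLConn

/-!
# S18 / (KL) abstract part, piece P8 : connectedness  (key `S18/KL-P8`)

Wrapper around `Fermat.Agent.S18.KLConn.idem_const_of_finite` (helper18).
Use `Algebra ↥A E := ((evE A τ E).comp Polynomial.C).toAlgebra` (local instance), `t = algebraMap L E τ = evE A τ E X`,
`R0, R1, R01` = `C0 A τ E`, `C0 A τ⁻¹ E`, `C01 A τ E` as subalgebras.
* `hloc0` = definition of `C01`; `hloc1` = `exists_pow_inv_mul_mem`; `h1` = `C0_inv_le_C01`; `hcap` = `C0_inter_C0_inv`;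
* `hG` from `FgC0` (a polynomial is an `A`-combination of powers of `X`);
* `m • toSubmodule R ↔ Sm…` = `KLConn.mem_maximalIdeal_smul_iff`; `h01` from `Sm01_of_SmV`.
Result: `l : A` with `e0 - l ∈ 𝔪 C0`.  Then `l^2 - l = (e0^2 - e0) - (e0 - l)(e0 + l - 1) ∈ 𝔪 C0`; if `l^2 - l` were a unit of
`A` then `1 ∈ 𝔪 C0`, contradicting `not_SmV_one`; so `l ∈ 𝔪` or `l - 1 ∈ 𝔪`.
-/

set_option autoImplicit false

noncomputable section

namespace Fermat.Agent.S18.KL

open Polynomial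

variable {K : Type*} [Field K] {A : ValuationSubring K}
variable {L : Type*} [Field L] [Algebra K L] {τ : L}
variable {E : Type*} [Field E] [Algebra L E] [FiniteDimensional L E]

theorem conn [IsAlgClosed K] (hτ : Transcendental K τ) (hgen : IsGen K τ) (hA : Arch A)
    (hfg : FgC0 A τ E) {e0 e1 : E} (h0 : e0 ∈ C0 A τ E) (h1 : e1 ∈ C0 A τ⁻¹ E)
    (hi0 : Sm0 A τ E (e0 * e0 - e0)) (hi1 : Sm0 A τ⁻¹ E (e1 * e1 - e1))
    (h01 : SmV A τ E (e0 - e1)) :
    Sm0 A τ E e0 ∨ Sm0 A τ E (e0 - 1) := by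
  classical
  let _ : Algebra ↥A E := ((evE A τ E).comp C).toAlgebra
  have halg : ∀ a : A, algebraMap ↥A E a = evE A τ E (C a) := fun a => rfl
  have halg' : ∀ a : A, algebraMap ↥A E a = evE A τ⁻¹ E (C a) := fun a => by
    rw [halg, SatB.evE_C, SatB.evE_C]
  let R0 : Subalgebra ↥A E :=
    { (C0 A τ E).toSubsemiring with algebraMap_mem' := fun a => evE_mem_C0 A τ E (C a) }
  let R1 : Subalgebra ↥A E :=
    { (C0 A τ⁻¹ E).toSubsemiring with
      algebraMap_mem' := fun a => by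
        rw [halg']; exact evE_mem_C0 A τ⁻¹ E (C a) }
  let R01 : Subalgebra ↥A E :=
    { (C01 A τ E).toSubsemiring with
      algebraMap_mem' := fun a => C0_le_C01 A (evE_mem_C0 A τ E (C a)) }
  have hτ0 : τ ≠ 0 := by
    rintro rfl
    exact hτ (isAlgebraic_zero)
  set t : E := evE A τ E X with ht
  have htτ : t = algebraMap L E τ := by simp [ht, evE, evL]
  have ht0 : t ≠ 0 := by rw [htτ]; simpa using hτ0
  have htinv : t⁻¹ = evE A τ⁻¹ E X := by
    rw [htτ]; simp [evE, evL]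
  obtain ⟨G, hGmem, hGspan⟩ := hfg
  have hG : Subalgebra.toSubmodule R0 =
      Submodule.span ↥A {y | ∃ g ∈ G, ∃ e : ℕ, y = t ^ e * g} := by
    apply le_antisymm
    · intro x hx
      obtain ⟨c, rfl⟩ := hGspan x hx
      refine Submodule.sum_mem _ fun g hg => ?_
      induction c g using Polynomial.induction_on' with
      | add p q hp hq => rw [map_add, add_mul]; exact Submodule.add_mem _ hp hq
      | monomial n a =>
        rw [← C_mul_X_pow_eq_monomial, map_mul, map_pow, ← halg, mul_assoc, ← Algebra.smul_def]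
        exact Submodule.smul_mem _ _ (Submodule.subset_span ⟨g, hg, n, rfl⟩)
    · rw [Submodule.span_le]
      rintro _ ⟨g, hg, e, rfl⟩
      exact (C0 A τ E).mul_mem ((C0 A τ E).pow_mem (evE_mem_C0 A τ E X) e) (hGmem g hg)
  have hsm : ∀ (R : Subalgebra ↥A E) (a : A) (y : E), a ∈ IsLocalRing.maximalIdeal ↥A → y ∈ R →
      algebraMap ↥A E a * y ∈ IsLocalRing.maximalIdeal ↥A • Subalgebra.toSubmodule R := by
    intro R a y ha hy
    rw [← Algebra.smul_def]
    exact Submodule.smul_mem_smul ha hy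
  have hd01 : e0 - e1 ∈ C01 A τ E :=
    (C01 A τ E).sub_mem (C0_le_C01 A h0) (C0_inv_le_C01 A hτ h1)
  obtain ⟨l, hl⟩ := KLConn.idem_const_of_finite (A := ↥A) (E := E) (R0 := R0) (R1 := R1)
    (R01 := R01) (t := t) ht0 (evE_mem_C0 A τ E X)
    (by rw [htinv]; exact evE_mem_C0 A τ⁻¹ E X)
    (fun x hx => C0_le_C01 A hx) (fun x hx => C0_inv_le_C01 A hτ hx)
    (fun x hx => by
      obtain ⟨m, hm⟩ := hx
      exact ⟨m, by rw [ht, ← map_pow]; exact hm⟩)
    (fun x hx => by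
      obtain ⟨m, hm⟩ := exists_pow_inv_mul_mem A hτ hx
      exact ⟨m, by rw [htinv, ← map_pow]; exact hm⟩)
    G hG
    (fun x hx0 hx1 => by
      obtain ⟨a, ha⟩ := C0_inter_C0_inv A hτ hgen hx0 hx1
      exact ⟨a, ha.symm⟩)
    hA (e0 := e0) (e1 := e1) h0 h1
    (by
      obtain ⟨a, ha, y, hy, h⟩ := hi0
      rw [sq, h, ← halg]
      exact hsm R0 a y ha hy)
    (by
      obtain ⟨a, ha, y, hy, h⟩ := hi1
      rw [sq, h, ← halg']
      exact hsm R1 a y ha hy)
    (by
      obtain ⟨a, ha, y, hy, h⟩ := Sm01_of_SmV A hτ hgen hd01 h01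
      rw [h, ← halg]
      exact hsm R01 a y ha hy)
  have hl' : Sm0 A τ E (e0 - evE A τ E (C l)) := by
    obtain ⟨b, hb, y, hy, h⟩ := (KLConn.mem_maximalIdeal_smul_iff _ _).mp hl
    exact ⟨b, hb, y, hy, by rw [← halg, h, Algebra.smul_def, halg]⟩
  have hconst : ∀ a ∈ IsLocalRing.maximalIdeal ↥A, Sm0 A τ E (evE A τ E (C a)) :=
    fun a ha => ⟨a, ha, 1, (C0 A τ E).one_mem, (mul_one _).symm⟩
  -- `l ^ 2 - l ∈ 𝔪`
  have hll : l * (l - 1) ∈ IsLocalRing.maximalIdeal ↥A := by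
    rw [IsLocalRing.mem_maximalIdeal, mem_nonunits_iff]
    intro hu
    obtain ⟨v, hv⟩ := isUnit_iff_exists_inv.mp hu
    have h2 : Sm0 A τ E (evE A τ E (C (l * (l - 1)))) := by
      have e : evE A τ E (C (l * (l - 1))) = (e0 * e0 - e0) -
          (e0 + evE A τ E (C l) - 1) * (e0 - evE A τ E (C l)) := by
        rw [C_mul, C_sub, C_1, map_mul, map_sub, map_one]; ring
      rw [e]
      exact Sm0.sub A hi0 (Sm0.mul_left A hl' ((C0 A τ E).sub_mem
        ((C0 A τ E).add_mem h0 (evE_mem_C0 A τ E _)) (C0 A τ E).one_mem))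
    have h3 : Sm0 A τ E (1 : E) := by
      have := Sm0.mul_left A h2 (evE_mem_C0 A τ E (C v))
      rwa [← map_mul, ← C_mul, mul_comm, hv, C_1, map_one] at this
    exact not_SmV_one A hτ hgen (Sm0.SmV A h3)
  rcases (IsLocalRing.maximalIdeal.isMaximal ↥A).isPrime.mem_or_mem hll with h | h
  · left
    have := Sm0.add A hl' (hconst l h)
    rwa [sub_add_cancel] at this
  · right
    have := Sm0.add A hl' (hconst (l - 1) h)
    rwa [C_sub, C_1, map_sub, map_one, sub_add_sub_cancel] at this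

end Fermat.Agent.S18.KL
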