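import Mathlib
import Fermat.Agent.S18.KLDiff
import Fermat.Agent.S24.DiffGlobal

/-!
# S18 / (KL) abstract part, piece P5 : auxiliary lemmas (helper18)
-/

set_option autoImplicit false
set_option linter.unusedSectionVars false

noncomputable section

namespace Fermat.Agent.S18.KL.DiffAux

open Polynomial AlgebraicCurve IsDedekindDomain

section Inv

variable {K E : Type*} [Field K] [Field E] [Algebra K E]

theorem ord_inv_sub (P : Place K E) {t : E} (ht : t ≠ 0) {c : K} (hc : c ≠ 0)
    (h : 0 < P.ord (t⁻¹ - algebraMap K E c)) :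
    P.ord (t⁻¹ - algebraMap K E c) = P.ord (t - algebraMap K E c⁻¹) := by
  have h0 : P.ord t⁻¹ = 0 := by
    rcases lt_trichotomy (P.ord t⁻¹) 0 with h1 | h1 | h1
    · exact absurd h (Fermat.Agent.S24.Diff.not_ord_sub_pos_of_ord_neg P _ c h1)
    · exact h1
    · have h2 : 0 < P.ord (t⁻¹ - algebraMap K E 0) := by simpa using h1
      exact absurd (Fermat.Agent.S24.Diff.eq_of_ord_sub_pos P _ h h2) hc
  have hne : t⁻¹ - algebraMap K E c ≠ 0 := by
    intro h1
    rw [h1, Place.ord_zero] at h
    exact lt_irrefl _ h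
  have hc' : algebraMap K E c ≠ 0 := by simpa using hc
  have key : t⁻¹ - algebraMap K E c = algebraMap K E (-c) * (t - algebraMap K E c⁻¹) * t⁻¹ := by
    rw [map_neg, map_inv₀]
    field_simp
    ring
  have hne2 : t - algebraMap K E c⁻¹ ≠ 0 := by
    intro h1
    rw [h1, mul_zero, zero_mul] at key
    exact hne key
  have hc'' : algebraMap K E (-c) ≠ 0 := by simpa using hc
  rw [key, P.ord_mul (mul_ne_zero hc'' hne2) (inv_ne_zero ht), P.ord_mul hc'' hne2, h0,
    Fermat.Agent.S24.Diff.ord_algebraMap]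
  ring

end Inv

section Main

variable (K : Type*) [Field K] [IsAlgClosed K] [CharZero K]
variable (L : Type*) {E : Type*} (B : Type*) [Field L] [Field E] [CommRing B]
  [Algebra K[X] L] [Algebra K[X] E] [Algebra L E] [IsScalarTower K[X] L E] [IsFractionRing K[X] L]
  [Algebra K[X] B] [Algebra B E] [IsScalarTower K[X] B E] [IsFractionRing B E]
  [IsIntegralClosure B K[X] E] [FiniteDimensional L E] [Algebra.IsSeparable L E]
  [IsDedekindDomain B] [Module.IsTorsionFree K[X] B] [Module.Finite K[X] B]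
  [Algebra K E] [Algebra K B] [IsScalarTower K B E] [IsScalarTower K K[X] B]

omit [IsAlgClosed K] in
theorem charZero_quot (p : Ideal K[X]) (hp : p.IsMaximal) : CharZero (K[X] ⧸ p) := by
  have : Nontrivial (K[X] ⧸ p) := Ideal.Quotient.nontrivial_iff.mpr hp.ne_top
  exact charZero_of_injective_algebraMap (algebraMap K (K[X] ⧸ p)).injective

omit [CharZero K] [IsDedekindDomain B] [Module.IsTorsionFree K[X] B] in
/-- a maximal ideal of `B` contains `X - c` for some `c` -/
theorem exists_sub_mem (P : Ideal B) [P.IsMaximal] :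
    ∃ c : K, algebraMap K[X] B (X - C c) ∈ P := by
  have hS : Algebra.FiniteType K B :=
    Algebra.FiniteType.trans (S := K[X]) inferInstance inferInstance
  obtain ⟨c, hc⟩ := (Fermat.Agent.S24.algebraMap_quotient_bijective (K := K) P).2
    (Ideal.Quotient.mk P (algebraMap K[X] B X))
  refine ⟨c, ?_⟩
  rw [← Ideal.Quotient.eq_zero_iff_mem, map_sub, map_sub, ← hc, sub_eq_zero,
    ← Polynomial.algebraMap_eq, ← IsScalarTower.algebraMap_apply K K[X] B]
  rfl

theorem notMem_sq_of_ord_eq_one (w : HeightOneSpectrum B) (b : B)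
    (h : (Place.ofHeightOneSpectrum (K := K) (F := E) w).ord (algebraMap B E b) = 1) :
    b ∉ w.asIdeal ^ 2 := by
  intro hb
  rw [Fermat.Agent.S24.ord_ofHeightOneSpectrum, HeightOneSpectrum.valuation_of_algebraMap] at h
  have h1 := (w.intValuation_le_pow_iff_mem b 2).mpr hb
  have hb0 : w.intValuation b ≠ 0 := by
    intro h0
    rw [h0] at h
    simp at h
  have h2 : WithZero.log (w.intValuation b) ≤ -2 := by
    have := (WithZero.log_le_log hb0 WithZero.exp_ne_zero).mpr h1
    simpa using this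
  omega

theorem exists_mem_radical (c0 : K)
    (hbr : ∀ (P : Place K E) (c : K), c ≠ 0 → c ≠ c0 →
      0 < P.ord (algebraMap K[X] E (X - C c)) → P.ord (algebraMap K[X] E (X - C c)) = 1)
    (x : E)
    (hx : ∀ b : B, Algebra.trace L E (x * algebraMap B E b) ∈ (algebraMap K[X] L).range) :
    ∃ y : B, algebraMap B E y = algebraMap K[X] E (X * (X - C c0)) * x ∧
      y ∈ (Ideal.span {algebraMap K[X] B (X * (X - C c0))}).radical := by
  refine KLDiff.exists_mem_radical K[X] L (charZero_quot K) (X * (X - C c0))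
    (mul_ne_zero X_ne_zero (X_sub_C_ne_zero c0)) ?_ x hx
  intro P hP hP0 hθ
  have hPmax : P.IsMaximal := hP.isMaximal hP0
  obtain ⟨c, hc⟩ := exists_sub_mem K B P
  have hc1 : c ≠ 0 := by
    rintro rfl
    apply hθ
    rw [map_mul]
    apply Ideal.mul_mem_right
    simpa using hc
  have hc2 : c ≠ c0 := by
    rintro rfl
    apply hθ
    rw [map_mul]
    exact Ideal.mul_mem_left _ _ hc
  refine KLDiff.not_dvd_differentIdeal_of_notMem_sq' K[X] L (L := E) (charZero_quot K) hP hP0
    (X - C c) hc ?_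
  let w : HeightOneSpectrum B := ⟨P, hP, hP0⟩
  have hne : algebraMap K[X] B (X - C c) ≠ 0 := by
    rw [ne_eq, FaithfulSMul.algebraMap_eq_zero_iff]
    exact X_sub_C_ne_zero c
  have h1 : 0 < (Place.ofHeightOneSpectrum (K := K) (F := E) w).ord
      (algebraMap K[X] E (X - C c)) := by
    rw [IsScalarTower.algebraMap_apply K[X] B E, Fermat.Agent.S24.ord_algebraMap_pos_iff w hne]
    exact hc
  have h2 := hbr _ c hc1 hc2 h1
  rw [IsScalarTower.algebraMap_apply K[X] B E] at h2
  exact notMem_sq_of_ord_eq_one K B w _ h2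

end Main

end Fermat.Agent.S18.KL.DiffAux
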