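import Fermat.Agent.S18.Z.Sat
import Fermat.Agent.S18.Z.DiffAux

/-!
# S18 / (KL) abstract part, piece P5 : the codifferent in characteristic `0`  (key `S18/KL-P5`)

`B = B0 K τ E` = integral closure of `K[τ]` in `E`, a Dedekind domain; `θ = τ (τ - c0)`.
Claim: if `Tr(x B) ⊂ K[τ]` then `(θ x)^e ∈ θ B` for some `e > 0`  (i.e. codifferent `⊂ θ⁻¹ rad(θ B)`).

Proof.  For a maximal ideal `𝔓` of `B` over `(τ - c)` with ramification index `e_𝔓`: `𝔓^{e_𝔓} ∤ differentIdeal`
(tame bound): Mathlib `not_dvd_differentIdeal_of_intTrace_not_mem` with `P := 𝔓^e`, `Q :=` the complementary factor of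
`(τ - c) B`, `x ∈ Q`, `x ≡ 1 mod 𝔓^e` (CRT): the trace of `x` modulo `(τ - c)` is `dim_K B/𝔓^e = e ≠ 0` in `K`
(`Algebra.trace_quotient_eq_of_isDedekindDomain`, residue field `= K` because `K` is algebraically closed, `CharZero`).
So `ord_𝔓 x ≥ 1 - e_𝔓` for `x` in the codifferent.  By `(Br)` `e_𝔓 = 1` unless `𝔓 ∣ θ`; for `𝔓 ∣ θ`: `ord_𝔓 θ = e_𝔓`
(`c0 ≠ 0`), so `ord_𝔓 (θ x) ≥ 1`; take `e = finrank L E ≥ e_𝔓`.
Dictionary places `↔` primes of the integral closure: `Fermat/Agent/S24/PlacesCore.lean`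
(`Place.ofHeightOneSpectrum`, `ord_ofHeightOneSpectrum`, `ord_eq_ramificationIdx'`, ...).
-/

set_option autoImplicit false
set_option linter.unusedSectionVars false

noncomputable section

namespace Fermat.Agent.S18.KL

open Polynomial

variable {K : Type*} [Field K] {A : ValuationSubring K}
variable {L : Type*} [Field L] [Algebra K L] {τ : L}
variable {E : Type*} [Field E] [Algebra L E] [Algebra K E] [IsScalarTower K L E]

/-- `τ⁻¹ - c⁻¹ = -(τ - c)/(c τ)` and `ord_P τ = 0` if `ord_P (τ - c) > 0`, `c ≠ 0`. -/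
theorem Br.inv {c0 : K} (hτ : Transcendental K τ) (h : Br K τ E c0) : Br K τ⁻¹ E c0⁻¹ := by
  intro P c hc hc0 hpos
  have hτ0 : τ ≠ 0 := by
    rintro rfl
    exact hτ isAlgebraic_zero
  have ht : algebraMap L E τ ≠ 0 := by simpa using hτ0
  rw [map_inv₀] at hpos ⊢
  have key := DiffAux.ord_inv_sub P ht hc hpos
  rw [key] at hpos ⊢
  refine h P c⁻¹ (inv_ne_zero hc) ?_ hpos
  intro h1
  exact hc0 (by rw [← h1, inv_inv])

theorem diffHyp [IsAlgClosed K] [CharZero K] [FiniteDimensional L E]
    (hτ : Transcendental K τ) (hgen : IsGen K τ) (c0 : A) (hc0 : c0 ≠ 0)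
    (hbr : Br K τ E (c0 : K)) : DiffHyp A τ E (X * (X - C c0)) := by
  let _ := Bridge.algL K τ
  let _ := Bridge.algE K τ E
  have := Bridge.isScalarTower (K := K) τ E
  have := Bridge.isFractionRing_L hτ hgen
  have := Bridge.faithfulSMul_E E hτ
  have : IsScalarTower K K[X] E := by
    refine .of_algebraMap_eq fun a => ?_
    change algebraMap K E a = algebraMap L E (aeval τ (C a))
    rw [aeval_C, ← IsScalarTower.algebraMap_apply]
  have : CharZero L := charZero_of_injective_algebraMap (algebraMap K L).injective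
  have : Algebra.IsSeparable L E := inferInstance
  have : IsFractionRing (integralClosure K[X] E) E :=
    integralClosure.isFractionRing_of_finite_extension L E
  have : IsDedekindDomain (integralClosure K[X] E) := integralClosure.isDedekindDomain K[X] L E
  have : Module.Finite K[X] (integralClosure K[X] E) :=
    IsIntegralClosure.finite K[X] L E (integralClosure K[X] E)
  intro x hx
  have hθ : evE A τ E (X * (X - C c0)) = algebraMap K[X] E (X * (X - C (c0 : K))) := by
    simp [evE, evL, evK, RingHom.algebraMap_toAlgebra]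
  obtain ⟨y, hy, hyr⟩ := DiffAux.exists_mem_radical K L (integralClosure K[X] E) (c0 : K)
    (fun P c hc hcc h => by
      have e : algebraMap K[X] E (X - C c) = algebraMap L E τ - algebraMap K E c := by
        change algebraMap L E (aeval τ (X - C c)) = _
        rw [map_sub, aeval_X, aeval_C, map_sub, ← IsScalarTower.algebraMap_apply]
      rw [e] at h ⊢
      exact hbr P c hc hcc h) x
    (fun b => by
      obtain ⟨g, hg⟩ := hx (algebraMap (integralClosure K[X] E) E b) b.2
      exact ⟨g, hg.symm⟩)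
  obtain ⟨e, he⟩ := hyr
  have he' : y ^ (e + 1) ∈ Ideal.span {algebraMap K[X] (integralClosure K[X] E)
      (X * (X - C (c0 : K)))} := by
    rw [pow_succ]
    exact Ideal.mul_mem_right _ _ he
  obtain ⟨z, hz⟩ := Ideal.mem_span_singleton'.mp he'
  refine ⟨e + 1, Nat.succ_pos e, algebraMap (integralClosure K[X] E) E z, z.2, ?_⟩
  rw [hθ, ← hy, ← map_pow, ← hz, map_mul, mul_comm, ← IsScalarTower.algebraMap_apply]

end Fermat.Agent.S18.KL
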