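import Fermat.Agent.S18.Z.Basis

/-!
# S18 / (KL) abstract part, piece P4 : `C0` is a finitely generated `A[τ]`-module  (key `S18/KL-P4`)

`L0 = ∑ A[τ] w_i ⊂ C0`, `d1 C0 ⊂ L0`, `d1 = 1 - a h`, `a ∈ 𝔪`, `h ∈ A[X]` (`redP_eq_zero_iff` applied to `d1 - 1`).
If `a = 0` then `C0 = L0`.  Otherwise `K = A[1/a]` by `Arch`.
`R = A[X]/(d1)`: `a` is invertible in `R` (`a h = 1`), so `R` is a quotient of `K[X]` (`K = A[1/a]`), in particular
noetherian.  `C0/L0 ≅ d1 C0 / d1 L0 ⊂ L0 / d1 L0 ≅ Rⁿ` is an `R`-submodule of a noetherian module, so finitely generated.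

Hands-on variant avoiding quotients: `W = {x ∈ C0}`; the coordinates map `x ↦ (d1 * repr x i mod d1)_i ∈ (K[X]/(d1))ⁿ`
(finite dimensional over `K`) has kernel `L0` and its image is a `K`-subspace (`a⁻¹` acts as `h(τ)` modulo `L0`:
`x = d1 x + a h x`, `d1 x ∈ L0`).  Choose `g_1 .. g_r ∈ C0` whose images span the image over `K`; every scalar of `K` is
`b / a^m`, which acts as `b h^m`.  So `C0 = L0 + ∑ A[τ] g_j`.
-/

set_option autoImplicit false

noncomputable section

namespace Fermat.Agent.S18.KL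

open Polynomial

variable {K : Type*} [Field K] [CharZero K] {A : ValuationSubring K}
variable {L : Type*} [Field L] [Algebra K L] {τ : L}
variable {E : Type*} [Field E] [Algebra L E] [FiniteDimensional L E]

omit [CharZero K] [FiniteDimensional L E] in
/-- from the `A`-span of the `τ ^ e * g` to polynomial coefficients -/
theorem exists_coeff_of_mem_span [Algebra ↥A E]
    (halg : ∀ a : A, algebraMap ↥A E a = evE A τ E (C a)) (G : Finset E) {x : E}
    (hx : x ∈ Submodule.span ↥A {y | ∃ g ∈ G, ∃ e : ℕ, y = evE A τ E X ^ e * g}) :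
    ∃ c : E → (↥A)[X], x = ∑ g ∈ G, evE A τ E (c g) * g := by
  classical
  induction hx using Submodule.span_induction with
  | mem y hy =>
    obtain ⟨g0, hg0, e, rfl⟩ := hy
    refine ⟨Pi.single g0 (X ^ e), ?_⟩
    rw [Finset.sum_eq_single g0]
    · rw [Pi.single_eq_same, map_pow]
    · intro b _ hb
      rw [Pi.single_eq_of_ne hb, map_zero, zero_mul]
    · intro h; exact absurd hg0 h
  | zero => exact ⟨0, by simp⟩
  | add y z _ _ hy hz =>
    obtain ⟨c, rfl⟩ := hy
    obtain ⟨c', rfl⟩ := hz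
    refine ⟨c + c', ?_⟩
    rw [← Finset.sum_add_distrib]
    exact Finset.sum_congr rfl fun g _ => by rw [Pi.add_apply, map_add, add_mul]
  | smul a y _ hy =>
    obtain ⟨c, rfl⟩ := hy
    refine ⟨fun g => C a * c g, ?_⟩
    rw [Algebra.smul_def, halg, Finset.mul_sum]
    exact Finset.sum_congr rfl fun g _ => by rw [map_mul, mul_assoc]

theorem fgC0 (hτ : Transcendental K τ) (hgen : IsGen K τ) (hA : Arch A) {n : ℕ}
    (g : GoodBasis A τ E n) : FgC0 A τ E := by
  classical
  let _ := Bridge.algE K τ E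
  have := Bridge.faithfulSMul_E E hτ
  let _ : Algebra ↥A E := ((evE A τ E).comp C).toAlgebra
  have halg : ∀ a : A, algebraMap ↥A E a = evE A τ E (C a) := fun a => rfl
  have : IsScalarTower ↥A K[X] E := by
    refine .of_algebraMap_eq fun a => ?_
    rw [halg, SatB.evE_C]
    change _ = evK K τ E (C (a : K))
    simp [evK]
  have hphi := Bridge.phi_eq A τ E
  have hS1 : ∀ x, (KLGauss.phi (↥A) K E).IsIntegralElem x → ∃ q : Fin n → (↥A)[X],
      KLGauss.phi (↥A) K E g.d1 * x = ∑ i, KLGauss.phi (↥A) K E (q i) * g.w i := by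
    intro x hx
    rw [hphi] at hx ⊢
    choose c hc using g.span x hx
    refine ⟨c, ?_⟩
    conv_lhs => rw [← g.w.sum_repr x]
    rw [Finset.mul_sum]
    refine Finset.sum_congr rfl fun i _ => ?_
    rw [evE_apply, evE_apply, ← hc i, map_mul, Algebra.smul_def, mul_assoc]
  obtain ⟨G, hG, hspan⟩ := KLGauss.exists_finset_span (A := ↥A) (K := K) (E := E) g.w
    (fun i => by rw [hphi]; exact g.mem i) hA g.d1 1 one_ne_zero
    (by have := g.red_d1; rw [C_1]; exact this) hS1
  rw [hphi] at hG hspan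
  exact ⟨G, hG, fun x hx => exists_coeff_of_mem_span halg G (hspan x hx)⟩

end Fermat.Agent.S18.KL
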