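import Fermat.Agent.S18.Z.Defs
import Fermat.Agent.S18.KLSat

/-!
# S18 / (KL) abstract part, piece P1 : Gauss lemma package  (key `S18/KL-P1`)

Everything about `A[τ] ⊂ K[τ] ⊂ L = K(τ)` and the Gauss ring `OG`.  Mathlib only.

Proof hints.
* `exists_scale(_family)`: divide by a coefficient of maximal valuation
  (`A.valuation`, or: among finitely many elements of `K` one divides all others in `A`).
* Gauss lemma = `redP` is a ring hom into the domain `(kk A)[X]`.
* `mem_OG_or_inv`, `exists_scale_L`: write `x = P/Q` (`IsGen`), scale `P` and `Q`.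
* `OG_inter_poly`: `S(τ) g(τ) = P(τ)`, `S` primitive; scale `g = a g'`, `g'` primitive; if `a ∉ A` then
  `a⁻¹ ∈ 𝔪` and `S g' = a⁻¹ P` reduces to `0`, contradiction with Gauss.
* `isIntegral_OG`: valuation rings are integrally closed (if `x ∉ OG` then `x⁻¹ ∈ OG`, even in `𝔪`-part;
  `1 = -(c_{n-1} x⁻¹ + ... + c_0 x⁻ⁿ)`; or build a `ValuationSubring L` from `mem_OG_or_inv`).
* `isIntegralElem_aeval`: `K[τ] ≅ K[X]` is integrally closed with fraction field `L`.
* `isIntegralElem_evL`: both previous ones + `OG_inter_poly`.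
* `exists_factor`: `d = a ∏ (X - ρ_i)` over the algebraically closed `K`; roots in `A` go to `d0`, for the other
  roots `X - ρ = -ρ (1 - ρ⁻¹ X)`, `ρ⁻¹ ∈ 𝔪`; the remaining constant is a unit by Gauss.
-/

set_option autoImplicit false

noncomputable section

namespace Fermat.Agent.S18.KL

open Polynomial

variable {K : Type*} [Field K] (A : ValuationSubring K)
variable {L : Type*} [Field L] [Algebra K L] (τ : L)

theorem redP_apply (P : (↥A)[X]) : redP A P = P.map (IsLocalRing.residue A) := rfl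

theorem incP_apply (P : (↥A)[X]) : incP A P = P.map (algebraMap A K) := rfl

theorem evL_eq_aeval (P : (↥A)[X]) : evL A τ P = aeval τ (incP A P) := by
  rw [incP_apply, aeval_def, eval₂_map]
  rfl

theorem incP_injective : Function.Injective (incP A) :=
  Polynomial.map_injective _ A.subtype_injective

theorem redP_surjective : Function.Surjective (redP A) :=
  Polynomial.map_surjective _ IsLocalRing.residue_surjective

theorem redP_C (a : A) : redP A (C a) = C (IsLocalRing.residue A a) := by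
  rw [redP_apply, map_C]

theorem incP_C (a : A) : incP A (C a) = C (a : K) := by
  rw [incP_apply, map_C]; rfl

theorem evL_C (a : A) : evL A τ (C a) = algebraMap K L (a : K) := by
  rw [evL_eq_aeval, incP_C, aeval_C]

/-- integral version: pull out the content -/
theorem exists_content_family {ι : Type*} [Finite ι] (P : ι → (↥A)[X]) (hP : ∃ i, P i ≠ 0) :
    ∃ a : A, a ≠ 0 ∧ ∃ P' : ι → (↥A)[X], (∃ i, redP A (P' i) ≠ 0) ∧
      ∀ i, P i = C a * P' i := by
  cases nonempty_fintype ι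
  obtain ⟨a, r', ha, h1, h2⟩ := KLGauss.exists_common_factor P hP
  exact ⟨a, ha, r', h2, h1⟩

/-- `redP P = 0` iff all coefficients lie in one principal ideal `a A`, `a ∈ 𝔪`. -/
theorem redP_eq_zero_iff (P : (↥A)[X]) :
    redP A P = 0 ↔ ∃ a ∈ IsLocalRing.maximalIdeal A, ∃ P' : (↥A)[X], P = C a * P' := by
  constructor
  · intro h
    by_cases hP : P = 0
    · exact ⟨0, zero_mem _, 0, by simp [hP]⟩
    obtain ⟨a, -, P', ⟨⟨⟩, h1⟩, h2⟩ := exists_content_family A (fun _ : Unit => P) ⟨(), hP⟩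
    refine ⟨a, ?_, P' (), h2 ()⟩
    rw [h2 (), map_mul, redP_C] at h
    rcases mul_eq_zero.1 h with h | h
    · rw [C_eq_zero] at h
      exact (IsLocalRing.residue_eq_zero_iff a).1 h
    · exact absurd h h1
  · rintro ⟨a, ha, P', rfl⟩
    rw [map_mul, redP_C, (IsLocalRing.residue_eq_zero_iff a).2 ha, C_0, zero_mul]

theorem exists_scale (P : K[X]) (hP : P ≠ 0) :
    ∃ a : K, a ≠ 0 ∧ ∃ P' : (↥A)[X], redP A P' ≠ 0 ∧ P = C a * incP A P' := by
  obtain ⟨c, b', hc, hb', h⟩ := KLGauss.exists_eq_C_mul_primitive (A := A) P hP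
  exact ⟨c, hc, b', hb', h⟩

theorem exists_scale_family {ι : Type*} [Finite ι] (P : ι → K[X]) (hP : ∃ i, P i ≠ 0) :
    ∃ a : K, a ≠ 0 ∧ ∃ P' : ι → (↥A)[X], (∃ i, redP A (P' i) ≠ 0) ∧
      ∀ i, P i = C a * incP A (P' i) := by
  classical
  cases nonempty_fintype ι
  have h1 : ∀ i, ∃ (c : K) (Q : (↥A)[X]), (P i ≠ 0 → c ≠ 0) ∧ redP A Q ≠ 0 ∧
      P i = C c * incP A Q := by
    intro i
    by_cases h : P i = 0
    · exact ⟨0, 1, fun h' => absurd h h', by simp, by simp [h]⟩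
    · obtain ⟨a, ha, Q, hQ, h2⟩ := exists_scale A (P i) h
      exact ⟨a, Q, fun _ => ha, hQ, h2⟩
  choose c Q hc hQ hPQ using h1
  obtain ⟨i0, hi0⟩ := hP
  obtain ⟨j, -, hj0, hdiv⟩ := KLGauss.exists_dominant (A := A) Finset.univ c
    ⟨i0, Finset.mem_univ _, hc i0 hi0⟩
  choose b hb using fun i => hdiv i (Finset.mem_univ i)
  refine ⟨c j, hj0, fun i => C (b i) * Q i, ⟨j, ?_⟩, fun i => ?_⟩
  · have : b j = 1 := by
      apply A.subtype_injective
      have := hb j
      rw [div_self hj0] at this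
      simpa using this
    show redP A (C (b j) * Q j) ≠ 0
    rw [this, C_1, one_mul]
    exact hQ j
  · show P i = C (c j) * incP A (C (b i) * Q i)
    rw [map_mul, incP_C, ← mul_assoc, ← C_mul]
    have : c j * (b i : K) = c i := by
      have := hb i
      change (b i : K) = c i / c j at this
      rw [this]; field_simp
    rw [this]
    exact hPQ i

variable {τ}

theorem evL_injective (hτ : Transcendental K τ) : Function.Injective (evL A τ) := by
  intro P Q h
  rw [evL_eq_aeval, evL_eq_aeval] at h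
  exact incP_injective A (transcendental_iff_injective.1 hτ h)

theorem ne_zero_of_redP {S : (↥A)[X]} (hS : redP A S ≠ 0) : S ≠ 0 := by
  rintro rfl; exact hS (map_zero _)

theorem evL_ne_zero (hτ : Transcendental K τ) {S : (↥A)[X]} (hS : redP A S ≠ 0) :
    evL A τ S ≠ 0 := by
  intro h
  exact ne_zero_of_redP A hS (evL_injective A hτ (by rw [h, map_zero]))

theorem evL_mem_OG (P : (↥A)[X]) : evL A τ P ∈ OG A τ := ⟨P, 1, by simp, by simp⟩

theorem inv_evL_mem_OG (hτ : Transcendental K τ) {S : (↥A)[X]} (hS : redP A S ≠ 0) :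
    (evL A τ S)⁻¹ ∈ OG A τ :=
  ⟨1, S, hS, by rw [mul_inv_cancel₀ (evL_ne_zero A hτ hS), map_one]⟩

theorem aeval_ne_zero' (hτ : Transcendental K τ) {Q : K[X]} (hQ : Q ≠ 0) : aeval τ Q ≠ 0 := by
  intro h
  exact hQ (transcendental_iff_injective.1 hτ (by rw [h, map_zero]))

theorem exists_scale_L_family (hτ : Transcendental K τ) (hgen : IsGen K τ)
    {ι : Type*} [Finite ι] (x : ι → L) (hx : ∃ i, x i ≠ 0) :
    ∃ a : K, a ≠ 0 ∧ ∃ (S : (↥A)[X]) (P : ι → (↥A)[X]), redP A S ≠ 0 ∧ (∃ i, redP A (P i) ≠ 0) ∧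
      ∀ i, evL A τ S * x i = algebraMap K L a * evL A τ (P i) := by
  classical
  cases nonempty_fintype ι
  choose P Q hQ hPQ using fun i => hgen (x i)
  set D : K[X] := ∏ i, Q i with hD
  have hD0 : D ≠ 0 := Finset.prod_ne_zero_iff.2 fun i _ => hQ i
  let R : ι → K[X] := fun i => P i * ∏ j ∈ Finset.univ.erase i, Q j
  have hR : ∀ i, x i * aeval τ D = aeval τ (R i) := by
    intro i
    rw [hD, ← Finset.mul_prod_erase Finset.univ Q (Finset.mem_univ i), map_mul, ← mul_assoc, hPQ i,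
      map_mul]
  obtain ⟨i0, hi0⟩ := hx
  have hR0 : R i0 ≠ 0 := by
    intro h
    have := hR i0
    rw [h, map_zero] at this
    exact (mul_ne_zero hi0 (aeval_ne_zero' hτ hD0)) this
  obtain ⟨a, ha, R', hR', hRR⟩ := exists_scale_family A R ⟨i0, hR0⟩
  obtain ⟨b, hb, D', hD', hDD⟩ := exists_scale A D hD0
  refine ⟨a / b, div_ne_zero ha hb, D', R', hD', hR', fun i => ?_⟩
  have h1 := hR i
  rw [hRR i, hDD, map_mul, map_mul, aeval_C, aeval_C, ← evL_eq_aeval, ← evL_eq_aeval] at h1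
  have hb' : algebraMap K L b ≠ 0 := by simpa using hb
  rw [map_div₀]
  field_simp
  linear_combination h1

theorem exists_scale_L (hτ : Transcendental K τ) (hgen : IsGen K τ) (x : L) (hx : x ≠ 0) :
    ∃ a : K, a ≠ 0 ∧ ∃ P S : (↥A)[X], redP A P ≠ 0 ∧ redP A S ≠ 0 ∧
      evL A τ S * x = algebraMap K L a * evL A τ P := by
  obtain ⟨a, ha, S, P, hS, ⟨⟨⟩, hP⟩, h⟩ :=
    exists_scale_L_family A hτ hgen (fun _ : Unit => x) ⟨(), hx⟩
  exact ⟨a, ha, P (), S, hP, hS, h ()⟩


theorem mem_OG_of_scale {x : L} {a : K} (ha : a ∈ A) {P S : (↥A)[X]} (hS : redP A S ≠ 0)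
    (h : evL A τ S * x = algebraMap K L a * evL A τ P) : x ∈ OG A τ :=
  ⟨C ⟨a, ha⟩ * P, S, hS, by rw [h, map_mul, evL_C]⟩

theorem inv_mem_OG_of_scale (hτ : Transcendental K τ) {x : L} {a : K} (ha0 : a ≠ 0)
    (ha : a⁻¹ ∈ A) {P S : (↥A)[X]}
    (hP : redP A P ≠ 0)
    (h : evL A τ S * x = algebraMap K L a * evL A τ P) : x⁻¹ ∈ OG A τ := by
  apply mem_OG_of_scale A ha hP (P := S)
  have ha' : algebraMap K L a ≠ 0 := by simpa using ha0
  have hx : x ≠ 0 := by
    rintro rfl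
    rw [mul_zero] at h
    exact mul_ne_zero ha' (evL_ne_zero A hτ hP) h.symm
  rw [map_inv₀]
  field_simp
  linear_combination -h

theorem mem_OG_or_inv (hτ : Transcendental K τ) (hgen : IsGen K τ) (x : L) :
    x ∈ OG A τ ∨ x⁻¹ ∈ OG A τ := by
  by_cases hx : x = 0
  · left; rw [hx]; exact (OG A τ).zero_mem
  obtain ⟨a, ha, P, S, hP, hS, h⟩ := exists_scale_L A hτ hgen x hx
  rcases A.mem_or_inv_mem a with h1 | h1
  · exact Or.inl (mem_OG_of_scale A h1 hS h)
  · exact Or.inr (inv_mem_OG_of_scale A hτ ha h1 hP h)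

theorem SmG_evL_iff (hτ : Transcendental K τ) (P : (↥A)[X]) :
    SmG A τ (evL A τ P) ↔ redP A P = 0 := by
  constructor
  · rintro ⟨a, ha, y, ⟨Q, S, hS, hy⟩, h⟩
    have h1 : S * P = C a * Q := by
      apply evL_injective A hτ
      rw [map_mul, map_mul, h, ← hy]; ring
    have h2 := congrArg (redP A) h1
    rw [map_mul, map_mul, redP_C, (IsLocalRing.residue_eq_zero_iff a).2 ha, C_0, zero_mul] at h2
    exact (mul_eq_zero.1 h2).resolve_left hS
  · intro h
    obtain ⟨a, ha, P', rfl⟩ := (redP_eq_zero_iff A P).1 h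
    exact ⟨a, ha, evL A τ P', evL_mem_OG A P', map_mul _ _ _⟩

theorem SmG.mem_OG {x : L} (hx : SmG A τ x) : x ∈ OG A τ := by
  obtain ⟨a, -, y, hy, rfl⟩ := hx
  exact (OG A τ).mul_mem (evL_mem_OG A _) hy

theorem SmG.add {x y : L} (hx : SmG A τ x) (hy : SmG A τ y) : SmG A τ (x + y) := by
  obtain ⟨a, ha, u, hu, rfl⟩ := hx
  obtain ⟨b, hb, v, hv, rfl⟩ := hy
  rcases ValuationRing.dvd_total a b with ⟨c, rfl⟩ | ⟨c, rfl⟩
  · refine ⟨a, ha, u + evL A τ (C c) * v,
      (OG A τ).add_mem hu ((OG A τ).mul_mem (evL_mem_OG A _) hv), ?_⟩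
    rw [C_mul, map_mul]; ring
  · refine ⟨b, hb, evL A τ (C c) * u + v,
      (OG A τ).add_mem ((OG A τ).mul_mem (evL_mem_OG A _) hu) hv, ?_⟩
    rw [C_mul, map_mul]; ring

theorem SmG.mul_left {x y : L} (hx : SmG A τ x) (hy : y ∈ OG A τ) : SmG A τ (y * x) := by
  obtain ⟨a, ha, u, hu, rfl⟩ := hx
  exact ⟨a, ha, y * u, (OG A τ).mul_mem hy hu, by ring⟩

theorem not_SmG_one (hτ : Transcendental K τ) : ¬ SmG A τ (1 : L) := by
  intro h
  have := (SmG_evL_iff A hτ 1).1 (by rwa [map_one])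
  rw [map_one] at this
  exact one_ne_zero this

theorem inv_mem_OG_of_not_SmG (hτ : Transcendental K τ) (hgen : IsGen K τ) {x : L}
    (hx : x ∈ OG A τ) (h : ¬ SmG A τ x) : x⁻¹ ∈ OG A τ := by
  by_cases hx0 : x = 0
  · rw [hx0, inv_zero]; exact (OG A τ).zero_mem
  obtain ⟨a, ha, P, S, hP, hS, hxa⟩ := exists_scale_L A hτ hgen x hx0
  by_cases h1 : a⁻¹ ∈ A
  · exact inv_mem_OG_of_scale A hτ ha h1 hP hxa
  · exfalso
    apply h
    have h2 : a ∈ A := (A.mem_or_inv_mem a).resolve_right h1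
    refine ⟨⟨a, h2⟩, ?_, (evL A τ S)⁻¹ * evL A τ P,
      (OG A τ).mul_mem (inv_evL_mem_OG A hτ hS) (evL_mem_OG A _), ?_⟩
    · rw [IsLocalRing.mem_maximalIdeal, mem_nonunits_iff]
      intro hu
      apply h1
      obtain ⟨u, hu⟩ := hu
      have h3 : ((u⁻¹ : (↥A)ˣ) : ↥A) * (⟨a, h2⟩ : ↥A) = 1 := by rw [← hu]; exact u.inv_mul
      have h4 : (((u⁻¹ : (↥A)ˣ) : ↥A) : K) * a = 1 := by
        have := congrArg (fun z : ↥A => (z : K)) h3
        simpa using this
      rw [← eq_inv_of_mul_eq_one_left h4]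
      exact Subtype.mem _
    · rw [evL_C]
      have := evL_ne_zero A hτ hS
      field_simp
      linear_combination hxa

/-- `OG ∩ K[τ] = A[τ]` -/
theorem OG_inter_poly (hτ : Transcendental K τ) {x : L} (hx : x ∈ OG A τ) {g : K[X]}
    (hg : x = aeval τ g) : ∃ P : (↥A)[X], x = evL A τ P := by
  obtain ⟨P, S, hS, h⟩ := hx
  have h1 : g * incP A S = incP A P := by
    apply transcendental_iff_injective.1 hτ
    rw [map_mul, ← hg, ← evL_eq_aeval, ← evL_eq_aeval, ← h]; ring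
  have h2 : g ∈ lifts (algebraMap A K) := by
    apply KLGauss.mem_lifts_of_mul_primitive (s := S) hS
    rw [mem_lifts]
    exact ⟨P, h1.symm⟩
  obtain ⟨P', hP'⟩ := (mem_lifts _).1 h2
  exact ⟨P', by rw [hg, evL_eq_aeval, incP_apply, hP']⟩

/-- `OG ∩ K = A` -/
theorem algebraMap_mem_OG_iff (hτ : Transcendental K τ) (a : K) :
    algebraMap K L a ∈ OG A τ ↔ a ∈ A := by
  constructor
  · intro h
    obtain ⟨P, hP⟩ := OG_inter_poly A hτ h (g := C a) (by rw [aeval_C])
    have h1 : incP A P = C a := by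
      apply transcendental_iff_injective.1 hτ
      rw [← evL_eq_aeval, ← hP, aeval_C]
    have h2 := congrArg (fun p => p.coeff 0) h1
    simp only [incP_apply, coeff_map, coeff_C_zero] at h2
    rw [← h2]
    exact Subtype.mem _
  · intro h
    have := evL_mem_OG (τ := τ) A (C ⟨a, h⟩)
    rwa [evL_C] at this


/-- the Gauss ring as a `ValuationSubring` -/
def OGval (hτ : Transcendental K τ) (hgen : IsGen K τ) : ValuationSubring L :=
  { OG A τ with mem_or_inv_mem' := mem_OG_or_inv A hτ hgen }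

/-- `OG` is integrally closed in `L` -/
theorem isIntegral_OG (hτ : Transcendental K τ) (hgen : IsGen K τ) {x : L}
    (hx : (OG A τ).subtype.IsIntegralElem x) : x ∈ OG A τ := by
  have h1 : IsIntegral (OGval A hτ hgen) x := hx
  obtain ⟨y, hy⟩ := IsIntegrallyClosed.algebraMap_eq_of_integral h1
  rw [← hy]
  exact y.2

/-- `K[τ]` is integrally closed in `L` -/
theorem isIntegralElem_aeval (hτ : Transcendental K τ) (hgen : IsGen K τ) {x : L}
    (hx : ((aeval τ : K[X] →ₐ[K] L).toRingHom).IsIntegralElem x) : ∃ g : K[X], x = aeval τ g := by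
  let _ : Algebra K[X] L := ((aeval τ : K[X] →ₐ[K] L).toRingHom).toAlgebra
  have hinj : Function.Injective (algebraMap K[X] L) := transcendental_iff_injective.1 hτ
  have : FaithfulSMul K[X] L := (faithfulSMul_iff_algebraMap_injective K[X] L).2 hinj
  have : IsFractionRing K[X] L := by
    apply IsFractionRing.of_field
    intro z
    obtain ⟨P, Q, hQ, h⟩ := hgen z
    refine ⟨P, Q, ?_⟩
    have hQ' : aeval τ Q ≠ 0 := aeval_ne_zero' hτ hQ
    show z = aeval τ P / aeval τ Q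
    rw [← h]; field_simp
  have h1 : IsIntegral K[X] x := hx
  obtain ⟨y, hy⟩ := IsIntegrallyClosed.algebraMap_eq_of_integral h1
  exact ⟨y, hy.symm⟩

theorem IsIntegralElem_of_comp {R S T : Type*} [CommRing R] [CommRing S] [CommRing T]
    (f : R →+* S) (g : S →+* T) (h : R →+* T) (hh : ∀ r, h r = g (f r)) {x : T}
    (hx : h.IsIntegralElem x) : g.IsIntegralElem x := by
  obtain ⟨p, hp, hpx⟩ := hx
  refine ⟨p.map f, hp.map f, ?_⟩
  rw [eval₂_map]
  have : g.comp f = h := RingHom.ext fun r => (hh r).symm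
  rw [this]; exact hpx

/-- `A[τ]` is integrally closed in `L` -/
theorem isIntegralElem_evL (hτ : Transcendental K τ) (hgen : IsGen K τ) {x : L}
    (hx : (evL A τ).IsIntegralElem x) : ∃ P : (↥A)[X], x = evL A τ P := by
  obtain ⟨g, hg⟩ := isIntegralElem_aeval hτ hgen
    (IsIntegralElem_of_comp (incP A) _ (evL A τ) (fun r => evL_eq_aeval A τ r) hx)
  have h2 : x ∈ OG A τ := isIntegral_OG A hτ hgen
    (IsIntegralElem_of_comp ((evL A τ).codRestrict (OG A τ) (evL_mem_OG A)) _ (evL A τ)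
      (fun r => rfl) hx)
  exact OG_inter_poly A hτ h2 hg

/-- factorisation of a primitive polynomial: `d = unit * (monic, all roots integral) * (≡ 1 mod 𝔪)` -/
theorem exists_factor [IsAlgClosed K] (d : (↥A)[X]) (hd : redP A d ≠ 0) :
    ∃ (a : A) (d0 d1 : (↥A)[X]), IsUnit a ∧ d = C a * d0 * d1 ∧ d0.Monic ∧ redP A d1 = 1 := by
  obtain ⟨d0, d1, h1, h2, u, hu, h3⟩ := KLGauss.exists_monic_mul_unit (K := K) _ d rfl hd
  obtain ⟨a, rfl⟩ := IsLocalRing.residue_surjective u
  have ha : IsUnit a := by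
    by_contra h
    exact hu ((IsLocalRing.residue_eq_zero_iff a).2 ((IsLocalRing.mem_maximalIdeal a).2 h))
  obtain ⟨v, rfl⟩ := ha
  refine ⟨v, d0, C ((v⁻¹ : (↥A)ˣ) : ↥A) * d1, v.isUnit, ?_, h2, ?_⟩
  · have : C (v : ↥A) * d0 * (C ((v⁻¹ : (↥A)ˣ) : ↥A) * d1) =
        C ((v : ↥A) * ((v⁻¹ : (↥A)ˣ) : ↥A)) * (d0 * d1) := by rw [C_mul]; ring
    rw [this, Units.mul_inv, C_1, one_mul, h1]
  · rw [map_mul, redP_C, redP_apply, h3, ← C_mul, ← map_mul, Units.inv_mul, map_one, C_1]

/-! ### `τ ↔ τ⁻¹` -/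

theorem transcendental_inv' (hτ : Transcendental K τ) : Transcendental K τ⁻¹ := by
  intro h
  apply hτ
  have := h.inv
  rwa [inv_inv] at this

theorem ne_zero_of_transcendental (hτ : Transcendental K τ) : τ ≠ 0 := by
  rintro rfl
  exact hτ isAlgebraic_zero

theorem aeval_inv_reverse (hτ : τ ≠ 0) (f : K[X]) :
    aeval τ⁻¹ f.reverse * τ ^ f.natDegree = aeval τ f := by
  let _ : Invertible τ := invertibleOfNonzero hτ
  have := eval₂_reverse_mul_pow (algebraMap K L) τ f
  rwa [invOf_eq_inv] at this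

theorem isGen_inv (hτ : Transcendental K τ) (hgen : IsGen K τ) : IsGen K τ⁻¹ := by
  intro x
  have h0 := ne_zero_of_transcendental hτ
  obtain ⟨P, Q, hQ, h⟩ := hgen x
  refine ⟨P.reverse * X ^ Q.natDegree, Q.reverse * X ^ P.natDegree,
    mul_ne_zero (by rwa [Ne, reverse_eq_zero]) (pow_ne_zero _ X_ne_zero), ?_⟩
  rw [← aeval_inv_reverse h0 P, ← aeval_inv_reverse h0 Q] at h
  rw [map_mul, map_mul, map_pow, map_pow, aeval_X, inv_pow, inv_pow]
  generalize aeval τ⁻¹ P.reverse = u at h ⊢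
  generalize aeval τ⁻¹ Q.reverse = v at h ⊢
  field_simp
  linear_combination h

theorem evL_inv_reverse (hτ : τ ≠ 0) (f : (↥A)[X]) :
    evL A τ⁻¹ f.reverse * τ ^ f.natDegree = evL A τ f := by
  let _ : Invertible τ := invertibleOfNonzero hτ
  have := eval₂_reverse_mul_pow ((algebraMap K L).comp A.subtype) τ f
  rwa [invOf_eq_inv] at this

theorem redP_reverse_ne_zero {S : (↥A)[X]} (hS : redP A S ≠ 0) : redP A S.reverse ≠ 0 := by
  intro h
  apply hS
  ext n
  rw [redP_apply, coeff_map, coeff_zero]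
  by_cases hn : n ≤ S.natDegree
  · have h1 := congrArg (fun p => p.coeff (revAt S.natDegree n)) h
    simp only [redP_apply, coeff_map, coeff_zero, coeff_reverse, revAt_invol] at h1
    exact h1
  · rw [coeff_eq_zero_of_natDegree_lt (not_le.1 hn), map_zero]

theorem evL_X : evL A τ X = τ := by
  simp [evL]

theorem redP_X_pow (n : ℕ) : redP A (X ^ n) = X ^ n := by
  simp [redP_apply]

theorem OG_inv_le (hτ : τ ≠ 0) : OG A τ ≤ OG A τ⁻¹ := by
  rintro x ⟨P, S, hS, h⟩
  refine ⟨P.reverse * X ^ S.natDegree, S.reverse * X ^ P.natDegree, ?_, ?_⟩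
  · rw [map_mul, redP_X_pow]
    exact mul_ne_zero (redP_reverse_ne_zero A hS) (pow_ne_zero _ X_ne_zero)
  · rw [← evL_inv_reverse A hτ P, ← evL_inv_reverse A hτ S] at h
    rw [map_mul, map_mul, map_pow, map_pow, evL_X, inv_pow, inv_pow]
    generalize evL A τ⁻¹ P.reverse = u at h ⊢
    generalize evL A τ⁻¹ S.reverse = v at h ⊢
    field_simp
    linear_combination h

/-- use `Polynomial.reverse`/`reflect`: `τ^deg P * P(τ⁻¹) = (reverse P)(τ)`, and `reverse` of a primitive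
polynomial is primitive -/
theorem OG_inv (hτ : Transcendental K τ) : OG A τ⁻¹ = OG A τ := by
  have h0 := ne_zero_of_transcendental hτ
  apply le_antisymm
  · have := OG_inv_le A (inv_ne_zero h0)
    rwa [inv_inv] at this
  · exact OG_inv_le A h0

theorem SmG_inv (hτ : Transcendental K τ) (x : L) : SmG A τ⁻¹ x ↔ SmG A τ x := by
  unfold SmG
  simp only [OG_inv A hτ, evL_C]

end Fermat.Agent.S18.KL
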