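import Fermat.Agent.S24.Embed
import Fermat.Agent.S24.DiffLocal

/-!
# S18 / (KL) abstract part, piece P9b : a Kummer extension with `p`-divisible divisor is unramified

Abstract core.  `F ⊂ E` function fields over `K`, `Q` a place of `E`, `P` the place of `F` below `Q`, the residue field of
`Q` is `K`, `E = F(u)`, `u ^ p = f`, `p ∣ ord_P f`.  Then `ord_Q = ord_P` on `F`.

Proof: `ord_Q = e ord_P` on `F`.  `y = h u` is a unit at `Q` for a suitable `h ∈ F`; by Newton's iteration `y` is a limit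
(for `Q`) of elements of `F`; the set of all limits of elements of `F` is an `F`-subspace containing all `y ^ a`, so it is
`E`.  A uniformizer of `Q` is congruent mod `𝔪_Q ^ 2` to an element `x` of `F`, so `1 = ord_Q x = e ord_P x`.
-/

set_option autoImplicit false
set_option linter.unusedSimpArgs false
set_option linter.unusedSectionVars false

noncomputable section

namespace Fermat.Agent.S18.KL

open AlgebraicCurve Polynomial

section Core

variable {K F E : Type*} [Field K] [Field F] [Field E] [Algebra K F] [Algebra K E] [Algebra F E]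

theorem ord_eq_zero_of_mem_of_inv_mem (Q : Place K E) {x : E} (h1 : x ∈ Q.toValuationSubring)
    (h2 : x⁻¹ ∈ Q.toValuationSubring) : Q.ord x = 0 := by
  have a1 := S24.ord_nonneg_of_mem Q h1
  have a2 := S24.ord_nonneg_of_mem Q h2
  rw [Q.ord_inv] at a2
  omega

theorem ord_algebraMap_eq_mul (Q : Place K E) (P : Place K F)
    (hPQ : ∀ x : F, x ∈ P.toValuationSubring ↔ algebraMap F E x ∈ Q.toValuationSubring)
    {π : P.toValuationSubring} (hπ : Irreducible π) (x : F) :
    Q.ord (algebraMap F E x) = Q.ord (algebraMap F E (π : F)) * P.ord x := by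
  rcases eq_or_ne x 0 with rfl | hx
  · simp
  obtain ⟨w, hw⟩ := P.exists_unit_mul_zpow hx hπ
  have hπ0 : (π : F) ≠ 0 := by
    simpa [ne_eq, ZeroMemClass.coe_eq_zero] using hπ.ne_zero
  have hw0 : ((w : P.toValuationSubring) : F) ≠ 0 := by
    simp [ne_eq, ZeroMemClass.coe_eq_zero]
  have hwQ : Q.ord (algebraMap F E ((w : P.toValuationSubring) : F)) = 0 := by
    apply ord_eq_zero_of_mem_of_inv_mem
    · exact (hPQ _).mp (w : P.toValuationSubring).2
    · rw [← map_inv₀]
      apply (hPQ _).mp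
      have : (((w : P.toValuationSubring) : F))⁻¹ =
          (((w⁻¹ : (P.toValuationSubring)ˣ) : P.toValuationSubring) : F) := by
        apply inv_eq_of_mul_eq_one_right
        exact congrArg Subtype.val w.mul_inv
      rw [this]
      exact Subtype.mem _
  conv_lhs => rw [hw]
  rw [map_mul, map_zpow₀, Q.ord_mul ((_root_.map_ne_zero _).mpr hw0)
    (zpow_ne_zero _ ((_root_.map_ne_zero _).mpr hπ0)), hwQ, zero_add, Q.ord_zpow, mul_comm]

theorem ord_algebraMap_irreducible_pos (Q : Place K E) (P : Place K F)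
    (hPQ : ∀ x : F, x ∈ P.toValuationSubring ↔ algebraMap F E x ∈ Q.toValuationSubring)
    {π : P.toValuationSubring} (hπ : Irreducible π) :
    0 < Q.ord (algebraMap F E (π : F)) := by
  have h0 : 0 ≤ Q.ord (algebraMap F E (π : F)) := S24.ord_nonneg_of_mem Q ((hPQ _).mp π.2)
  rcases h0.lt_or_eq with h | h
  · exact h
  exfalso
  have hπ0 : (π : F) ≠ 0 := by
    simpa [ne_eq, ZeroMemClass.coe_eq_zero] using hπ.ne_zero
  have h1 : (algebraMap F E (π : F))⁻¹ ∈ Q.toValuationSubring := by
    apply S24.mem_of_ord_nonneg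
    rw [Q.ord_inv, ← h]
    simp
  rw [← map_inv₀, ← hPQ] at h1
  apply hπ.not_isUnit
  exact IsUnit.of_mul_eq_one ⟨(π : F)⁻¹, h1⟩ (Subtype.ext (mul_inv_cancel₀ hπ0))

variable [IsScalarTower K F E]

/-- Newton's iteration. -/
theorem exists_newton [CharZero K] (Q : Place K E) {ϖ : Q.toValuationSubring} (hϖ : Irreducible ϖ)
    (p : ℕ) (hp : 0 < p) (y : Q.toValuationSubring) (hy : IsUnit y) (f' : F)
    (hyf : (y : E) ^ p = algebraMap F E f') (c : K)
    (hc : ϖ ∣ y - algebraMap K Q.toValuationSubring c) (n : ℕ) :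
    ∃ x : F, ∃ hx : algebraMap F E x ∈ Q.toValuationSubring,
      ϖ ^ (n + 1) ∣ y - ⟨algebraMap F E x, hx⟩ := by
  induction n with
  | zero =>
    have e : algebraMap F E (algebraMap K F c) = algebraMap K E c :=
      (IsScalarTower.algebraMap_apply K F E c).symm
    refine ⟨algebraMap K F c, by rw [e]; exact Q.algebraMap_mem' c, ?_⟩
    rw [zero_add, pow_one]
    have : (⟨algebraMap F E (algebraMap K F c), by rw [e]; exact Q.algebraMap_mem' c⟩ :
        Q.toValuationSubring) = algebraMap K Q.toValuationSubring c := Subtype.ext e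
    rw [this]
    exact hc
  | succ n ih =>
    obtain ⟨x, hx, hdvd⟩ := ih
    set a : Q.toValuationSubring := ⟨algebraMap F E x, hx⟩ with ha
    set δ : Q.toValuationSubring := y - a with hδ
    have hϖδ : ϖ ∣ δ := (dvd_pow_self ϖ (Nat.succ_ne_zero n)).trans hdvd
    have hau : IsUnit a := by
      by_contra hna
      have h1 : a ∈ IsLocalRing.maximalIdeal Q.toValuationSubring :=
        (IsLocalRing.mem_maximalIdeal _).mpr hna
      have h2 : δ ∈ IsLocalRing.maximalIdeal Q.toValuationSubring := by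
        rw [hϖ.maximalIdeal_eq, Ideal.mem_span_singleton]
        exact hϖδ
      have h3 : y ∈ IsLocalRing.maximalIdeal Q.toValuationSubring := by
        have := Ideal.add_mem _ h2 h1
        rwa [hδ, sub_add_cancel] at this
      exact ((IsLocalRing.mem_maximalIdeal _).mp h3) hy
    have hpu : IsUnit ((p : ℕ) : Q.toValuationSubring) := by
      have : ((p : ℕ) : Q.toValuationSubring) = algebraMap K Q.toValuationSubring (p : K) := by
        simp
      rw [this]
      exact (IsUnit.mk0 (p : K) (by exact_mod_cast hp.ne')).map _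
    have hDu : IsUnit (((p : ℕ) : Q.toValuationSubring) * a ^ (p - 1)) := hpu.mul (hau.pow _)
    obtain ⟨D, hD⟩ := hDu
    obtain ⟨k, hk⟩ := Polynomial.binomExpansion (X ^ p : (Q.toValuationSubring)[X]) a δ
    have hk' : y ^ p = a ^ p + (D : Q.toValuationSubring) * δ + k * δ ^ 2 := by
      have e : a + δ = y := by rw [hδ]; ring
      rw [e] at hk
      simpa [hD, derivative_X_pow] using hk
    set a' : Q.toValuationSubring := a + ((D⁻¹ : (Q.toValuationSubring)ˣ) : Q.toValuationSubring) *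
      (y ^ p - a ^ p) with ha'
    have hx0 : x ≠ 0 := by
      rintro rfl
      apply hau.ne_zero
      exact Subtype.ext (map_zero _)
    have hp0 : (p : F) ≠ 0 := by
      have : (p : F) = algebraMap K F (p : K) := by simp
      rw [this]
      simp only [ne_eq, map_eq_zero]
      exact_mod_cast hp.ne'
    have hcoe : (a' : E) = algebraMap F E (x + ((p : F) * x ^ (p - 1))⁻¹ * (f' - x ^ p)) := by
      have hDinv : (((D⁻¹ : (Q.toValuationSubring)ˣ) : Q.toValuationSubring) : E) =
          (algebraMap F E ((p : F) * x ^ (p - 1)))⁻¹ := by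
        apply eq_inv_of_mul_eq_one_left
        have h1 := congrArg Subtype.val D.inv_mul
        rw [hD] at h1
        simpa [ha] using h1
      rw [ha']
      simp only [AddMemClass.coe_add, MulMemClass.coe_mul, SubmonoidClass.coe_pow, AddSubgroupClass.coe_sub, OneMemClass.coe_one, NegMemClass.coe_neg]
      rw [hDinv, hyf, ha]
      simp only [map_add, map_mul, map_sub, map_pow, map_inv₀]
    refine ⟨x + ((p : F) * x ^ (p - 1))⁻¹ * (f' - x ^ p), hcoe ▸ a'.2, ?_⟩
    have e1 : (⟨algebraMap F E (x + ((p : F) * x ^ (p - 1))⁻¹ * (f' - x ^ p)), hcoe ▸ a'.2⟩ :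
        Q.toValuationSubring) = a' := Subtype.ext hcoe.symm
    rw [e1]
    have e2 : y - a' = -(((D⁻¹ : (Q.toValuationSubring)ˣ) : Q.toValuationSubring) * k) * δ ^ 2 := by
      have h1 : ((D⁻¹ : (Q.toValuationSubring)ˣ) : Q.toValuationSubring) * D = 1 := D.inv_mul
      rw [ha', hk']
      linear_combination (-δ) * h1
    rw [e2]
    apply Dvd.dvd.mul_left
    calc ϖ ^ (n + 1 + 1) ∣ ϖ ^ ((n + 1) * 2) := pow_dvd_pow _ (by omega)
      _ = (ϖ ^ (n + 1)) ^ 2 := by rw [pow_mul]
      _ ∣ δ ^ 2 := pow_dvd_pow_of_dvd hdvd 2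

/-- the closure of `F` in `E` for the `Q`-adic topology -/
def approxSubmodule (F : Type*) [Field F] [Algebra F E] (Q : Place K E)
    {ϖ : Q.toValuationSubring} (hϖ : Irreducible ϖ) : Submodule F E where
  carrier := {z | ∀ N : ℕ, ∃ x : F, ∃ w : Q.toValuationSubring,
    z - algebraMap F E x = (ϖ : E) ^ N * (w : E)}
  add_mem' := by
    intro z z' hz hz' N
    obtain ⟨x, w, h⟩ := hz N
    obtain ⟨x', w', h'⟩ := hz' N
    refine ⟨x + x', w + w', ?_⟩
    simp only [AddMemClass.coe_add, MulMemClass.coe_mul, SubmonoidClass.coe_pow, AddSubgroupClass.coe_sub, OneMemClass.coe_one, NegMemClass.coe_neg]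
    rw [map_add, mul_add, ← h, ← h']
    ring
  zero_mem' := fun N => ⟨0, 0, by simp⟩
  smul_mem' := by
    intro g z hz N
    rcases eq_or_ne g 0 with rfl | hg
    · exact ⟨0, 0, by simp⟩
    have hϖ0 : (ϖ : E) ≠ 0 := by
      simpa [ne_eq, ZeroMemClass.coe_eq_zero] using hϖ.ne_zero
    have hg' : algebraMap F E g ≠ 0 := (_root_.map_ne_zero _).mpr hg
    set k : ℕ := (-Q.ord (algebraMap F E g)).toNat with hk
    have hmem : (ϖ : E) ^ k * algebraMap F E g ∈ Q.toValuationSubring := by
      apply S24.mem_of_ord_nonneg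
      rw [Q.ord_mul (pow_ne_zero _ hϖ0) hg', ← zpow_natCast, Q.ord_zpow,
        Q.ord_coe_irreducible hϖ]
      omega
    obtain ⟨x, w, h⟩ := hz (N + k)
    refine ⟨g * x, ⟨_, hmem⟩ * w, ?_⟩
    simp only [AddMemClass.coe_add, MulMemClass.coe_mul, SubmonoidClass.coe_pow, AddSubgroupClass.coe_sub, OneMemClass.coe_one, NegMemClass.coe_neg]
    rw [Algebra.smul_def, map_mul, ← mul_sub, h]
    ring

theorem mem_approxSubmodule (Q : Place K E) {ϖ : Q.toValuationSubring} (hϖ : Irreducible ϖ)
    {z : E} : z ∈ approxSubmodule F Q hϖ ↔ ∀ N : ℕ, ∃ x : F, ∃ w : Q.toValuationSubring,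
      z - algebraMap F E x = (ϖ : E) ^ N * (w : E) := Iff.rfl

/-- **Core of P9b.** -/
theorem ord_algebraMap_eq_of_kummer [CharZero K] (Q : Place K E) (P : Place K F)
    (hPQ : ∀ x : F, x ∈ P.toValuationSubring ↔ algebraMap F E x ∈ Q.toValuationSubring)
    (hres : ∀ {ϖ : Q.toValuationSubring}, Irreducible ϖ → ∀ y : Q.toValuationSubring,
      ∃ a : K, ∃ y₁ : Q.toValuationSubring, y = algebraMap K Q.toValuationSubring a + ϖ * y₁)
    (p : ℕ) (hp : 0 < p) (f : F) (hf : f ≠ 0) (hdiv : (p : ℤ) ∣ P.ord f)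
    (u : E) (hu : u ^ p = algebraMap F E f)
    (hspan : ∀ T : Submodule F E, (∀ a : ℕ, u ^ a ∈ T) → T = ⊤) (x : F) :
    Q.ord (algebraMap F E x) = P.ord x := by
  obtain ⟨π, hπ⟩ := IsDiscreteValuationRing.exists_irreducible P.toValuationSubring
  obtain ⟨ϖ, hϖ⟩ := IsDiscreteValuationRing.exists_irreducible Q.toValuationSubring
  have hmul := ord_algebraMap_eq_mul Q P hPQ hπ
  have hepos := ord_algebraMap_irreducible_pos Q P hPQ hπ
  set e : ℤ := Q.ord (algebraMap F E (π : F)) with he
  have hπ0 : (π : F) ≠ 0 := by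
    simpa [ne_eq, ZeroMemClass.coe_eq_zero] using hπ.ne_zero
  have hϖ0 : (ϖ : E) ≠ 0 := by
    simpa [ne_eq, ZeroMemClass.coe_eq_zero] using hϖ.ne_zero
  obtain ⟨m, hm⟩ := hdiv
  have hu0 : u ≠ 0 := by
    rintro rfl
    rw [zero_pow hp.ne'] at hu
    exact hf ((map_eq_zero _).mp hu.symm)
  -- the order of `u`
  have hordu : Q.ord u = e * m := by
    have h1 : Q.ord (u ^ p) = (p : ℤ) * Q.ord u := by
      rw [← zpow_natCast, Q.ord_zpow]
    rw [hu, hmul, hm] at h1
    have hp' : (p : ℤ) ≠ 0 := by exact_mod_cast hp.ne'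
    apply mul_left_cancel₀ hp'
    rw [← h1]; ring
  -- normalisation
  set h : F := (π : F) ^ (-m) with hh
  have hh0 : h ≠ 0 := zpow_ne_zero _ hπ0
  have hordh : Q.ord (algebraMap F E h) = -(e * m) := by
    rw [hmul, hh, P.ord_zpow, P.ord_coe_irreducible hπ]; ring
  set y : E := algebraMap F E h * u with hy
  have hy0 : y ≠ 0 := mul_ne_zero ((_root_.map_ne_zero _).mpr hh0) hu0
  have hordy : Q.ord y = 0 := by
    rw [hy, Q.ord_mul ((_root_.map_ne_zero _).mpr hh0) hu0, hordh, hordu]; ring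
  obtain ⟨yu, hyu⟩ := S24.Diff.exists_unit_of_ord_eq_zero Q hy0 hordy
  have hyp : (((yu : Q.toValuationSubring)) : E) ^ p = algebraMap F E (h ^ p * f) := by
    rw [← hyu, hy, mul_pow, hu, map_mul, map_pow]
  obtain ⟨c, y₁, hc⟩ := hres hϖ (yu : Q.toValuationSubring)
  have hnewton := exists_newton Q hϖ p hp (yu : Q.toValuationSubring) yu.isUnit (h ^ p * f) hyp c
    ⟨y₁, by rw [hc]; ring⟩
  -- all powers of `y` are limits
  have hypow : ∀ a : ℕ, y ^ a ∈ approxSubmodule F Q hϖ := by
    intro a N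
    obtain ⟨x, hx, w, hw⟩ := hnewton N
    obtain ⟨s, hs⟩ := sub_dvd_pow_sub_pow (yu : Q.toValuationSubring) ⟨algebraMap F E x, hx⟩ a
    refine ⟨x ^ a, ϖ * w * s, ?_⟩
    have h1 := congrArg Subtype.val hs
    rw [hw] at h1
    simp only [AddMemClass.coe_add, MulMemClass.coe_mul, SubmonoidClass.coe_pow, AddSubgroupClass.coe_sub, OneMemClass.coe_one, NegMemClass.coe_neg] at h1 ⊢
    rw [map_pow, hyu, h1]
    ring
  have htop : approxSubmodule F Q hϖ = ⊤ := by
    apply hspan
    intro a
    have : u ^ a = (h⁻¹) ^ a • y ^ a := by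
      rw [hy, Algebra.smul_def, mul_pow, ← mul_assoc, ← map_pow, ← map_mul, ← mul_pow,
        inv_mul_cancel₀ hh0, one_pow, map_one, one_mul]
    rw [this]
    exact Submodule.smul_mem _ _ (hypow a)
  -- a uniformizer of `Q` in `F`
  have hϖmem : (ϖ : E) ∈ approxSubmodule F Q hϖ := by rw [htop]; exact Submodule.mem_top
  obtain ⟨x₀, w, hw⟩ := hϖmem 2
  have hunit : IsUnit (1 - ϖ * w) := by
    by_contra hna
    have h1 : 1 - ϖ * w ∈ IsLocalRing.maximalIdeal Q.toValuationSubring :=
      (IsLocalRing.mem_maximalIdeal _).mpr hna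
    have h2 : ϖ * w ∈ IsLocalRing.maximalIdeal Q.toValuationSubring :=
      Ideal.mul_mem_right _ _ ((IsLocalRing.mem_maximalIdeal _).mpr hϖ.not_isUnit)
    have h3 := Ideal.add_mem _ h1 h2
    rw [sub_add_cancel] at h3
    exact ((IsLocalRing.mem_maximalIdeal _).mp h3) isUnit_one
  have hx₀ : algebraMap F E x₀ = ((hunit.unit : Q.toValuationSubring) : E) * (ϖ : E) ^ (1 : ℤ) := by
    rw [IsUnit.unit_spec, zpow_one]
    simp only [AddMemClass.coe_add, MulMemClass.coe_mul, SubmonoidClass.coe_pow, AddSubgroupClass.coe_sub, OneMemClass.coe_one, NegMemClass.coe_neg]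
    linear_combination -hw
  have hord1 : Q.ord (algebraMap F E x₀) = 1 := by
    rw [hx₀, Q.ord_unit_smul_zpow _ hϖ]
  rw [hmul] at hord1
  have he1 : e = 1 := Int.eq_one_of_mul_eq_one_right hepos.le hord1
  rw [hmul, he1, one_mul]

end Core

end Fermat.Agent.S18.KL
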