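import Fermat.Agent.S18.Z.Basis
import Fermat.Agent.S18.Z.Diff
import Fermat.Agent.S18.Z.KummerAux

/-!
# S18 / (KL) abstract part, piece P9 : the Kummer extension `E = F(u)`, `u^p = f`
(keys `S18/KL-P9a` = `goodRed_kummer`, `S18/KL-P9b` = `exists_place_below`, `br_kummer`)

`E` has the `F`-basis `1, u, …, u^(p-1)`.

## P9a
Basis `β_i u^a` (`Module.Basis.smulTower`).  `u ∈ VV` (`mem_VV_of_pow_mem`; the image of `VV A τ F` lies in `VV A τ E`).
`Tr_{E/F}(u^a) = 0` for `0 < a < p` and `= p` for `a = 0` (matrix of multiplication by `u^a` in the basis `u^b`: a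
permutation-like matrix without diagonal entries).  For `x = ∑_b x_b u^b`:
`Tr_{E/L}(x β_i u^a) = Tr_{F/L}(β_i * p * x_0)` if `a = 0`, `= Tr_{F/L}(β_i * p * f * x_{p-a})` if `a > 0`
(`Algebra.trace_trace`).  So by self duality of `β`: `p x_0`, `p f x_b ∈ ∑ OG β_i = VV_F`; `p⁻¹, f⁻¹ ∈ VV_F`; hence
`x_b ∈ VV_F` and its coordinates are in `OG` (`GoodRed.repr_mem`).

## P9b
`Q` a place of `E/K`.  `O_Q ∩ F` is a place `P` of `F/K` (S24 `exists_place_of_valuationSubring`, with `y = τ` or `τ⁻¹`).
`E/F` is unramified at `Q`: choose `h ∈ F` with `ord_P (h^p f) = 0`, `y = h u`, `y^p = f' `, a unit at `P`.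
Route 1 (Mathlib): `B_F ⊂ B_E` integral closures of `K[τ^{±1}]`; after multiplying `h` by an element of `B_F` outside `P`
we have `y ∈ B_E`; `aeval_derivative_mem_differentIdeal`: `p y^(p-1) ∈ differentIdeal B_F B_E`, not in `Q`; so `Q` does not
divide the different, `not_dvd_differentIdeal_iff`, ramification index `1`.
Route 2 (by hand): `c ∈ K` with `y - c ∈ 𝔪_Q` (residue field `= K`); `∏_ζ (y - ζ c) = f' - c^p ∈ 𝔪_P`, the factors with
`ζ ≠ 1` are units at `Q`; so in `R = (O_P[y])_𝔫`, `𝔫 = 𝔪_Q ∩ O_P[y] = (π, y - c)`, the maximal ideal is generated by `π`;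
`R` is a noetherian local domain with principal maximal ideal, i.e. a DVR, hence `= O_Q`.
-/

set_option autoImplicit false

noncomputable section

namespace Fermat.Agent.S18.KL

open Polynomial IntermediateField

section TracePow

variable {F : Type*} [Field F] {E : Type*} [Field E] [Algebra F E]

/-- `Tr(u^k) = 0` for `0 < k < p`. -/
theorem trace_pow_eq_zero_of_lt {p : ℕ} {f : F} {u : E} (hu : u ^ p = algebraMap F E f)
    (b : Module.Basis (Fin p) F E) (hb : ∀ a, b a = u ^ (a : ℕ)) {k : ℕ} (hk : 0 < k) (hkp : k < p) :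
    Algebra.trace F E (u ^ k) = 0 := by
  classical
  rw [Algebra.trace_eq_matrix_trace b, Matrix.trace]
  refine Finset.sum_eq_zero fun j _ => ?_
  rw [Matrix.diag_apply, Algebra.leftMulMatrix_eq_repr_mul, hb, ← pow_add]
  by_cases h : k + (j : ℕ) < p
  · have : u ^ (k + (j : ℕ)) = b ⟨k + j, h⟩ := by rw [hb]
    rw [this, Module.Basis.repr_self, Finsupp.single_apply, if_neg]
    intro e
    have := congrArg Fin.val e
    simp only at this
    omega
  · have hj := j.2
    have h' : k + (j : ℕ) - p < p := by omega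
    have : u ^ (k + (j : ℕ)) = f • b ⟨k + j - p, h'⟩ := by
      rw [hb, Algebra.smul_def, ← hu, ← pow_add]
      congr 1
      simp only
      omega
    rw [this, map_smul, Module.Basis.repr_self, Finsupp.smul_apply, Finsupp.single_apply, if_neg,
      smul_zero]
    intro e
    have := congrArg Fin.val e
    simp only at this
    omega

/-- the coordinates of `x` in the basis `u^c` through traces -/
theorem trace_mul_pow_zero {p : ℕ} (hp : 0 < p) {f : F} {u : E} (hu : u ^ p = algebraMap F E f)
    (b : Module.Basis (Fin p) F E) (hb : ∀ a, b a = u ^ (a : ℕ)) (x : E) :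
    Algebra.trace F E x = (p : F) * b.repr x ⟨0, hp⟩ := by
  classical
  conv_lhs => rw [← b.sum_repr x]
  rw [map_sum, Finset.sum_eq_single (⟨0, hp⟩ : Fin p)]
  · rw [map_smul, hb]
    simp only [pow_zero]
    rw [← map_one (algebraMap F E), Algebra.trace_algebraMap, Module.finrank_eq_card_basis b,
      Fintype.card_fin]
    simp [mul_comm]
  · intro c _ hc
    rw [map_smul, hb, trace_pow_eq_zero_of_lt hu b hb _ c.2, smul_zero]
    rcases Nat.eq_zero_or_pos (c : ℕ) with h | h
    · exact absurd (Fin.ext h) hc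
    · exact h
  · intro h; exact absurd (Finset.mem_univ _) h

theorem trace_mul_pow_pos {p : ℕ} {f : F} {u : E} (hu : u ^ p = algebraMap F E f)
    (b : Module.Basis (Fin p) F E) (hb : ∀ a, b a = u ^ (a : ℕ)) (x : E) (c : Fin p)
    (hc : 0 < (c : ℕ)) :
    Algebra.trace F E (x * u ^ (p - (c : ℕ))) = (p : F) * f * b.repr x c := by
  classical
  conv_lhs => rw [← b.sum_repr x]
  rw [Finset.sum_mul, map_sum, Finset.sum_eq_single c]
  · rw [smul_mul_assoc, map_smul, hb, ← pow_add]
    have : (c : ℕ) + (p - c) = p := by have := c.2; omega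
    rw [this, hu, Algebra.trace_algebraMap, Module.finrank_eq_card_basis b, Fintype.card_fin]
    simp only [smul_eq_mul, nsmul_eq_mul]
    ring
  · intro d _ hd
    rw [smul_mul_assoc, map_smul, hb, ← pow_add]
    have hd2 := d.2
    have hc2 := c.2
    have hne : (d : ℕ) ≠ c := fun h => hd (Fin.ext h)
    by_cases h : (d : ℕ) < c
    · rw [trace_pow_eq_zero_of_lt hu b hb (by omega) (by omega), smul_zero]
    · have e : (d : ℕ) + (p - c) = p + (d - c) := by omega
      rw [e, pow_add, hu, ← Algebra.smul_def, map_smul,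
        trace_pow_eq_zero_of_lt hu b hb (by omega) (by omega), smul_zero, smul_zero]
  · intro h; exact absurd (Finset.mem_univ _) h

end TracePow

variable {K : Type*} [Field K] [CharZero K] {A : ValuationSubring K}
variable {L : Type*} [Field L] [Algebra K L] {τ : L}
variable {F : Type*} [Field F] [Algebra L F] [FiniteDimensional L F]
variable {E : Type*} [Field E] [Algebra L E] [Algebra F E] [IsScalarTower L F E]

omit [CharZero K] [FiniteDimensional L F] in
theorem evE_eq_algebraMap_evE (S : (↥A)[X]) :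
    evE A τ E S = algebraMap F E (evE A τ F S) := by
  rw [evE_apply, evE_apply, ← IsScalarTower.algebraMap_apply]

omit [CharZero K] [FiniteDimensional L F] in
theorem algebraMap_mem_C0_of_mem {x : F} (hx : x ∈ C0 A τ F) : algebraMap F E x ∈ C0 A τ E := by
  obtain ⟨P, hP, h0⟩ := hx
  refine ⟨P, hP, ?_⟩
  have e : evE A τ E = (algebraMap F E).comp (evE A τ F) := by
    exact RingHom.ext fun S => evE_eq_algebraMap_evE S
  rw [e, ← Polynomial.hom_eval₂, h0, map_zero]

omit [CharZero K] [FiniteDimensional L F] in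
theorem algebraMap_mem_VV_of_mem {x : F} (hx : x ∈ VV A τ F) : algebraMap F E x ∈ VV A τ E := by
  obtain ⟨S, hS, h⟩ := hx
  refine ⟨S, hS, ?_⟩
  rw [evE_eq_algebraMap_evE (F := F), ← map_mul]
  exact algebraMap_mem_C0_of_mem h

omit [CharZero K] [FiniteDimensional L F] in
theorem SmV_algebraMap_of_SmV {x : F} (hx : SmV A τ F x) : SmV A τ E (algebraMap F E x) := by
  obtain ⟨a, ha, y, hy, rfl⟩ := hx
  refine ⟨a, ha, algebraMap F E y, algebraMap_mem_VV_of_mem hy, ?_⟩
  rw [map_mul, evE_eq_algebraMap_evE (F := F) (E := E)]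

theorem goodRed_kummer (hτ : Transcendental K τ) (hgen : IsGen K τ) {ι : Type*} [Fintype ι]
    (g : GoodRed A τ F ι) (p : ℕ) (hp : 0 < p) (hpA : ((p : K))⁻¹ ∈ A)
    (f : F) (hf : f ∈ VV A τ F) (hf' : f⁻¹ ∈ VV A τ F) (u : E) (hu : u ^ p = algebraMap F E f)
    (b : Module.Basis (Fin p) F E) (hb : ∀ a, b a = u ^ (a : ℕ)) :
    ∃ g' : GoodRed A τ E (ι × Fin p), g'.β = g.β.smulTower b := by
  have huV : u ∈ VV A τ E :=
    mem_VV_of_pow_mem A hτ hp (by rw [hu]; exact algebraMap_mem_VV_of_mem hf)
  have hpF : ((p : F))⁻¹ ∈ VV A τ F := by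
    have e : ((p : F))⁻¹ = evE A τ F (C ⟨(p : K)⁻¹, hpA⟩) := by
      rw [evE_apply, evL]
      simp
    rw [e]
    exact C0_le_VV A τ F (evE_mem_C0 A τ F _)
  have hp0 : (p : F) ≠ 0 := by
    have : (p : F) = algebraMap L F (algebraMap K L (p : K)) := by simp
    rw [this]
    simp only [ne_eq, map_eq_zero]
    exact_mod_cast hp.ne'
  have key : ∀ (x : E) (a : ℕ),
      (∀ i, Algebra.trace L E (x * (g.β i • u ^ a)) ∈ OG A τ) →
        Algebra.trace F E (x * u ^ a) ∈ VV A τ F := by
    intro x a h
    refine g.mem_VV_of_repr hτ (g.selfdual _ fun i => ?_)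
    have := h i
    rw [← Algebra.trace_trace_of_basis g.β b, mul_smul_comm, map_smul, smul_eq_mul, mul_comm] at this
    exact this
  refine ⟨⟨g.β.smulTower b, ?_, ?_⟩, rfl⟩
  · rintro ⟨i, a⟩
    rw [Module.Basis.smulTower_apply, hb, Algebra.smul_def]
    exact (VV A τ E).mul_mem (algebraMap_mem_VV_of_mem (g.mem i)) ((VV A τ E).pow_mem huV _)
  · rintro x hx ⟨i, c⟩
    rw [Module.Basis.smulTower_repr]
    refine g.repr_mem hτ hgen ?_ i
    simp only
    rcases Nat.eq_zero_or_pos (c : ℕ) with hc | hc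
    · have h1 := key x 0 fun i => by
        have := hx (i, ⟨0, hp⟩)
        rwa [Module.Basis.smulTower_apply, hb] at this
      rw [pow_zero, mul_one, trace_mul_pow_zero hp hu b hb] at h1
      have hc' : c = ⟨0, hp⟩ := Fin.ext hc
      have e : b.repr x c = ((p : F))⁻¹ * ((p : F) * b.repr x ⟨0, hp⟩) := by
        rw [hc', ← mul_assoc, inv_mul_cancel₀ hp0, one_mul]
      rw [e]
      exact (VV A τ F).mul_mem hpF h1
    · have hc2 := c.2
      have h1 := key x (p - c) fun i => by
        have := hx (i, ⟨p - c, by omega⟩)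
        rwa [Module.Basis.smulTower_apply, hb] at this
      rw [trace_mul_pow_pos hu b hb x c hc] at h1
      have hf0 : f ≠ 0 := by
        rintro rfl
        rw [map_zero] at hu
        have hu0 : u = 0 := pow_eq_zero_iff hp.ne' |>.mp hu
        apply b.ne_zero c
        rw [hb, hu0, zero_pow hc.ne']
      have e : b.repr x c = ((p : F))⁻¹ * f⁻¹ * ((p : F) * f * b.repr x c) := by
        field_simp
      rw [e]
      exact (VV A τ F).mul_mem ((VV A τ F).mul_mem hpF hf') h1

section Gen

variable {K : Type*} [Field K] {L : Type*} [Field L] [Algebra K L] {τ : L}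
variable {E : Type*} [Field E] [Algebra L E] [Algebra K E] [IsScalarTower K L E]

theorem algebraMap_mem_adjoin_of_isGen (hτ : Transcendental K τ) (hgen : IsGen K τ) (x : L) :
    algebraMap L E x ∈ K⟮algebraMap L E τ⟯ := by
  obtain ⟨P, Q, hQ, h⟩ := hgen x
  have hQ0 : aeval τ Q ≠ 0 := fun h0 => hQ ((transcendental_iff.mp hτ) Q h0)
  have hx : x = aeval τ P / aeval τ Q := by
    rw [eq_div_iff hQ0, h]
  have key : ∀ R : K[X], algebraMap L E (aeval τ R) ∈ K⟮algebraMap L E τ⟯ := by
    intro R
    rw [← aeval_algebraMap_apply]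
    have : aeval (algebraMap L E τ) R ∈ Algebra.adjoin K {algebraMap L E τ} := by
      rw [Algebra.adjoin_singleton_eq_range_aeval]
      exact ⟨R, rfl⟩
    exact IntermediateField.algebra_adjoin_le_adjoin K _ this
  rw [hx, map_div₀]
  exact div_mem (key P) (key Q)

theorem finiteDimensional_adjoin_of_isGen (hτ : Transcendental K τ) (hgen : IsGen K τ)
    [FiniteDimensional L E] : FiniteDimensional K⟮algebraMap L E τ⟯ E := by
  let φ : L →+* K⟮algebraMap L E τ⟯ :=
    (algebraMap L E).codRestrict K⟮algebraMap L E τ⟯.toSubring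
      (algebraMap_mem_adjoin_of_isGen hτ hgen)
  let _ : Algebra L K⟮algebraMap L E τ⟯ := φ.toAlgebra
  have : IsScalarTower L K⟮algebraMap L E τ⟯ E := IsScalarTower.of_algebraMap_eq fun x => rfl
  exact Module.Finite.of_restrictScalars_finite L K⟮algebraMap L E τ⟯ E

theorem transcendental_algebraMap_of_transcendental (hτ : Transcendental K τ) :
    Transcendental K (algebraMap L E τ) :=
  (transcendental_algebraMap_iff (algebraMap L E).injective).mpr hτ

end Gen

variable [IsAlgClosed K] [Algebra K F] [Algebra K E] [IsScalarTower K L F] [IsScalarTower K F E]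

theorem exists_place_below (hτ : Transcendental K τ) (hgen : IsGen K τ)
    (p : ℕ) (hp : p.Prime) (f : F) (hf : f ≠ 0)
    (hdiv : ∀ P : AlgebraicCurve.Place K F, (p : ℤ) ∣ P.ord f)
    (u : E) (hu : u ^ p = algebraMap F E f)
    (b : Module.Basis (Fin p) F E) (hb : ∀ a, b a = u ^ (a : ℕ))
    (Q : AlgebraicCurve.Place K E) :
    ∃ P : AlgebraicCurve.Place K F, ∀ x : F, Q.ord (algebraMap F E x) = P.ord x := by
  have hFE : FiniteDimensional F E := Module.Finite.of_basis b
  have hLE : FiniteDimensional L E := FiniteDimensional.trans L F E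
  have hKLE : IsScalarTower K L E := IsScalarTower.of_algebraMap_eq fun x => by
    rw [IsScalarTower.algebraMap_apply K F E, IsScalarTower.algebraMap_apply K L F,
      ← IsScalarTower.algebraMap_apply L F E]
  -- the residue field of `Q`
  have hresQ : Module.Finite K Q.ResidueField :=
    S24.finite_residueField (algebraMap L E τ) (transcendental_algebraMap_of_transcendental hτ)
      (finiteDimensional_adjoin_of_isGen hτ hgen) Q
  -- the place below
  set O : ValuationSubring F := Q.toValuationSubring.comap (algebraMap F E) with hO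
  have hOmem : ∀ x : F, x ∈ O ↔ algebraMap F E x ∈ Q.toValuationSubring := fun x => Iff.rfl
  have hOtop : O ≠ ⊤ := by
    intro htop
    apply Q.ne_top'
    refine SetLike.ext fun z => ⟨fun _ => ValuationSubring.mem_top z, fun _ => ?_⟩
    refine S24.mem_valuationSubring_of_isIntegral (A := F) _ (fun a => ?_)
      (Algebra.IsIntegral.isIntegral z)
    rw [← hOmem, htop]
    exact ValuationSubring.mem_top a
  have hOK : ∀ a : K, algebraMap K F a ∈ O := by
    intro a
    rw [hOmem, ← IsScalarTower.algebraMap_apply]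
    exact Q.algebraMap_mem' a
  have htrF : Transcendental K (algebraMap L F τ) := transcendental_algebraMap_of_transcendental hτ
  have hfinF : FiniteDimensional K⟮algebraMap L F τ⟯ F := finiteDimensional_adjoin_of_isGen hτ hgen
  obtain ⟨P, hP⟩ : ∃ P : AlgebraicCurve.Place K F, P.toValuationSubring = O := by
    rcases O.mem_or_inv_mem (algebraMap L F τ) with h | h
    · exact S24.exists_place_of_valuationSubring _ htrF hfinF O hOtop hOK h
    · exact S24.exists_place_of_valuationSubring _ (S24.transcendental_inv _ htrF)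
        (S24.finiteDimensional_adjoin_inv _ hfinF) O hOtop hOK h
  refine ⟨P, ord_algebraMap_eq_of_kummer Q P (fun x => by rw [hP, hOmem])
    (fun hϖ y => S24.Diff.exists_residue Q hresQ hϖ y) p hp.pos f hf (hdiv P) u hu ?_⟩
  intro T hT
  rw [eq_top_iff, ← b.span_eq, Submodule.span_le]
  rintro _ ⟨a, rfl⟩
  rw [hb]
  exact hT _

theorem br_kummer (hτ : Transcendental K τ) (hgen : IsGen K τ) {c0 : K} (hbr : Br K τ F c0)
    (p : ℕ) (hp : p.Prime) (f : F) (hf : f ≠ 0)
    (hdiv : ∀ P : AlgebraicCurve.Place K F, (p : ℤ) ∣ P.ord f)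
    (u : E) (hu : u ^ p = algebraMap F E f)
    (b : Module.Basis (Fin p) F E) (hb : ∀ a, b a = u ^ (a : ℕ)) :
    Br K τ E c0 := by
  intro Q c hc hc0 hpos
  obtain ⟨P, hP⟩ := exists_place_below hτ hgen p hp f hf hdiv u hu b hb Q
  have e : algebraMap L E τ - algebraMap K E c =
      algebraMap F E (algebraMap L F τ - algebraMap K F c) := by
    rw [map_sub, ← IsScalarTower.algebraMap_apply, ← IsScalarTower.algebraMap_apply]
  rw [e, hP] at hpos ⊢
  exact hbr P c hc hc0 hpos

end Fermat.Agent.S18.KL
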