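import Mathlib
import Fermat.Agent.S18.KLNormal

/-!
# S18 / (KL) abstract part, piece P6 : the normality lemma over a PID  (key `S18/KL-P6`)

`R` a PID, `Λ` a commutative `R`-algebra, free with basis `w`; `θ ∈ R` squarefree; `x_i ∈ Λ` with
`Tr(x_i w_j) = θ δ_ij` and `x_i^e ∈ θ Λ`.  Then every "idempotent with denominator" lies in `Λ`:
`Y^2 = S Y`, `S ≠ 0`  ⟹  `Y ∈ S Λ`.

Proof.  Base change to `Q = Frac R`, `E = Q ⊗ Λ`, and apply `KLNormal.mem_of_isIntegral` to the idempotent
`S⁻¹ • (1 ⊗ Y)`.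
-/

set_option autoImplicit false

open scoped TensorProduct

namespace Fermat.Agent.S18.KL

theorem lemmaN {R : Type*} [CommRing R] [IsDomain R] [IsPrincipalIdealRing R]
    {Λ : Type*} [CommRing Λ] [Algebra R Λ] {n : ℕ} (w : Module.Basis (Fin n) R Λ)
    (θ : R) (hθ : Squarefree θ) (x : Fin n → Λ)
    (hx : ∀ i j, Algebra.trace R Λ (x i * w j) = if i = j then θ else 0)
    (he : ∀ i, ∃ e : ℕ, 0 < e ∧ ∃ z : Λ, x i ^ e = θ • z)
    (Y : Λ) (S : R) (hS : S ≠ 0) (hY : Y * Y = S • Y) : ∃ Z : Λ, Y = S • Z := by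
  classical
  have : Module.Free R Λ := Module.Free.of_basis w
  have : Module.Finite R Λ := Module.Finite.of_basis w
  let Q := FractionRing R
  let E := Q ⊗[R] Λ
  let ι : Λ →ₐ[R] E := Algebra.TensorProduct.includeRight
  have hι : Function.Injective ι :=
    Algebra.TensorProduct.includeRight_injective (IsFractionRing.injective R Q)
  have hιapp : ∀ l : Λ, ι l = (1 : Q) ⊗ₜ[R] l := fun l => rfl
  let wQ : Module.Basis (Fin n) Q E := Algebra.TensorProduct.basis Q w
  have hwQ : ∀ i, wQ i = ι (w i) := fun i => Algebra.TensorProduct.basis_apply w i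
  -- traces
  have htr : ∀ l : Λ, Algebra.trace Q E (ι l) = algebraMap R Q (Algebra.trace R Λ l) := by
    intro l
    rw [Algebra.trace_apply, Algebra.trace_apply, ← LinearMap.trace_baseChange]
    congr 1
    ext m
    simp only [hιapp, TensorProduct.AlgebraTensorModule.curry_apply, TensorProduct.curry_apply,
      LinearMap.coe_restrictScalars]
    rw [LinearMap.baseChange_tmul, Algebra.coe_lmul_eq_mul, Algebra.coe_lmul_eq_mul,
      LinearMap.mul_apply', Algebra.TensorProduct.tmul_mul_tmul, one_mul, LinearMap.mul_apply']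
  have hθ0 : algebraMap R Q θ ≠ 0 := by
    rw [Ne, IsFractionRing.to_map_eq_zero_iff]; exact hθ.ne_zero
  have hS0 : algebraMap R Q S ≠ 0 := by
    rw [Ne, IsFractionRing.to_map_eq_zero_iff]; exact hS
  let wd : Fin n → E := fun i => (algebraMap R Q θ)⁻¹ • ι (x i)
  have hθwd : ∀ i, θ • wd i = ι (x i) := by
    intro i
    simp only [wd]
    rw [← algebraMap_smul Q θ, smul_smul, mul_inv_cancel₀ hθ0, one_smul]
  have hdual : ∀ i j, Algebra.trace Q E (wQ i * wd j) = if i = j then 1 else 0 := by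
    intro i j
    simp only [wd]
    rw [mul_smul_comm, map_smul, hwQ, ← map_mul, htr, mul_comm (w i), hx j i, smul_eq_mul]
    by_cases hij : i = j
    · rw [if_pos hij, if_pos hij.symm, inv_mul_cancel₀ hθ0]
    · rw [if_neg hij, if_neg (Ne.symm hij), map_zero, mul_zero]
  have hΛ₀ : Subalgebra.toSubmodule ι.range = Submodule.span R (Set.range wQ) := by
    have h1 : Set.range wQ = ι.toLinearMap '' Set.range w := by
      rw [← Set.range_comp]
      congr 1
      funext i
      exact hwQ i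
    rw [h1, ← Submodule.map_span, w.span_eq, Submodule.map_top]
    rfl
  -- a uniform exponent
  choose e he0 z hz using he
  let e₀ := ∑ i, e i
  have hxe : ∀ i, ∃ c ∈ ι.range, (θ • wd i) ^ e₀ = θ • c := by
    intro i
    have hle : e i ≤ e₀ := Finset.single_le_sum (f := e) (fun _ _ => Nat.zero_le _) (Finset.mem_univ i)
    refine ⟨ι (z i * x i ^ (e₀ - e i)), ⟨_, rfl⟩, ?_⟩
    rw [hθwd, ← map_pow, ← map_smul, ← smul_mul_assoc, ← hz i, ← pow_add, Nat.add_sub_cancel' hle]
  -- the idempotent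
  let Y' : E := (algebraMap R Q S)⁻¹ • ι Y
  have hY' : Y' * Y' = Y' := by
    simp only [Y']
    rw [smul_mul_smul_comm, ← map_mul, hY, map_smul, ← algebraMap_smul Q S, smul_smul, mul_assoc,
      inv_mul_cancel₀ hS0, mul_one]
  have hint : IsIntegral R Y' := by
    refine ⟨Polynomial.X ^ 2 - Polynomial.X, ?_, ?_⟩
    · exact Polynomial.monic_X_pow_sub (by simp)
    · simp [pow_two, hY']
  obtain ⟨Z, hZ⟩ := KLNormal.mem_of_isIntegral (Q := Q) wQ wd hdual ι.range hΛ₀ θ hθ e₀
    (fun i => ⟨x i, (hθwd i).symm⟩) hxe Y' hint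
  refine ⟨Z, hι ?_⟩
  have hZ' : ι Z = Y' := hZ
  rw [map_smul, hZ']
  simp only [Y']
  rw [← algebraMap_smul Q S, smul_smul, mul_inv_cancel₀ hS0, one_smul]

end Fermat.Agent.S18.KL
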