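import Fermat.Agent.S18.Z.Cbar
import Fermat.Agent.S18.Z.LemmaN

/-!
# S18 / (KL) abstract part, piece P7 : the normality trick, characteristic zero half  (key `S18/KL-P7b`)

`exists_dualElts`: `x_i = d1 θ w_i^*` (`w^*` = trace dual basis of `g.w`,
`(Algebra.traceForm L E).dualBasis (traceForm_nondegenerate L E) g.w`).
* `d1 w_i^*` lies in the codifferent of `B0`: for `z ∈ B0` take `a ≠ 0` with `a z ∈ C0` (`exists_smul_mem_C0`),
  `d1 a z = ∑ c_l w_l` (`g.span`), so `Tr(d1 w_i^* z) = c_i / a ∈ K[τ]`.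
* `DiffHyp` gives `e > 0`, `z' ∈ B0` with `x_i^e = θ z'`; so `x_i ∈ B0` (`mem_B0_of_pow_mem`).
* `x_i ∈ VV` by `g.dual` (`Tr(x_i w_j) = d1 θ δ_ij ∈ OG`).  So `x_i ∈ C0` (`mem_C0_of_mem_B0_VV`).
* `z' = x_i^e / θ ∈ VV` (`θ` primitive) and `∈ B0`, so `z' ∈ C0`.
-/

set_option autoImplicit false

noncomputable section

namespace Fermat.Agent.S18.KL

open Polynomial

variable {K : Type*} [Field K] [CharZero K] {A : ValuationSubring K}
variable {L : Type*} [Field L] [Algebra K L] {τ : L}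
variable {E : Type*} [Field E] [Algebra L E] [FiniteDimensional L E]

theorem exists_dualElts (hτ : Transcendental K τ) (hgen : IsGen K τ) {n : ℕ}
    (g : GoodBasis A τ E n) (θ : (↥A)[X]) (hθ : redP A θ ≠ 0) (hD : DiffHyp A τ E θ) :
    ∃ x : Fin n → E, (∀ i, x i ∈ C0 A τ E) ∧
      (∀ i j, Algebra.trace L E (x i * g.w j) = if i = j then evL A τ (g.d1 * θ) else 0) ∧
      ∀ i, ∃ e : ℕ, 0 < e ∧ ∃ z ∈ C0 A τ E, x i ^ e = evE A τ E θ * z := by
  haveI : CharZero L := charZero_of_injective_algebraMap (algebraMap K L).injective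
  set ws := (Algebra.traceForm L E).dualBasis (traceForm_nondegenerate L E) g.w with hws
  have hdual : ∀ i j, Algebra.trace L E (ws i * g.w j) = if i = j then 1 else 0 := by
    intro i j
    have := LinearMap.BilinForm.apply_dualBasis_left
      (traceForm_nondegenerate L E) g.w i j
    rw [Algebra.traceForm_apply] at this
    rw [this]
    simp only [eq_comm]
  have hrepr : ∀ (i : Fin n) (z : E), Algebra.trace L E (ws i * z) = g.w.repr z i := by
    intro i z
    conv_lhs => rw [← g.w.sum_repr z, Finset.mul_sum, map_sum]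
    have : ∀ j, Algebra.trace L E (ws i * g.w.repr z j • g.w j) =
        g.w.repr z j * (if i = j then 1 else 0) := by
      intro j
      rw [mul_smul_comm, map_smul, hdual, smul_eq_mul]
    simp only [this, mul_ite, mul_one, mul_zero, Finset.sum_ite_eq, Finset.mem_univ, if_true]
  have htr : ∀ (P : (↥A)[X]) (z : E),
      Algebra.trace L E (evE A τ E P * z) = evL A τ P * Algebra.trace L E z := by
    intro P z
    rw [evE_apply, ← Algebra.smul_def, map_smul, smul_eq_mul]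
  -- `d1 w_i^*` lies in the codifferent of `B0`
  have hcod : ∀ i, ∀ z ∈ B0 K τ E, ∃ gp : K[X],
      Algebra.trace L E (evE A τ E g.d1 * ws i * z) = aeval τ gp := by
    intro i z hz
    obtain ⟨a, ha, haz⟩ := exists_smul_mem_C0 A hz
    obtain ⟨c, hc⟩ := g.span _ haz i
    have ha' : ((a : A) : K) ≠ 0 := fun h => ha (Subtype.ext h)
    refine ⟨C ((a : K)⁻¹) * incP A c, ?_⟩
    have h1 : evL A τ (C a) * Algebra.trace L E (evE A τ E g.d1 * ws i * z) = evL A τ c := by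
      rw [← hc, ← hrepr, ← htr, ← htr]
      congr 1
      ring
    have h2 : evL A τ (C a) = algebraMap K L (a : K) := by
      simp [evL]
    rw [h2] at h1
    have h3 : algebraMap K L (a : K) ≠ 0 := by
      rw [Ne, map_eq_zero]; exact ha'
    rw [map_mul (aeval τ), aeval_C, ← evL_eq_aeval, ← h1, ← mul_assoc, ← map_mul,
      inv_mul_cancel₀ ha', map_one, one_mul]
  have hx1 : ∀ i j, Algebra.trace L E (evE A τ E (g.d1 * θ) * ws i * g.w j) =
      if i = j then evL A τ (g.d1 * θ) else 0 := by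
    intro i j
    rw [mul_assoc, htr, hdual]
    split_ifs <;> simp
  have hpow : ∀ i, ∃ e : ℕ, 0 < e ∧ ∃ z' ∈ B0 K τ E,
      (evE A τ E (g.d1 * θ) * ws i) ^ e = evE A τ E θ * z' := by
    intro i
    obtain ⟨e, he, z', hz', h⟩ := hD (evE A τ E g.d1 * ws i) (hcod i)
    refine ⟨e, he, z', hz', ?_⟩
    rw [← h, map_mul]
    congr 1
    ring
  have hC0 : ∀ i, evE A τ E (g.d1 * θ) * ws i ∈ C0 A τ E := by
    intro i
    obtain ⟨e, he, z', hz', h⟩ := hpow i
    refine mem_C0_of_mem_B0_VV A hτ hgen ?_ ?_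
    · refine mem_B0_of_pow_mem he ?_
      rw [h]
      exact (B0 K τ E).mul_mem (C0_le_B0 A (evE_mem_C0 A τ E θ)) hz'
    · refine g.dual _ fun j => ?_
      rw [hx1]
      split_ifs
      · exact evL_mem_OG A _
      · exact (OG A τ).zero_mem
  refine ⟨fun i => evE A τ E (g.d1 * θ) * ws i, hC0, hx1, fun i => ?_⟩
  obtain ⟨e, he, z', hz', h⟩ := hpow i
  refine ⟨e, he, z', mem_C0_of_mem_B0_VV A hτ hgen hz' ⟨θ, hθ, ?_⟩, h⟩
  rw [← h]
  exact (C0 A τ E).pow_mem (hC0 i) e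

/-- **NU-idem**: idempotents of `VV / 𝔪 VV` come from `C0 / 𝔪 C0`. -/
theorem nu_idem (hτ : Transcendental K τ) (hgen : IsGen K τ) {n : ℕ}
    (g : GoodBasis A τ E n) (θ : (↥A)[X]) (hθ : Squarefree (redP A θ)) (hD : DiffHyp A τ E θ)
    {y : E} (hy : y ∈ C0 A τ E) (S : (↥A)[X]) (hS : redP A S ≠ 0)
    (h : Sm0 A τ E (y * y - evE A τ E S * y)) :
    ∃ z ∈ C0 A τ E, Sm0 A τ E (y - evE A τ E S * z) := by
  obtain ⟨b, hb⟩ := g.exists_bar hτ hgen
  obtain ⟨x, hx0, hxtr, hxe⟩ := exists_dualElts hτ hgen g θ hθ.ne_zero hD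
  have key := lemmaN b (redP A θ) hθ (fun i => Ideal.Quotient.mk (mC0 A τ E) ⟨x i, hx0 i⟩) ?_ ?_
    (Ideal.Quotient.mk (mC0 A τ E) ⟨y, hy⟩) (redP A S) hS ?_
  · obtain ⟨Z, hZ⟩ := key
    obtain ⟨z, rfl⟩ := Ideal.Quotient.mk_surjective Z
    refine ⟨z, z.2, ?_⟩
    rw [Algebra.smul_def, algebraMap_redP, ← map_mul, ← sub_eq_zero, ← map_sub,
      mk_eq_zero_iff] at hZ
    exact hZ
  · intro i j
    rw [hb j, ← map_mul]
    by_cases hij : i = j
    · rw [if_pos hij]
      have := g.trace_bar hτ hgen (⟨x i, hx0 i⟩ * ⟨g.w j, g.mem j⟩) (g.d1 * θ)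
        (by rw [← if_pos hij (t := evL A τ (g.d1 * θ)) (e := (0 : L)), ← hxtr i j]; rfl)
      rw [this, map_mul, g.red_d1, one_mul]
    · rw [if_neg hij]
      have := g.trace_bar hτ hgen (⟨x i, hx0 i⟩ * ⟨g.w j, g.mem j⟩) 0
        (by rw [map_zero, ← if_neg hij (t := evL A τ (g.d1 * θ)) (e := (0 : L)), ← hxtr i j]; rfl)
      rw [this, map_zero]
  · intro i
    obtain ⟨e, he, z, hz, hze⟩ := hxe i
    refine ⟨e, he, Ideal.Quotient.mk (mC0 A τ E) ⟨z, hz⟩, ?_⟩
    rw [Algebra.smul_def, algebraMap_redP, ← map_mul, ← map_pow]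
    congr 1
    exact Subtype.ext hze
  · rw [Algebra.smul_def, algebraMap_redP, ← map_mul, ← map_mul, ← sub_eq_zero, ← map_sub,
      mk_eq_zero_iff]
    exact h

end Fermat.Agent.S18.KL
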