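import Fermat.Agent.S18.Z.Statement
import Fermat.Agent.S18.Z.Normal
import Fermat.Agent.S18.Z.Conn
import Fermat.Agent.S18.Z.Kummer
import Fermat.Agent.S18.Z.Fg

/-!
# S18 / (KL) : assembly of the abstract Theorem Z (helper27)
-/

set_option autoImplicit false

noncomputable section

namespace Fermat.Agent.S18.KL

open Polynomial

section Charts

variable {K : Type*} [Field K] [CharZero K] {A : ValuationSubring K}
variable {L : Type*} [Field L] [Algebra K L] {τ : L}
variable {E : Type*} [Field E] [Algebra L E] [FiniteDimensional L E]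

/-- `GoodRed` does not depend on the chart -/
def GoodRed.inv (hτ : Transcendental K τ) {ι : Type*} [Fintype ι] (g : GoodRed A τ E ι) :
    GoodRed A τ⁻¹ E ι where
  β := g.β
  mem := fun i => by rw [VV_inv A hτ]; exact g.mem i
  selfdual := fun x hx i => by
    rw [OG_inv A hτ] at hx ⊢
    exact g.selfdual x hx i

theorem GoodRed.SmV_of_repr (hτ : Transcendental K τ) {ι : Type*} [Fintype ι]
    (g : GoodRed A τ E ι) {x : E} (h : ∀ i, SmG A τ (g.β.repr x i)) : SmV A τ E x := by
  classical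
  have hz : SmV A τ E (0 : E) := ⟨0, zero_mem _, 0, zero_mem _, by simp⟩
  have hsum : ∀ s : Finset ι, SmV A τ E (∑ i ∈ s, g.β.repr x i • g.β i) := by
    intro s
    induction s using Finset.induction_on with
    | empty => simpa using hz
    | insert i s hi ih =>
      rw [Finset.sum_insert hi]
      refine SmV.add A ?_ ih
      obtain ⟨a, ha, y, hy, hxy⟩ := h i
      refine ⟨a, ha, algebraMap L E y * g.β i,
        (VV A τ E).mul_mem (algebraMap_mem_VV A hτ hy) (g.mem i), ?_⟩
      rw [hxy, Algebra.smul_def, map_mul, evE_apply, mul_assoc]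
  have := hsum Finset.univ
  rwa [g.β.sum_repr] at this

/-- lifting an idempotent of `VV / 𝔪 VV` to `C0` -/
theorem exists_lift_idem (hτ : Transcendental K τ) (hgen : IsGen K τ) {n : ℕ}
    (gb : GoodBasis A τ E n) (θ : (↥A)[X]) (hθ : Squarefree (redP A θ)) (hD : DiffHyp A τ E θ)
    {ε : E} (hε : ε ∈ VV A τ E) (hid : SmV A τ E (ε * ε - ε)) :
    ∃ e0 ∈ C0 A τ E, SmV A τ E (ε - e0) ∧ Sm0 A τ E (e0 * e0 - e0) := by
  obtain ⟨S, hS, hy⟩ := hε
  have hSV : evE A τ E S ∈ VV A τ E := C0_le_VV A τ E (evE_mem_C0 A τ E S)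
  have h1 : Sm0 A τ E ((evE A τ E S * ε) * (evE A τ E S * ε) - evE A τ E S * (evE A τ E S * ε)) := by
    refine Sm0_of_SmV A hτ hgen ?_ ?_
    · exact (C0 A τ E).sub_mem ((C0 A τ E).mul_mem hy hy)
        ((C0 A τ E).mul_mem (evE_mem_C0 A τ E S) hy)
    · have := SmV.mul_left A hid ((VV A τ E).mul_mem hSV hSV)
      convert this using 1
      ring
  obtain ⟨e0, he0, h2⟩ := nu_idem hτ hgen gb θ hθ hD hy S hS h1
  have h3 : SmV A τ E (ε - e0) := by
    refine SmV_of_evE_mul A hτ hS ?_
    have := h2.SmV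
    convert this using 1
    ring
  have hεV : ε ∈ VV A τ E := ⟨S, hS, hy⟩
  refine ⟨e0, he0, h3, Sm0_of_SmV A hτ hgen ?_ ?_⟩
  · exact (C0 A τ E).sub_mem ((C0 A τ E).mul_mem he0 he0) he0
  · have hV : 1 - e0 - ε ∈ VV A τ E :=
      (VV A τ E).sub_mem ((VV A τ E).sub_mem (VV A τ E).one_mem (C0_le_VV A τ E he0)) hεV
    have := SmV.add A (SmV.mul_left A h3 hV) hid
    convert this using 1
    ring

end Charts

section Core

variable {K : Type*} [Field K] [IsAlgClosed K] [CharZero K] {A : ValuationSubring K}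
variable {L : Type*} [Field L] [Algebra K L] {τ : L}
variable {F : Type*} [Field F] [Algebra L F] [Algebra K F] [IsScalarTower K L F]
  [FiniteDimensional L F]
variable {E : Type*} [Field E] [Algebra L E] [Algebra F E] [IsScalarTower L F E]
  [Algebra K E] [IsScalarTower K F E] [IsScalarTower K L E]

theorem squarefree_theta (c : A) (hc : IsUnit c) : Squarefree (redP A (X * (X - C c))) := by
  have h0 : IsLocalRing.residue A c ≠ 0 := (hc.map (IsLocalRing.residue A)).ne_zero
  have e : redP A (X * (X - C c)) = X * (X - C (IsLocalRing.residue A c)) := by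
    simp [redP]
  rw [e]
  apply Polynomial.Separable.squarefree
  refine Polynomial.separable_X.mul (Polynomial.separable_X_sub_C) ?_
  have : IsCoprime (X - C (0 : kk A)) (X - C (IsLocalRing.residue A c)) :=
    Polynomial.isCoprime_X_sub_C_of_isUnit_sub (by
      rw [zero_sub]; exact (isUnit_iff_ne_zero.mpr h0).neg)
  simpa using this

theorem core (hA : Arch A) (hτ : Transcendental K τ) (hgen : IsGen K τ)
    {ι : Type*} [Fintype ι] (g : GoodRed A τ F ι)
    (c0 : A) (hc0 : IsUnit c0) (hbr : Br K τ F (c0 : K))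
    (p : ℕ) (hp : p.Prime) (hpA : ((p : K))⁻¹ ∈ A)
    (f : F) (hf : f ≠ 0) (hdiv : ∀ P : AlgebraicCurve.Place K F, (p : ℤ) ∣ P.ord f)
    (h1 : SmV A τ F (f - 1)) (h2 : SmV A τ F (f⁻¹ - 1))
    (u : E) (hu : u ^ p = algebraMap F E f)
    (b : Module.Basis (Fin p) F E) (hb : ∀ a, b a = u ^ (a : ℕ)) : False := by
  classical
  have : FiniteDimensional F E := Module.Finite.of_basis b
  have : FiniteDimensional L E := FiniteDimensional.trans L F E
  have hp0 : (p : K) ≠ 0 := by exact_mod_cast hp.ne_zero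
  have hfV : f ∈ VV A τ F := by
    have := (VV A τ F).add_mem h1.mem_VV (VV A τ F).one_mem
    rwa [sub_add_cancel] at this
  have hfV' : f⁻¹ ∈ VV A τ F := by
    have := (VV A τ F).add_mem h2.mem_VV (VV A τ F).one_mem
    rwa [sub_add_cancel] at this
  obtain ⟨g', hg'⟩ := goodRed_kummer hτ hgen g p hp.pos hpA f hfV hfV' u hu b hb
  have hbrE : Br K τ E (c0 : K) := br_kummer hτ hgen hbr p hp f hf hdiv u hu b hb
  have hτ' := transcendental_inv' hτ
  have hgen' := isGen_inv hτ hgen
  obtain ⟨gb⟩ := exists_goodBasis hτ hgen g'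
  obtain ⟨gb'⟩ := exists_goodBasis hτ' hgen' (g'.inv hτ)
  -- the inverse of `c0`
  obtain ⟨c0u, rfl⟩ := hc0
  have hc0ne : ((c0u : A)) ≠ 0 := c0u.ne_zero
  have hc0inv : (((c0u⁻¹ : Aˣ) : A) : K) = ((c0u : A) : K)⁻¹ := by
    have : ((c0u : A) : K) * (((c0u⁻¹ : Aˣ) : A) : K) = 1 := by
      have h := congrArg (Subtype.val) (c0u.mul_inv)
      exact h
    exact eq_inv_of_mul_eq_one_right this
  have hD : DiffHyp A τ E (X * (X - C (c0u : A))) := diffHyp hτ hgen _ hc0ne hbrE
  have hD' : DiffHyp A τ⁻¹ E (X * (X - C ((c0u⁻¹ : Aˣ) : A))) :=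
    diffHyp hτ' hgen' _ (c0u⁻¹).ne_zero (by rw [hc0inv]; exact hbrE.inv hτ)
  have hfg : FgC0 A τ E := fgC0 hτ hgen hA gb
  -- the idempotent
  have huV : u ∈ VV A τ E := by
    refine mem_VV_of_pow_mem A hτ hp.pos ?_
    rw [hu]; exact algebraMap_mem_VV_of_mem hfV
  set pinv : E := algebraMap L E (algebraMap K L ((p : K))⁻¹) with hpinv
  have hpinvV : pinv ∈ VV A τ E :=
    algebraMap_mem_VV A hτ ((algebraMap_mem_OG_iff A hτ _).mpr hpA)
  have hpp : pinv * (p : E) = 1 := by
    have : (p : E) = algebraMap L E (algebraMap K L (p : K)) := by simp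
    rw [this, hpinv, ← map_mul, ← map_mul, inv_mul_cancel₀ hp0, map_one, map_one]
  set s : E := ∑ a ∈ Finset.range p, u ^ a with hs
  have hsV : s ∈ VV A τ E := (VV A τ E).sum_mem fun a _ => (VV A τ E).pow_mem huV a
  set ε : E := pinv * s with hε
  have hεV : ε ∈ VV A τ E := (VV A τ E).mul_mem hpinvV hsV
  set T : E := ∑ a ∈ Finset.range p, ∑ c ∈ Finset.range a, u ^ c with hT
  have hTV : T ∈ VV A τ E := (VV A τ E).sum_mem fun a _ =>
    (VV A τ E).sum_mem fun c _ => (VV A τ E).pow_mem huV c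
  have hsT : s - p = T * (u - 1) := by
    rw [hT, Finset.sum_mul, hs]
    have : (p : E) = ∑ a ∈ Finset.range p, (1 : E) := by simp
    rw [this, ← Finset.sum_sub_distrib]
    exact Finset.sum_congr rfl fun a _ => (geom_sum_mul u a).symm
  have hsu : s * (u - 1) = algebraMap F E (f - 1) := by
    rw [hs, geom_sum_mul, hu, map_sub, map_one]
  have hid : SmV A τ E (ε * ε - ε) := by
    have h3 : SmV A τ E (algebraMap F E (f - 1)) := SmV_algebraMap_of_SmV h1
    have := SmV.mul_left A h3 ((VV A τ E).mul_mem ((VV A τ E).mul_mem hpinvV hpinvV) hTV)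
    convert this using 1
    rw [← hsu, hε]
    have : pinv * s * (pinv * s) - pinv * s = pinv * pinv * s * (s - p) +
        (pinv * (p : E) - 1) * (pinv * s) := by ring
    rw [this, hpp, hsT]
    ring
  obtain ⟨e0, he0, h0ε, hi0⟩ := exists_lift_idem hτ hgen gb _ (squarefree_theta _ c0u.isUnit) hD hεV hid
  obtain ⟨e1, he1, h1ε, hi1⟩ := exists_lift_idem hτ' hgen' gb' _ (squarefree_theta _ (c0u⁻¹).isUnit) hD'
    (by rw [VV_inv A hτ]; exact hεV) ((SmV_inv A hτ _).mpr hid)
  have h01 : SmV A τ E (e0 - e1) := by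
    have := SmV.sub A ((SmV_inv A hτ _).mp h1ε) h0ε
    convert this using 1
    ring
  -- coordinates of `ε`
  have hεb : ε = ∑ a : Fin p, (algebraMap L F (algebraMap K L ((p : K))⁻¹)) • b a := by
    rw [hε, hs, Finset.mul_sum, Finset.sum_range]
    refine Finset.sum_congr rfl fun a _ => ?_
    rw [hb, Algebra.smul_def, hpinv, ← IsScalarTower.algebraMap_apply L F E]
  have hrepr : ∀ a : Fin p, b.repr ε a = algebraMap L F (algebraMap K L ((p : K))⁻¹) := by
    intro a
    rw [hεb, map_sum, Finsupp.finsetSum_apply, Finset.sum_eq_single a]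
    · simp
    · intro c _ hc
      simp [Finsupp.single_apply, hc]
    · simp
  have hone : (1 : E) = b ⟨0, hp.pos⟩ := by rw [hb]; simp
  -- if the coordinates `(i, a)` of some `x` with `b.repr x a = p⁻¹` are all small, contradiction
  have hcontra : ∀ (x : E) (a : Fin p), SmV A τ E x →
      b.repr x a = algebraMap L F (algebraMap K L ((p : K))⁻¹) → False := by
    intro x a hx hxa
    apply not_SmV_one (E := F) A hτ hgen
    apply g.SmV_of_repr hτ
    intro i
    have h4 := g'.repr_SmG hτ hgen hx (i, a)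
    rw [hg', Module.Basis.smulTower_repr, hxa] at h4
    simp only at h4
    have h5 : algebraMap L F (algebraMap K L ((p : K))⁻¹) = (algebraMap K L ((p : K))⁻¹) • (1 : F) := by
      rw [Algebra.smul_def, mul_one]
    rw [h5, map_smul, Finsupp.smul_apply, smul_eq_mul] at h4
    have h6 : algebraMap K L (p : K) ∈ OG A τ :=
      (algebraMap_mem_OG_iff A hτ _).mpr (natCast_mem A p)
    have := SmG.mul_left A h4 h6
    rwa [← mul_assoc, ← map_mul, mul_inv_cancel₀ hp0, map_one, one_mul] at this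
  rcases conn hτ hgen hA hfg he0 he1 hi0 hi1 h01 with h | h
  · have hx : SmV A τ E ε := by
      have := SmV.add A h0ε h.SmV
      rwa [sub_add_cancel] at this
    exact hcontra ε ⟨0, hp.pos⟩ hx (hrepr _)
  · have hx : SmV A τ E (ε - 1) := by
      have := SmV.add A h0ε h.SmV
      convert this using 1
      ring
    refine hcontra (ε - 1) ⟨1, hp.one_lt⟩ hx ?_
    rw [map_sub, Finsupp.sub_apply, hrepr, hone, b.repr_self, Finsupp.single_apply, if_neg, sub_zero]
    intro h
    simpa using congrArg Fin.val h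

end Core

universe u v w x

theorem theoremZ : TheoremZ.{u, v, w, x} := by
  intro K _ _ _ A hA L _ _ τ hτ hgen F _ _ _ _ _ ι _ g c0 hc0 hbr p hp hpA f hf hdiv h1 h2
  by_contra hcon
  push Not at hcon
  have hirr : Irreducible (X ^ p - C f : F[X]) := X_pow_sub_C_irreducible_of_prime hp hcon
  haveI : Fact (Irreducible (X ^ p - C f : F[X])) := ⟨hirr⟩
  have hmonic : (X ^ p - C f : F[X]).Monic := monic_X_pow_sub_C f hp.ne_zero
  have hdeg : (X ^ p - C f : F[X]).natDegree = p := natDegree_X_pow_sub_C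
  let pb := AdjoinRoot.powerBasis' hmonic
  have hdim : pb.dim = p := hdeg
  let b : Module.Basis (Fin p) F (AdjoinRoot (X ^ p - C f : F[X])) := pb.basis.reindex (finCongr hdim)
  refine core (E := AdjoinRoot (X ^ p - C f : F[X])) hA hτ hgen g c0 hc0 hbr p hp hpA f hf hdiv h1 h2
    (AdjoinRoot.root _) ?_ b ?_
  · have := AdjoinRoot.eval₂_root (X ^ p - C f : F[X])
    rw [eval₂_sub, eval₂_pow, eval₂_X, eval₂_C, sub_eq_zero] at this
    exact this
  · intro a
    simp [b, pb, PowerBasis.coe_basis]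

end Fermat.Agent.S18.KL
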