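import Fermat.Agent.S18.Z.Defs

/-!
# S18 / (KL) : the statement of the abstract Theorem Z (interface for the modular side)

All notions are defined in `Z/Defs.lean`.  In the application `K = Kb`, `F = FN M`, `L = Kb⟮t⟯`,
`τ = IntermediateField.AdjoinSimple.gen Kb t`.
The theorem itself is `Fermat.Agent.S18.KL.theoremZ : TheoremZ` in `Z/Main.lean`.
-/

set_option autoImplicit false

namespace Fermat.Agent.S18.KL

universe u v w x

/-- the statement of Theorem Z -/
def TheoremZ : Prop :=
  ∀ {K : Type u} [Field K] [IsAlgClosed K] [CharZero K] (A : ValuationSubring K) (_ : Arch A)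
    {L : Type v} [Field L] [Algebra K L] (τ : L) (_ : Transcendental K τ) (_ : IsGen K τ)
    {F : Type w} [Field F] [Algebra L F] [Algebra K F] [IsScalarTower K L F] [FiniteDimensional L F]
    {ι : Type x} [Fintype ι] (_ : GoodRed A τ F ι)
    (c0 : A) (_ : IsUnit c0) (_ : Br K τ F (c0 : K))
    (p : ℕ) (_ : p.Prime) (_ : ((p : K))⁻¹ ∈ A)
    (f : F) (_ : f ≠ 0) (_ : ∀ P : AlgebraicCurve.Place K F, (p : ℤ) ∣ P.ord f)
    (_ : SmV A τ F (f - 1)) (_ : SmV A τ F (f⁻¹ - 1)),
    ∃ u : F, u ^ p = f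

end Fermat.Agent.S18.KL
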